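import Fermat.Agent.RT.Raise.DataDefs
import Fermat.Agent.RT.World.RaiseP
import Fermat.Agent.RT.Main.Conclusion
import Fermat.Agent.RT.Main.Residual

/-!
# Modularity of the level with `p` added

The Tate module is a point of the strict deformation ring, so by raising the level at `p` it kills
what dies on the part of the level `N₀ ∏_Loc q · p`: the curve is modular of that level.
-/

set_option autoImplicit false
set_option linter.unusedSectionVars false

noncomputable section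

open IsLocalRing Matrix Polynomial WeierstrassCurve FLTAgent.Deformation FLTAgent.GalRep

namespace FLTAgent.RT.Main

attribute [local instance] dualAlg

variable {𝒪 : Type} [CommRing 𝒪] [IsDomain 𝒪] [IsDiscreteValuationRing 𝒪]
  [IsAdicComplete (maximalIdeal 𝒪) 𝒪] [Finite (ResidueField 𝒪)]
  {ρbar : ResidualGaloisRep (ResidueField 𝒪)}
  {𝒟 𝒟' : ∀ ⦃A : Type⦄ [CommRing A] [IsLocalRing A] [Algebra 𝒪 A], GaloisRepAdic A → Prop}

/-- Maps of deformation rings agreeing on the traces are equal. -/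
theorem algHom_ext_traces (h𝒟 : GaloisRep.IsDeformationCondition 𝒪 𝒟)
    (D : GaloisRep.DeformationRingData 𝒪 ρbar 𝒟) (E : GaloisRep.DeformationRingData 𝒪 ρbar 𝒟')
    (f g : D.R →ₐ[𝒪] E.R) (h : ∀ σ, f (D.ρ.trace σ) = g (D.ρ.trace σ)) : f = g := by
  refine AlgHom.ext fun x => sub_eq_zero.mp
    (Deformation.eq_zero_of_forall_mem_pow (I := maximalIdeal E.R) fun n => ?_)
  have := (isCoeff_deformationRing E).finite_residueField
  have : Finite (E.R ⧸ maximalIdeal E.R ^ n) := IsLocalRing.finite_quotient_iff.mpr ⟨n, le_rfl⟩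
  have e := Sys.algHom_finite_ext_frobTraces h𝒟 D ∅
    (φ := (Ideal.Quotient.mkₐ 𝒪 (maximalIdeal E.R ^ n)).comp f)
    (ψ := (Ideal.Quotient.mkₐ 𝒪 (maximalIdeal E.R ^ n)).comp g) (by
      rintro _ ⟨ℓ, -, -, A, -, σ, -, rfl⟩
      exact congrArg (Ideal.Quotient.mkₐ 𝒪 (maximalIdeal E.R ^ n)) (h σ))
  exact (Ideal.Quotient.eq (I := maximalIdeal E.R ^ n)).mp (DFunLike.congr_fun e x)

variable [CharZero 𝒪] {W : WeierstrassCurve ℤ} {p : ℕ} [Fact p.Prime] {aux : Finset ℕ}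
  (F : Frame 𝒪 W p (flatAt p) aux) {N₀ : ℕ} [NeZero N₀]

/-- The deformation ring without a condition at `p` acts on the base level with `p` added, or the
part there is zero. -/
theorem exists_act_base_p (hB : Base F N₀) (hI : Inputs F N₀) (hpN₀ : ¬ p ∣ N₀)
    (D₀ : F.FreeData (badSet W p)) :
    haveI := neZero_p (p := p)
    haveI := Sys.neZero_baseN (N₀ := N₀) F.prime_qLoc Finset.univ
    ∃ φ₀ : D₀.R →ₐ[𝒪] Module.End 𝒪 (cohPart trivChar
      (one_dvd (Sys.baseN N₀ F.qLoc Finset.univ * p))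
      (prime_famPrime (W := W) (p := p) (aux := aux)) (famCoeff 𝒪)),
      Sys.IsFrobCompat D₀ (excSet W p aux) φ₀ ∧
      ∀ x : D₀.R →ₐ[𝒪] 𝒪, (∀ r, φ₀ r = 0 → x r = 0) →
        (∀ ℓ : ℕ, ℓ.Prime → ℓ ∉ excSet W p aux → ∀ A : ValuationSubring (AlgebraicClosure ℚ),
          A.LiesOverPrime ℓ → ∀ σ : Gal, A.IsFrobeniusAt σ ℓ →
            x (D₀.ρ.trace σ) = (W.apOfModel ℓ : 𝒪)) →
        W.IsModularModelOfLevel (Sys.baseN N₀ F.qLoc Finset.univ * p) := by
  have := neZero_p (p := p)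
  have := Sys.neZero_baseN (N₀ := N₀) F.prime_qLoc Finset.univ
  set N := Sys.baseN N₀ F.qLoc Finset.univ with hN
  set P := cohPart trivChar (one_dvd (N * p)) (prime_famPrime (W := W) (p := p) (aux := aux))
    (famCoeff 𝒪) with hP
  rcases subsingleton_or_nontrivial P with hs | hs
  · have : Subsingleton (Module.End 𝒪 P) := ⟨fun f g => LinearMap.ext fun v => Subsingleton.elim _ _⟩
    let φ₀ : D₀.R →ₐ[𝒪] Module.End 𝒪 P :=
      { toFun := fun _ => 0
        map_one' := Subsingleton.elim _ _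
        map_mul' := fun _ _ => Subsingleton.elim _ _
        map_zero' := rfl
        map_add' := fun _ _ => Subsingleton.elim _ _
        commutes' := fun _ => Subsingleton.elim _ _ }
    refine ⟨φ₀, fun ℓ hℓ _ A _ σ _ v => ?_, fun x hx _ => ?_⟩
    · rw [show v = 0 from Subtype.ext (congrArg Subtype.val (Subsingleton.elim (α := P) v 0))]
      exact (congrArg Subtype.val (map_zero (φ₀ (D₀.ρ.trace σ)))).trans (map_zero _).symm
    · exact absurd ((map_one x).symm.trans (hx 1 rfl)) one_ne_zero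
  · have hpN : ¬ p ∣ N := Sys.not_dvd_baseN F.prime_qLoc Fact.out hpN₀
      fun i _ => (F.loc_spec i).2.2.2.1
    have hsq : Squarefree (N * p) :=
      (Nat.squarefree_mul ((Nat.Prime.coprime_iff_not_dvd Fact.out).mpr hpN).symm).mpr
        ⟨squarefree_baseN F hB Finset.univ, (Fact.out : p.Prime).squarefree⟩
    have hsq2 : ∀ q : ℕ, q.Prime → ¬ q ^ 2 ∣ N * p := fun q hq h =>
      hq.not_isUnit (hsq q (by rwa [← pow_two]))
    have hS : ∀ q : ℕ, q.Prime → q ∣ N * p → q ∈ excSet W p aux := fun q hq h => by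
      rcases hq.dvd_mul.mp h with h | h
      · exact mem_excSet_of_dvd_baseN F hB hq h
      · exact Finset.mem_union_left _
          (Finset.mem_insert.mpr (Or.inl ((Nat.prime_dvd_prime_iff_eq hq Fact.out).mp h)))
    have hI' : Inputs F.toFree p := ⟨fun {N} _ {S} b _ _ _ _ H => trivial, hI.unip, hI.special⟩
    obtain ⟨Θ, φ₀, hφ₀, -, hΘ, hΘT⟩ := exists_act F.toFree hI' (χ := trivChar) (one_dvd (N * p))
      F.nonEis squarefree_one (fun q hq h => absurd (Nat.dvd_one.mp h) hq.ne_one)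
      (mul_one (N * p)).symm F.minS_subset D₀ hS
      ⟨fun _ => dvd_rfl, fun _ => dvd_mul_left p N⟩ (hsq2 p Fact.out)
      (fun q hq _ => hsq2 q (Frame.prime_of_mem_badSet hq)) fun _ _ => rfl
    refine ⟨φ₀, hφ₀, fun x hx hc => ?_⟩
    obtain ⟨g, hg, hgc⟩ := exists_eigenform_of_point (N := N * p) hS Θ (fun σ => D₀.ρ.trace σ) φ₀
      hΘ hΘT x hx W.apOfModel fun ℓ hℓ _ hℓS A hA σ hσ => hc ℓ hℓ hℓS A hA σ hσ
    exact isModularModelOfLevel_of_almost_all F.disc_ne hg (excSet W p aux) fun ℓ hℓ hℓN hℓS => by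
      rw [hgc ℓ hℓ hℓN hℓS]

variable {ψ : ℤ_[p] →+* 𝒪}

/-- **The curve is modular of the base level with `p` added**, from the data of raising. -/
theorem isModular_of_raiseData (hB : Base F N₀) (hI : Inputs F N₀) (hpN₀ : ¬ p ∣ N₀)
    (d : OrdFrob F ψ) (hs : (GaloisRepAdic.ofResidualGaloisRep F.rb).IsStrictOrdinaryAt p)
    (hTate : ∀ (c : (Mat 𝒪)ˣ) (hN : MatCont (conjRep c (Tate.tateO F.disc_ne p ψ))),
      problem 𝒪 p (strictAt p) (badSet W p) (badSet W p)
        (matRep (conjRep c (Tate.tateO F.disc_ne p ψ)) hN))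
    (Pl : F.Places) {r gf gs : ℕ} [∀ n, Fact (Odd (Nat.card (TWGrp p r n)))]
    (h1 : gf + ∑ i, (Pl.Ds i).h0 + 1 ≤ r) (h2 : gs + ∑ i, (Pl.Ds i).h0 ≤ r)
    (St : ∀ n, PairStage F Pl d.extra gf gs r n) (D : RaiseData d hB hI St) :
    W.IsModularModelOfLevel (Sys.baseN N₀ F.qLoc Finset.univ * p) := by
  have := neZero_p (p := p)
  have := Sys.neZero_baseN (N₀ := N₀) F.prime_qLoc Finset.univ
  set S := badSet W p
  obtain ⟨Df⟩ := F.nonempty_freeData (S := S) subset_rfl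
  obtain ⟨Db⟩ := (F.toStrict hs).nonempty_defData (S := S) subset_rfl
  obtain ⟨Mf, hMf, -, hef⟩ := exists_isLift_of_residual_isEquiv (isCoeff_deformationRing Df) Df.ρ
    (fun _ => rfl) Df.residual_isEquiv
  obtain ⟨πb, -, hπbtr, hMb, heb⟩ := (F.toStrict hs).exists_fromFree Df hef Db
  obtain ⟨x, hx⟩ := Tate.exists_isTatePoint F.disc_ne p ψ F.mem_p (resHom F.mem_p) hTate Db heb
  obtain ⟨φ₀, hφ₀, hmod⟩ := exists_act_base_p F hB hI hpN₀ Df
  refine hmod (x.comp πb) (fun z hz => ?_) fun ℓ hℓ hℓS A hA σ hσ => ?_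
  swap
  · rw [AlgHom.comp_apply, hπbtr, ← trace_of_isEquiv heb σ]
    obtain ⟨hgood, hℓp⟩ := F.good_of_notMem hℓ fun h => hℓS (Finset.mem_union_left _ h)
    exact Tate.trace_point_frobenius F.disc_ne p ψ hx hℓ hgood hℓp hA hσ
  rw [AlgHom.comp_apply]
  have hmapf : ∀ n, ∃ f : (St n).D₀.R →ₐ[𝒪] Df.R, Function.Surjective f ∧
      ∀ σ, f ((St n).D₀.ρ.trace σ) = Df.ρ.trace σ := fun n => by
    obtain ⟨f, hf, htr, -⟩ := Tate.exists_mapToBase (F.toFree.type.isCond _ _) (St n).D₀ Df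
      ⟨⟨Df.isOfType.1.1, trivial, fun q hq hqS => Df.isOfType.1.2.2 q hq fun h =>
        hqS (Finset.mem_union_left _ h)⟩, Df.isOfType.2⟩ (St n).equiv₀ hef
    exact ⟨f, hf, htr⟩
  have hmaps : ∀ n, ∃ f : (St n).Ds.R →ₐ[𝒪] Db.R,
      (∀ σ, f ((St n).Ds.ρ.trace σ) = Db.ρ.trace σ) ∧
      ∃ w : (Mat Db.R)ˣ, mapRep (f : (St n).Ds.R →+* Db.R)
        (mapRep ((St n).πs : (St n).D₀.R →+* (St n).Ds.R) (St n).M₀) =
          conjRep w (mapRep (πb : Df.R →+* Db.R) Mf) := fun n => by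
    obtain ⟨f, -, htr, hw⟩ := Tate.exists_mapToBase ((F.toStrict hs).type.isCond _ _) (St n).Ds Db
      ⟨⟨Db.isOfType.1.1, Db.isOfType.1.2.1, fun q hq hqS => Db.isOfType.1.2.2 q hq fun h =>
        hqS (Finset.mem_union_left _ h)⟩, Db.isOfType.2⟩ (St n).equivs heb
    exact ⟨f, htr, hw⟩
  choose f hf hftr using hmapf
  choose fs hfstr hfsM using hmaps
  have hcomm : ∀ n y, fs n ((St n).πs y) = πb (f n y) := fun n y =>
    DFunLike.congr_fun (algHom_ext_traces (F.toFree.type.isCond _ _) (St n).D₀ Db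
      ((fs n).comp (St n).πs) (πb.comp (f n)) fun σ => by
        rw [AlgHom.comp_apply, AlgHom.comp_apply, (St n).πs_trace, hfstr, hftr, hπbtr]) y
  -- the points of the stages
  let C := fun n i => localCoordMap ((St n).C₀ i) (St n).πs (St n).πs_surj
  let xn : ∀ n, (St n).Ds.R →ₐ[𝒪] 𝒪 := fun n => x.comp (fs n)
  have hxn : ∀ n, Tate.IsTatePoint F.disc_ne p ψ
      (mapRep ((St n).πs : (St n).D₀.R →+* (St n).Ds.R) (St n).M₀) (xn n) := fun n =>
    hx.comp F.disc_ne p ψ _ (hfsM n)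
  let xs : ℕ → MvPowerSeries (LocVar F.Loc ((Unit ⊕ Fin gf) ⊕ (Empty ⊕ Fin gs))) 𝒪 →ₐ[𝒪] 𝒪 :=
    fun n => (xn n).comp ((St n).πs.comp (St n).γ₀)
  have hv : ∀ n i, (fun k => xs n (locCoord i k)) = fun k => xn n ((C n i).v k) :=
    fun n i => funext fun k => by
      show xn n ((St n).πs ((St n).γ₀ (locCoord i k))) = _
      rw [(St n).γ₀_coord]
      rfl
  have hqs : ∀ i : F.Loc, i.1.Prime ∧ i.1 ≠ p ∧ (i.1 : ℤ) ∣ W.Δ := fun i =>
    ⟨(F.loc_spec i).1, (F.loc_spec i).2.2.2.1, (F.loc_spec i).2.2.2.2.1⟩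
  choose ε _ hεtr hεok _ using fun i => Tate.exists_sign_point F.disc_ne p ψ F.ne_two
    (isCoeff_deformationRing (St 0).Ds) (hxn 0) (hqs i).1 (hqs i).2.1 (Pl.q_eq i) (hqs i).2.2
    (F.semistable _ (hqs i).1 (hqs i).2.2) (Pl.liesOver i) (Pl.frob i) (C 0 i)
  choose K hK using fun i => Tate.exists_ramified_point F.disc_ne p ψ F.mem_p F.ne_two (hqs i).1
    (hqs i).2.2 (F.semistable _ (hqs i).1 (hqs i).2.2) (Pl.liesOver i)
  choose zn hzn using fun n => hf n z
  choose g hg using fun n => (St n).γs_surj ((St n).πs (zn n))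
  refine D.sys.point_eq_zero (isUnit_two F.mem_p F.ne_two) ?_ ?_ (rank_pos F hB ∅)
    (ε := fun i => (ε i : 𝒪)) hεok D.isUnit_c (Sum.inl ()) D.sq_sub_mem xs
    (fun n i => ?_) (fun n i => ?_) (fun n i => ?_) ⟨Finset.univ.sup K, fun n i => ?_⟩
    (fun n j => ?_) (fun n j => ?_) g (fun n => ?_) fun n => ?_
  · simp only [Nat.card_sum, Nat.card_sigma, Nat.card_fin, Nat.card_unique]; omega
  · simp only [Nat.card_sum, Nat.card_sigma, Nat.card_fin, Nat.card_of_isEmpty]; omega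
  · rw [hv]
    exact Tate.rel_point F.disc_ne p ψ F.semistable (hxn n) (hqs i).1 (hqs i).2.1 (Pl.liesOver i)
      (C n i)
  · rw [hv]
    exact Tate.isNorm_point (C n i) _
  · have e : xs n (frobTrace Pl.Ds i) =
        ((Pl.Ds i).phiMat fun k => xs n (locCoord i k)).trace := by
      rw [frobTrace, Matrix.trace_fin_two, map_add, ← Matrix.map_apply (f := xs n),
        ← Matrix.map_apply (f := xs n), (Pl.Ds i).phiMat_map, ← Matrix.trace_fin_two]
    rw [e, hv, Tate.trace_phiMat_point F.disc_ne p ψ (hxn n) (C n i), hεtr, map_mul, map_add,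
      map_intCast, map_natCast, map_one, Pl.q_eq]
  · obtain ⟨k, hk, hk'⟩ := hK i (St n).Ds.R (isCoeff_deformationRing (St n).Ds) _ _ (hxn n)
      (Pl.Ds i) (Pl.φ i) (C n i)
    refine ⟨k, hk, fun h => hk' (Ideal.pow_le_pow_right (Finset.le_sup (Finset.mem_univ i)) ?_)⟩
    rwa [← congrFun (hv n i) k]
  · show xn n ((St n).πs ((St n).γ₀ _)) = xn n ((St n).πs ((St n).γ₀ _))
    rw [(St n).γ₀_right, D.toS_spec n j]
  · obtain ⟨B, τ, hB', hτ, e⟩ := D.dia_spec n j
    show xn n ((St n).πs ((St n).γ₀ _)) = 2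
    rw [e, show (St n).πs ((St n).M₀ τ).trace =
      (mapRep ((St n).πs : (St n).D₀.R →+* (St n).Ds.R) (St n).M₀ τ).trace by
        simp [mapRep_apply, Matrix.trace_fin_two]]
    exact Tate.trace_point_inertia F.disc_ne p ψ F.semistable (hxn n) ((St n).flat.qv_prime j)
      ((St n).flat.qv_ne_p j) hB' hτ
  · show xn n ((St n).πs ((St n).γ₀ _)) = x (πb z)
    rw [(St n).γ₀_right, hg, AlgHom.comp_apply, hcomm, hzn]
  · exact D.base Df (excSet W p aux) φ₀ hφ₀ n (f n) (hftr n) (zn n) (g n)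
      (by rw [hzn]; exact hz) (hg n)

end FLTAgent.RT.Main
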