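import Fermat.Agent.RT.Main.Residual
import Fermat.Agent.RT.Main.Frame
import Fermat.Agent.RT.Cond.InertiaCyclo
import Fermat.Agent.Frobenius.Places
import Fermat.Agent.RT.AtP.ResidualBasis

/-!
# The residual representation at a multiplicative `p`

A stable line at every place over `p` with trivial inertia on the quotient, and a Frobenius element
of cyclotomic value `v` with `v - 1` a unit at which the residual trace is `ε (1 + v)`.
-/

set_option autoImplicit false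
set_option linter.unusedSectionVars false

noncomputable section

open IsLocalRing Matrix WeierstrassCurve FLTAgent.Deformation FLTAgent.GalRep

namespace FLTAgent.RT.Main

variable {𝒪 : Type} [CommRing 𝒪] [IsDomain 𝒪] [IsDiscreteValuationRing 𝒪]
  [IsAdicComplete (maximalIdeal 𝒪) 𝒪] [Finite (ResidueField 𝒪)]
  {W : WeierstrassCurve ℤ} {p : ℕ} [Fact p.Prime] {loc : PCond} {aux : Finset ℕ}

/-- A Frobenius element at `p` with its residual eigenvalues `ε`, `ε v`. -/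
structure OrdFrob (F : Frame 𝒪 W p loc aux) (ψ : ℤ_[p] →+* 𝒪) : Type where
  P : ValuationSubring (AlgebraicClosure ℚ)
  liesOver : P.LiesOverPrime p
  φ : Gal
  frob : P.IsFrobeniusAt φ p
  ε : 𝒪
  sq : ε * ε = 1
  unit : IsUnit (ψ (cyclo p φ : ℤ_[p]) - 1)
  trace : (barMatrix F.rb φ).trace = residue 𝒪 (ε * (1 + ψ (cyclo p φ : ℤ_[p])))
  det : (barMatrix F.rb φ).det = residue 𝒪 (ψ (cyclo p φ : ℤ_[p]))
  line : ∀ P' : ValuationSubring (AlgebraicClosure ℚ), P'.LiesOverPrime p →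
    ∃ w : Fin 2 → ResidueField 𝒪, w ≠ 0 ∧
      (∀ σ ∈ P'.decompositionSubgroup ℚ,
        ∃ c : ResidueField 𝒪, Matrix.mulVec (barMatrix F.rb σ) w = c • w) ∧
      ∀ σ ∈ P'.inertiaSubgroupIn ℚ, ∀ x,
        ∃ c : ResidueField 𝒪, Matrix.mulVec (barMatrix F.rb σ) x - x = c • w
  quot : ∃ b : Module.Basis (Fin 2) (ResidueField 𝒪) F.rb.V,
    (∀ s ∈ P.inertiaSubgroupIn ℚ, LinearMap.toMatrix b b (F.rb.ρ s) 1 0 = 0 ∧
      LinearMap.toMatrix b b (F.rb.ρ s) 1 1 = 1) ∧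
    LinearMap.toMatrix b b (F.rb.ρ φ) 1 0 = 0 ∧
      LinearMap.toMatrix b b (F.rb.ρ φ) 1 1 = residue 𝒪 ε

/-- The value of a character at a product of a nonexample and an example is an example. -/
theorem isUnit_one_sub_mul {R : Type} [CommRing R] [IsLocalRing R] {a b : R}
    (h1 : ¬ IsUnit (1 - a)) (h2 : IsUnit (1 - b)) : IsUnit (1 - a * b) := by
  by_contra h
  have h3 : 1 - b ∈ maximalIdeal R := by
    have e : 1 - b = (1 - a * b) - (1 - a) * b := by ring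
    rw [e]
    exact sub_mem h (Ideal.mul_mem_right _ _ h1)
  exact h3 h2

/-- An upper triangular matrix in a conjugate basis has an eigenline. -/
theorem exists_line_of_upper {k : Type} [Field k] (u : (Mat k)ˣ) (rb : Gal →* Mat k) (σ : Gal)
    (h : conjRep u rb σ 1 0 = 0) :
    (∃ c : k, rb σ *ᵥ ((↑u⁻¹ : Mat k) *ᵥ Pi.single 0 1) =
      c • ((↑u⁻¹ : Mat k) *ᵥ Pi.single 0 1)) ∧
    (conjRep u rb σ 1 1 = 1 → ∀ x, ∃ c : k,
      rb σ *ᵥ x - x = c • ((↑u⁻¹ : Mat k) *ᵥ Pi.single 0 1)) := by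
  set X := conjRep u rb σ with hX
  have hr : rb σ = (↑u⁻¹ : Mat k) * X * (u : Mat k) := by
    rw [hX, conjRep_apply]
    simp [mul_assoc]
  refine ⟨⟨X 0 0, ?_⟩, fun h11 x => ?_⟩
  · rw [hr, Matrix.mulVec_mulVec, mul_assoc, mul_assoc, Units.mul_inv, mul_one,
      ← Matrix.mulVec_mulVec, ← Matrix.mulVec_smul]
    congr 1
    ext i; fin_cases i <;> simp [h]
  · refine ⟨(X 0 0 - 1) * ((u : Mat k) *ᵥ x) 0 + X 0 1 * ((u : Mat k) *ᵥ x) 1, ?_⟩
    have e : x = (↑u⁻¹ : Mat k) *ᵥ ((u : Mat k) *ᵥ x) := by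
      rw [Matrix.mulVec_mulVec, Units.inv_mul, Matrix.one_mulVec]
    conv_lhs => rw [hr, ← Matrix.mulVec_mulVec, ← Matrix.mulVec_mulVec]; arg 2; rw [e]
    rw [← Matrix.mulVec_sub, ← Matrix.mulVec_smul]
    congr 1
    ext i
    fin_cases i <;> simp [Matrix.mulVec, dotProduct, Fin.sum_univ_two, h, h11]
    ring

/-- The trace in the strict shape: the sign times one plus the character. -/
theorem trace_strictShape {R : Type} [CommRing R] {X : Mat R} {χ : R} (hχ : IsUnit χ)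
    (hdet : X.det = χ) (h10 : X 1 0 = 0) (h00 : X 0 0 = χ * X 1 1) :
    X 1 1 * X 1 1 = 1 ∧ X.trace = X 1 1 * (1 + χ) := by
  refine ⟨hχ.mul_left_cancel ?_, ?_⟩
  · rw [mul_one, ← mul_assoc, ← h00]
    rwa [Matrix.det_fin_two, h10, mul_zero, sub_zero] at hdet
  · rw [Matrix.trace_fin_two, h00]; ring

/-- **The ordinary data at a multiplicative `p`.** -/
theorem nonempty_ordFrob (F : Frame 𝒪 W p loc aux) (ψ : ℤ_[p] →+* 𝒪) (hbad : (p : ℤ) ∣ W.Δ)
    (hc₄ : ¬ (p : ℤ) ∣ W.c₄) : Nonempty (OrdFrob F ψ) := by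
  have hp : p.Prime := Fact.out
  have hloc := Tate.isLocalHom_psi p ψ F.mem_p
  obtain ⟨g, hg⟩ := Tate.exists_isLift F.disc_ne p ψ F.mem_p (resHom F.mem_p)
  set f : ℤ_[p] →+* ResidueField 𝒪 := (residue 𝒪).comp ψ
  have hres : ((Tate.isCoeff_self (𝒪 := 𝒪)).toK : 𝒪 →+* ResidueField 𝒪) = residue 𝒪 :=
    RingHom.ext fun r => (Tate.isCoeff_self (𝒪 := 𝒪)).toK.commutes r
  set u : (Mat (ResidueField 𝒪))ˣ :=
    Units.map (RingHom.mapMatrix (m := Fin 2) (residue 𝒪)).toMonoidHom g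
  have hrb : barMatrix F.rb = conjRep u (mapRep f (FLTAgent.Tate.tateMat F.disc_ne p)) := by
    refine hg.symm.trans ?_
    rw [hres, mapRep_conjRep]; rfl
  have shape : ∀ P : ValuationSubring (AlgebraicClosure ℚ), P.LiesOverPrime p →
      ∃ G : (Mat ℤ_[p])ˣ,
        (∀ σ ∈ P.decompositionSubgroup ℚ,
          conjRep G (FLTAgent.Tate.tateMat F.disc_ne p) σ 1 0 = 0 ∧
          conjRep G (FLTAgent.Tate.tateMat F.disc_ne p) σ 0 0 =
            (cyclo p σ : ℤ_[p]) * conjRep G (FLTAgent.Tate.tateMat F.disc_ne p) σ 1 1) ∧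
        ∀ σ ∈ P.inertiaSubgroupIn ℚ,
          conjRep G (FLTAgent.Tate.tateMat F.disc_ne p) σ 1 0 = 0 ∧
          conjRep G (FLTAgent.Tate.tateMat F.disc_ne p) σ 1 1 = 1 := by
    intro P hP
    obtain ⟨σ₀, hσ₀, hu⟩ := RTCond.exists_inertia_cyclo_ne_one F.ne_two hP
    exact Tate.exists_strictShape_tateMat F.disc_ne p F.ne_two hbad hc₄ hP hσ₀ fun h => by
      rw [h, Units.val_one, sub_self] at hu
      exact not_isUnit_zero hu
  obtain ⟨P, φ₀, hP, hφ₀⟩ := Frobenius.exists_liesOverPrime_isFrobeniusAt hp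
  obtain ⟨φ, hφ, hv⟩ : ∃ φ, P.IsFrobeniusAt φ p ∧ IsUnit (1 - (cyclo p φ : ℤ_[p])) := by
    by_cases h : IsUnit (1 - (cyclo p φ₀ : ℤ_[p]))
    · exact ⟨φ₀, hφ₀, h⟩
    · obtain ⟨τ, hτ, hu⟩ := RTCond.exists_inertia_cyclo_ne_one F.ne_two hP
      refine ⟨φ₀ * τ, Frobenius.isFrobeniusAt_mul_of_mem_inertiaSubgroupIn hp.pos hφ₀ hτ, ?_⟩
      rw [map_mul, Units.val_mul]
      exact isUnit_one_sub_mul h hu
  obtain ⟨G, hD, hI⟩ := shape P hP
  obtain ⟨h10, h00⟩ := hD φ hφ.mem_decompositionSubgroup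
  obtain ⟨hsq, htr⟩ := trace_strictShape (Units.isUnit _) (by
    rw [conjRep_apply, Matrix.det_units_conj, FLTAgent.Tate.det_tateMat]) h10 h00
  have e : ∀ σ, (barMatrix F.rb σ).trace = f (FLTAgent.Tate.tateMat F.disc_ne p σ).trace ∧
      (barMatrix F.rb σ).det = f (FLTAgent.Tate.tateMat F.disc_ne p σ).det := fun σ => by
    rw [hrb, conjRep_apply, Matrix.trace_units_conj, Matrix.det_units_conj]
    exact ⟨by simp [mapRep_apply, Matrix.trace_fin_two],
      by rw [mapRep_apply]; exact (RingHom.map_det f _).symm⟩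
  set w₀ := Units.map (RingHom.mapMatrix (m := Fin 2) f).toMonoidHom G * u⁻¹
  have ew₀ : ∀ σ, conjRep w₀ (barMatrix F.rb) σ =
      (conjRep G (FLTAgent.Tate.tateMat F.disc_ne p) σ).map f := fun σ => by
    rw [hrb, conjRep_conjRep, inv_mul_cancel_right, ← mapRep_conjRep]; rfl
  obtain ⟨b₀, hb₀⟩ := AtP.exists_basis_toMatrix (residualBasis F.rb)
    (P := ((w₀⁻¹ : (Mat (ResidueField 𝒪))ˣ) : Mat (ResidueField 𝒪)))
    (Q := (w₀ : Mat (ResidueField 𝒪))) (Units.inv_mul w₀) (Units.mul_inv w₀)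
  have eb : ∀ σ, LinearMap.toMatrix b₀ b₀ (F.rb.ρ σ) =
      (conjRep G (FLTAgent.Tate.tateMat F.disc_ne p) σ).map f := fun σ => by
    rw [hb₀, ← ew₀, conjRep_apply]; rfl
  refine ⟨{
    P := P, liesOver := hP, φ := φ, frob := hφ
    ε := ψ (conjRep G (FLTAgent.Tate.tateMat F.disc_ne p) φ 1 1)
    sq := by rw [← map_mul, hsq, map_one]
    unit := by
      rw [← map_one ψ, ← map_sub, ← neg_sub, map_neg]
      exact ((hv.map ψ)).neg
    trace := by
      rw [(e φ).1, ← map_one ψ, ← map_add, ← map_mul, ← htr, conjRep_apply,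
        Matrix.trace_units_conj]
      rfl
    det := by rw [(e φ).2, FLTAgent.Tate.det_tateMat]; rfl
    quot := ⟨b₀, fun s hs => by
        rw [eb, Matrix.map_apply, Matrix.map_apply, (hI s hs).1, (hI s hs).2, map_zero, map_one]
        exact ⟨rfl, rfl⟩,
      by rw [eb, Matrix.map_apply, h10, map_zero],
      by rw [eb, Matrix.map_apply]; rfl⟩
    line := fun P' hP' => ?_ }⟩
  obtain ⟨G', hD', hI'⟩ := shape P' hP'
  set w := Units.map (RingHom.mapMatrix (m := Fin 2) f).toMonoidHom G' * u⁻¹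
  have ew : ∀ σ, conjRep w (barMatrix F.rb) σ =
      (conjRep G' (FLTAgent.Tate.tateMat F.disc_ne p) σ).map f := fun σ => by
    rw [hrb, conjRep_conjRep, inv_mul_cancel_right, ← mapRep_conjRep]; rfl
  refine ⟨(↑w⁻¹ : Mat (ResidueField 𝒪)) *ᵥ Pi.single 0 1, fun h0 => ?_, fun σ hσ => ?_,
    fun σ hσ => ?_⟩
  · have := congrArg (fun y => (w : Mat (ResidueField 𝒪)) *ᵥ y) h0
    simp only [Matrix.mulVec_mulVec, Units.mul_inv, Matrix.one_mulVec, Matrix.mulVec_zero] at this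
    simpa using congrFun this 0
  · exact (exists_line_of_upper w _ σ (by rw [ew, Matrix.map_apply, (hD' σ hσ).1, map_zero])).1
  · exact (exists_line_of_upper w _ σ (by rw [ew, Matrix.map_apply, (hI' σ hσ).1, map_zero])).2
      (by rw [ew, Matrix.map_apply, (hI' σ hσ).2, map_one])

end FLTAgent.RT.Main
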