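import Fermat.Agent.RT.Patch.Restrict
import Fermat.Agent.RT.Main.Problem

/-!
# The root of the trace polynomial congruent to the sign

In a power series ring with a variable `u`: the root `α ≡ ε` of `X² - (ε (1 + v) + u) X + v`, for
`ε² = 1` and `v - 1` a unit; `p + 1` squared minus `α + p / α` squared is divisible by `u`.
-/

set_option autoImplicit false
set_option linter.unusedSectionVars false

noncomputable section

open IsLocalRing Polynomial FLTAgent.Deformation

namespace FLTAgent.RT

variable {𝒪 : Type} [CommRing 𝒪] [IsDomain 𝒪] [IsDiscreteValuationRing 𝒪]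
  [IsAdicComplete (maximalIdeal 𝒪) 𝒪] [Finite (ResidueField 𝒪)] {σ : Type} [Finite σ]

/-- The root exists, with the congruence of the raising pair. -/
theorem exists_rootElt (u : σ) {ε v : 𝒪} (hε : ε * ε = 1) (hv1 : IsUnit (v - 1))
    (c : ℕ) :
    ∃ α β : MvPowerSeries σ 𝒪,
      α ^ 2 - (algebraMap 𝒪 _ (ε * (1 + v)) + MvPowerSeries.X u) * α + algebraMap 𝒪 _ v = 0 ∧
      α * β = 1 ∧ α - algebraMap 𝒪 _ ε ∈ maximalIdeal (MvPowerSeries σ 𝒪) ∧
      (algebraMap 𝒪 (MvPowerSeries σ 𝒪) ((c : 𝒪) + 1)) ^ 2 - (α + (c : MvPowerSeries σ 𝒪) * β) ^ 2 ∈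
        Ideal.span {(MvPowerSeries.X u : MvPowerSeries σ 𝒪)} := by
  set R := MvPowerSeries σ 𝒪
  have hcomp : IsAdicComplete (maximalIdeal R) R := isAdicComplete_powerSeries
  set e : R := algebraMap 𝒪 R ε
  set w : R := algebraMap 𝒪 R v
  set U : R := MvPowerSeries.X u
  set s : R := algebraMap 𝒪 R (ε * (1 + v)) + U
  have he : e * e = 1 := by rw [← map_mul, hε, map_one]
  have hs : s = e * (1 + w) + U := by
    show algebraMap 𝒪 R (ε * (1 + v)) + U = _
    rw [map_mul, map_add, map_one]
  have hU : U ∈ maximalIdeal R := span_X_le_maximalIdeal (Ideal.subset_span ⟨u, rfl⟩)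
  let f : R[X] := Polynomial.X ^ 2 + (Polynomial.C (-s) * Polynomial.X + Polynomial.C w)
  have hmon : f.Monic := monic_X_pow_add (lt_of_le_of_lt degree_linear_le (by decide))
  have hval : ∀ a : R, f.eval a = a ^ 2 - s * a + w := fun a => by simp [f]; ring
  have h1 : f.eval e ∈ maximalIdeal R := by
    rw [hval, hs, show e ^ 2 - (e * (1 + w) + U) * e + w = (e * e - 1) * (-w) + -(U * e) by ring,
      he, sub_self, zero_mul, zero_add]
    exact neg_mem (Ideal.mul_mem_right _ _ hU)
  have h2 : IsUnit (Ideal.Quotient.mk (maximalIdeal R) (f.derivative.eval e)) := by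
    have hd : f.derivative.eval e = e * (1 - w) - U := by simp [f, hs]; ring
    rw [hd, map_sub, (Ideal.Quotient.eq_zero_iff_mem).mpr hU, sub_zero]
    exact ((IsUnit.of_mul_eq_one _ he).mul (by
      rw [← neg_sub]; exact (by
        have := hv1.map (algebraMap 𝒪 R); rwa [map_sub, map_one] at this : IsUnit (w - 1)).neg)).map _
  obtain ⟨α, hroot, hα⟩ := HenselianRing.is_henselian (R := R) (I := maximalIdeal R) f hmon e h1 h2
  have hαu : IsUnit α := by
    by_contra h
    have : e ∈ maximalIdeal R := by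
      rw [show e = α - (α - e) by ring]; exact sub_mem h hα
    exact this (IsUnit.of_mul_eq_one _ he)
  obtain ⟨β, hβ⟩ := hαu.exists_right_inv
  have heq : α ^ 2 - s * α + w = 0 := (hval α).symm.trans hroot
  refine ⟨α, β, heq, hβ, hα, ?_⟩
  have hspan : α - e ∈ Ideal.span {U} := by
    have hmul : (α - e) * (α - e * w) = U * α := by
      rw [hs] at heq
      linear_combination heq + w * he
    have hun : IsUnit (α - e * w) := by
      by_contra h
      have : e * (1 - w) ∈ maximalIdeal R := by
        rw [show e * (1 - w) = (α - e * w) - (α - e) by ring]; exact sub_mem h hα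
      exact this ((IsUnit.of_mul_eq_one _ he).mul (by
        rw [← neg_sub]; exact (by
          have := hv1.map (algebraMap 𝒪 R); rwa [map_sub, map_one] at this : IsUnit (w - 1)).neg))
    obtain ⟨z, hz⟩ := hun.exists_right_inv
    refine Ideal.mem_span_singleton'.mpr ⟨α * z, ?_⟩
    linear_combination (-z) * hmul + (α - e) * hz
  have hk : algebraMap 𝒪 R ((c : 𝒪) + 1) = (c : R) + 1 := by rw [map_add, map_one, map_natCast]
  rw [hk, show ((c : R) + 1) ^ 2 - (α + (c : R) * β) ^ 2 =
      ((c + 1) - e * (α + c * β)) * ((c + 1) + e * (α + c * β)) by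
    linear_combination (α + (c : R) * β) ^ 2 * he]
  refine Ideal.mul_mem_right _ _ ?_
  rw [show ((c : R) + 1) - e * (α + c * β) = (α - e) * ((c : R) * β - e) by
    linear_combination (-(c : R)) * hβ - he]
  exact Ideal.mul_mem_right _ _ hspan

end FLTAgent.RT
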