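import Fermat.Agent.RT.Raise.PairStage
import Fermat.Agent.RT.Raise.OrdData
import Fermat.Agent.RT.Raise.RootElt
import Fermat.Agent.TW.Flat.TraceFix
import Fermat.Agent.TW.Local.StrictOrdinary

/-!
# Both worlds above a multiplicative `p`

The extra element of the flat world is the trace at the chosen Frobenius element minus its residual
value; with it fixed the flat tangent space at `p` loses one dimension.
-/

set_option autoImplicit false
set_option linter.unusedSectionVars false

noncomputable section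

open IsLocalRing Matrix WeierstrassCurve FLTAgent.Deformation FLTAgent.TW FLTAgent.GalRep

namespace FLTAgent.RT.Main

attribute [local instance] dualAlg

variable {𝒪 : Type} [CommRing 𝒪] [IsDomain 𝒪] [IsDiscreteValuationRing 𝒪]
  [IsAdicComplete (maximalIdeal 𝒪) 𝒪] [Finite (ResidueField 𝒪)]
  {W : WeierstrassCurve ℤ} {p : ℕ} [Fact p.Prime] {aux : Finset ℕ}
  {F : Frame 𝒪 W p (flatAt p) aux} {ψ : ℤ_[p] →+* 𝒪} (d : OrdFrob F ψ)

namespace OrdFrob

/-- The cyclotomic value at the chosen Frobenius element. -/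
def v : 𝒪 := ψ (cyclo p d.φ : ℤ_[p])

/-- The trace at the chosen Frobenius element minus its residual value. -/
def extra : F.Extra Unit := fun _S D _ =>
  D.ρ.trace d.φ - algebraMap 𝒪 D.R (d.ε * (1 + d.v))

theorem disc_ne : (barMatrix F.rb d.φ).trace ^ 2 ≠ 4 * (barMatrix F.rb d.φ).det := by
  rw [d.trace, d.det, map_mul, map_add, map_one]
  intro h
  set x := residue 𝒪 (ψ (cyclo p d.φ : ℤ_[p]))
  have he : residue 𝒪 d.ε * residue 𝒪 d.ε = 1 := by rw [← map_mul, d.sq, map_one]
  have hne : x - 1 ≠ 0 := by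
    rw [← map_one (residue 𝒪), ← map_sub]
    exact (residue_ne_zero_iff_isUnit _).mpr d.unit
  exact pow_ne_zero 2 hne (by linear_combination h - (1 + x) ^ 2 * he)

theorem extra_mem (S : Finset ℕ) (D : F.DefData S) (j : Unit) :
    d.extra S D j ∈ maximalIdeal D.R := by
  obtain ⟨M, hM, hl, he⟩ := exists_isLift_of_residual_isEquiv (isCoeff_deformationRing D) D.ρ
    (fun _ => rfl) D.residual_isEquiv
  have hR := isCoeff_deformationRing D
  rw [← hR.toK_eq_zero, extra, map_sub, AlgHom.commutes, ← trace_of_isEquiv he]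
  have e : hR.toK (M d.φ).trace = (barMatrix F.rb d.φ).trace := by
    rw [show (barMatrix F.rb d.φ) = (M d.φ).map hR.toK from (DFunLike.congr_fun hl d.φ).symm,
      Matrix.trace_fin_two, Matrix.trace_fin_two, map_add]
    rfl
  rw [e, d.trace, sub_eq_zero]
  rfl

theorem trace_fixed (S : Finset ℕ) (D : F.DefData S)
    (f : D.R →ₐ[𝒪] DualNumber (ResidueField 𝒪))
    (hf : IsLocalHom (f : D.R →+* DualNumber (ResidueField 𝒪)))
    (N : Gal →* Mat (DualNumber (ResidueField 𝒪))) (hN : MatCont N)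
    (h0 : ∀ j, f (d.extra S D j) = 0)
    (he : (D.ρ.baseChangeAlong (f : D.R →+* DualNumber (ResidueField 𝒪)) hf).IsEquiv
      (matRep N hN)) :
    TrivSqZeroExt.snd (Matrix.trace (N d.φ)) = 0 := by
  have h1 := trace_of_isEquiv he d.φ
  rw [CommAlg.trace_baseChangeAlong] at h1
  have h2 : f (D.ρ.trace d.φ) = algebraMap 𝒪 _ (d.ε * (1 + d.v)) := by
    have h := h0 ()
    rw [extra, map_sub, AlgHom.commutes, sub_eq_zero] at h
    exact h
  rw [h1]
  exact (congrArg TrivSqZeroExt.snd h2).trans (by rw [dualAlg_algebraMap, TrivSqZeroExt.snd_inl])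

/-- **Both worlds exist.** -/
theorem exists_worlds (hs : (GaloisRepAdic.ofResidualGaloisRep F.rb).IsStrictOrdinaryAt p)
    (hbound : SelmerAddBound p (barMatrix F.rb)) (Pl : F.Places) :
    ∃ r gf gs : ℕ, gf + ∑ i, (Pl.Ds i).h0 + 1 ≤ r ∧ gs + ∑ i, (Pl.Ds i).h0 ≤ r ∧
      ∀ n : ℕ, Nonempty (PairStage F Pl d.extra gf gs r n) := by
  have hcp : CharP (ResidueField 𝒪) p :=
    charP_of_injective_ringHom (resHom F.mem_p).injective p
  obtain ⟨r, gf, gs, h1, h2, h3⟩ := exists_pairStages F Pl hs hbound d.extra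
    (fun b ρ => if b then ρ.IsStrictOrdinaryAt p else
      ρ.IsFlatAt p ∧ ∀ (N : Gal →* Mat (DualNumber (ResidueField 𝒪))) (hN : MatCont N),
        ρ = matRep N hN → TrivSqZeroExt.snd (Matrix.trace (N d.φ)) = 0)
    (fun b => if b then 0 else 1)
    (fun b P hP => by
      cases b
      · obtain ⟨S, a1, a2, a3, a4, a5⟩ := flat_traceFix_cocycle_bound' F.ne_two (barMatrix F.rb)
          F.residualHyp.level F.residualHyp.det d.line d.P d.liesOver d.φ d.frob d.disc_ne P hP
        refine ⟨S, a1, a2, a3, by simpa using (by omega : Module.finrank (ResidueField 𝒪) S + 1 ≤ 4),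
          fun N hN e1 e2 e3 => a5 N hN e1 e2 (by simpa using e3.1) (e3.2 N hN rfl)⟩
      · obtain ⟨S, a1, a2, a3, a4, a5⟩ := strictOrdinary_cocycle_bound F.ne_two (barMatrix F.rb)
          F.residualHyp.level F.residualHyp.det P hP
        exact ⟨S, a1, a2, a3, by simpa using a4,
          fun N hN e1 e2 e3 => a5 N hN e1 e2 (by simpa using e3)⟩)
    d.extra_mem
    (fun S D f hf N hN h0 he hD => by
      show (matRep N hN).IsFlatAt p ∧ _
      refine ⟨hD.1.2.1, fun N' hN' e => ?_⟩
      refine d.trace_fixed S D f hf N' hN' h0 ?_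
      rw [← e]; exact he)
    (fun S N hN hD => by
      show (matRep N hN).IsStrictOrdinaryAt p
      exact hD.1.2.1)
  exact ⟨r, gf, gs, by simpa using h1, by simpa using h2, h3⟩

end OrdFrob

end FLTAgent.RT.Main
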