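import Fermat.Agent.RT.Main.InputsStrict
import Fermat.Agent.RT.Main.Choice
import Fermat.Agent.RT.Raise.Worlds

/-!
# The setting above a multiplicative `p` where `E[p]` is peu ramifiée

`E[p]` is modular of a level prime to `p`, so it is flat at `p`; it is also strictly ordinary, as
the Tate module is. So there are a flat frame and a strict one with the same residual
representation.
-/

set_option autoImplicit false
set_option linter.unusedSectionVars false

noncomputable section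

open IsLocalRing Matrix Polynomial WeierstrassCurve FLTAgent.Deformation FLTAgent.GalRep

namespace FLTAgent.RT.Main

attribute [local instance] dualAlg

variable {𝒪 : Type} [CommRing 𝒪] [IsDomain 𝒪] [IsDiscreteValuationRing 𝒪]
  [IsAdicComplete (maximalIdeal 𝒪) 𝒪] [Finite (ResidueField 𝒪)] [CharZero 𝒪]
  {W : WeierstrassCurve ℤ} {p : ℕ} [Fact p.Prime] {loc : PCond} {aux : Finset ℕ}

/-- **A non-zero part at a level prime to `p` makes `E[p]` flat at `p`.** -/
theorem isFlatAt_rbar_of_base (F : Frame 𝒪 W p loc aux) {N₀ : ℕ} [NeZero N₀] (hB : Base F N₀)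
    (hp : ¬ p ∣ N₀) : (GaloisRepAdic.ofResidualGaloisRep F.rb).IsFlatAt p := by
  classical
  have : IsAddTorsionFree 𝒪 := isAddTorsionFree_of_charZero
  have := moduleFinite_coh (χ := trivChar) 𝒪 𝒪 (one_dvd N₀)
  have := moduleFree_coh (χ := trivChar) (O := 𝒪) (one_dvd N₀)
  set P := cohPart trivChar (one_dvd N₀) (prime_famPrime (W := W) (p := p) (aux := aux))
    (famCoeff 𝒪) with hP
  have : IsNoetherian 𝒪 (Coh N₀ trivChar 𝒪) := isNoetherian_of_isNoetherianRing_of_finite 𝒪 _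
  have : Module.Finite 𝒪 P := Module.IsNoetherian.finite 𝒪 P
  have : Module.Free 𝒪 P := Module.Free.of_basis
    (Submodule.basisOfPid (Module.Free.chooseBasis 𝒪 (Coh N₀ trivChar 𝒪)) P).2
  have : Nontrivial P := Submodule.nontrivial_iff_ne_bot.mpr hB.part
  obtain ⟨Θ, hΘ⟩ := exists_theta (χ := trivChar) (one_dvd N₀)
    (prime_famPrime (W := W) (p := p) (aux := aux)) (famCoeff 𝒪) F.nonEis squarefree_one
    (fun q hq h => absurd (Nat.dvd_one.mp h) hq.ne_one) (mul_one N₀).symm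
  set S := excSet W p aux
  have hS : ∀ q : ℕ, q.Prime → q ∣ N₀ → q ∈ S := hB.mem
  have hpS : p ∈ S := Finset.mem_union_left _ (Finset.mem_insert_self _ _)
  let b : ℕ → 𝒪 := fun ℓ => (W.apOfModel ℓ : 𝒪)
  let Θ' := Θ.comp (restrictAway hS)
  have hnil : ∀ (ℓ : ℕ) (hℓ : ℓ.Prime) (hℓN : ¬ ℓ ∣ N₀) (hℓS : ℓ ∉ (↑S : Set ℕ)),
      IsTopNilpotent (Θ' (CuspForm.heckeAlgebra.T hℓ hℓN hℓS) -
        algebraMap 𝒪 (Module.End 𝒪 P) (b ℓ)) := fun ℓ hℓ hℓN hℓS =>
    isTopNilpotent_part (X := fun i => opP 𝒪 𝒪 trivChar (one_dvd N₀) (prime_famPrime i))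
      (fun i j => opP_comm (χ := trivChar) 𝒪 𝒪 (one_dvd N₀) (prime_famPrime i) (prime_famPrime j))
      (famCoeff 𝒪) (i := (⟨ℓ, hℓ, hℓS⟩ : Fam W p aux)) fun v => hΘ _ hℓ hℓN v
  obtain ⟨Mm⟩ := matModel_of_specializations specializationsExist N₀ p S hS
  have := isLocalRing_heckeImage Θ' hS b hnil
  have : IsLocalHom (algebraMap 𝒪 (heckeImage Θ')) := heckeImage.instIsLocalHom Θ'
  obtain ⟨H⟩ := exists_maxDatum Mm frobeniusDense hS hpS F.ne_two F.mem_p b F.rb F.absIrr ∅
    (fun ℓ hℓ _ hℓS _ hℓp A hA σ hσ => trace_rbar_frobenius p F.disc_ne F.mem_p hℓ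
      (F.good_of_notMem hℓ fun h => hℓS (Finset.mem_union_left _ h)).1 hℓp hA hσ)
    (heckeImage Θ') (toImage Θ') fun ℓ hℓ hℓN hℓS =>
      mem_of_isTopNilpotent (heckeImage Θ').val Subtype.val_injective
        (by rw [map_sub, AlgHom.commutes]; exact hnil ℓ hℓ hℓN hℓS) _
  exact isFlatAt_ofResidual_of_maxDatum H
    (FlatModel.isFlatAt_of_specializations specializationsExist hp hS F.mem_p H.H)

/-- The flat setting, for a flat residual representation. -/
theorem Frame.toFlat (F : Frame 𝒪 W p loc aux)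
    (h : (GaloisRepAdic.ofResidualGaloisRep F.rb).IsFlatAt p) : Frame 𝒪 W p (flatAt p) aux where
  disc_ne := F.disc_ne
  ne_two := F.ne_two
  mem_p := F.mem_p
  semistable := F.semistable
  irr := F.irr
  quad := F.quad
  type := isLocalType_flat 𝒪 F.mem_p
  resid := h
  aux_ok := F.aux_ok

end FLTAgent.RT.Main
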