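import Fermat.Agent.RT.ShellEnd
import Fermat.Agent.RT.Raise.Setup
import Fermat.Agent.RT.Raise.Conclusion

/-!
# The chain at a multiplicative `p` where `E[p]` is peu ramifiée

From the pair stages and modularity of a raised level by them.
-/

set_option autoImplicit false
set_option linter.unusedSectionVars false

noncomputable section

open IsLocalRing Matrix Polynomial WeierstrassCurve FLTAgent.Deformation FLTAgent.GalRep

namespace FLTAgent.RT

open Main

attribute [local instance] dualAlg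

variable {W : WeierstrassCurve ℤ} {p : ℕ} [Fact p.Prime]

/-- What the raising argument at `p` has to supply. -/
def RaiseConclusion (W : WeierstrassCurve ℤ) (p : ℕ) [Fact p.Prime] : Prop :=
  ∀ {O : Type} [CommRing O] [IsDomain O] [IsDiscreteValuationRing O]
    [IsAdicComplete (maximalIdeal O) O] [Finite (ResidueField O)] [CharZero O] {aux : Finset ℕ}
    (F : Frame O W p (flatAt p) aux) {N₀ : ℕ} [NeZero N₀], Base F N₀ → Inputs F N₀ → ¬ p ∣ N₀ →
    ∀ {ψ : ℤ_[p] →+* O} (d : OrdFrob F ψ),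
    (GaloisRepAdic.ofResidualGaloisRep F.rb).IsStrictOrdinaryAt p →
    (∀ (c : (Mat O)ˣ) (hN : MatCont (conjRep c (Tate.tateO F.disc_ne p ψ))),
      problem O p (strictAt p) (badSet W p) (badSet W p)
        (matRep (conjRep c (Tate.tateO F.disc_ne p ψ)) hN)) →
    ∀ (Pl : F.Places) {r gf gs : ℕ}, gf + ∑ i, (Pl.Ds i).h0 + 1 ≤ r →
      gs + ∑ i, (Pl.Ds i).h0 ≤ r → (∀ n, PairStage F Pl d.extra gf gs r n) →
      W.IsModularModelOfLevel (Sys.baseN N₀ F.qLoc Finset.univ * p)

/-- The raising argument, from its data. -/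
theorem raiseConclusion_of_data
    (hdata : ∀ {O : Type} [CommRing O] [IsDomain O] [IsDiscreteValuationRing O]
      [IsAdicComplete (maximalIdeal O) O] [Finite (ResidueField O)] [CharZero O] {aux : Finset ℕ}
      {F : Frame O W p (flatAt p) aux} {N₀ : ℕ} [NeZero N₀] (hB : Base F N₀) (hI : Inputs F N₀),
      ¬ p ∣ N₀ → ∀ {ψ : ℤ_[p] →+* O} (d : OrdFrob F ψ),
      (GaloisRepAdic.ofResidualGaloisRep F.rb).IsStrictOrdinaryAt p →
      ∀ {Pl : F.Places} {r gf gs : ℕ} [∀ n, Fact (Odd (Nat.card (TWGrp p r n)))]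
        (St : ∀ n, PairStage F Pl d.extra gf gs r n), Nonempty (Main.RaiseData d hB hI St)) :
    RaiseConclusion W p := by
  intro O _ _ _ _ _ _ aux F N₀ _ hB hI hpN ψ d hs hTate Pl r gf gs h1 h2 St
  have : ∀ n, Fact (Odd (Nat.card (TWGrp p r n))) := fact_odd_twGrp F.ne_two
  obtain ⟨D⟩ := hdata hB hI hpN d hs St
  exact isModular_of_raiseData F hB hI hpN d hs hTate Pl h1 h2 St D

/-- **The chain at a multiplicative `p` where `E[p]` is peu ramifiée.** -/
theorem chainConclusion_of_peu (hp2 : p ≠ 2) (hΔ : W.Δ ≠ 0) (hss : W.IsSemistableModel)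
    (hirr : W.ModRepIsIrreducible p) (hraise : RaiseConclusion W p) (hbad : (p : ℤ) ∣ W.Δ)
    (hpeu : (W.map (Int.castRingHom ℚ)).IsPeuRamifieeAt p p) : Shell.ChainConclusion W p := by
  intro hres
  obtain ⟨O, _, _, _, _, _, _, hp, -, hquad⟩ := exists_coeff p
  obtain ⟨ψ⟩ := exists_padicHom p O hp
  obtain ⟨aux, haux⟩ := exists_auxOK hΔ hss hirr
  have hTate : ∀ (g : (Mat O)ˣ) (hN : MatCont (conjRep g (Tate.tateO hΔ p ψ))),
      problem O p (strictAt p) (badSet W p) (badSet W p)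
        (matRep (conjRep g (Tate.tateO hΔ p ψ)) hN) := fun g hN =>
    Tate.strictProblem_matRep hΔ p ψ hp hss hp2 hbad _ _ fun q hq hqS =>
      good_of_notMem_badSet hΔ hq hqS
  let Fs := frame_of_tate hΔ hp2 hp hss hirr hquad (isLocalType_strict O hp2 hp) haux ψ hTate
  have hne : NeZero (∏ l ∈ levelSet W p aux ∅, l) :=
    ⟨Finset.prod_ne_zero_iff.mpr fun l hl =>
      (prime_of_mem_levelSet Fs (Finset.empty_subset _) hl).ne_zero⟩
  have hpN : ¬ p ∣ ∏ l ∈ levelSet W p aux ∅, l := fun h => by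
    rcases (p_dvd_levelSet_iff Fs (Finset.empty_subset _)).mp h with h | h
    · rcases ((Shell.mem_minPrimes hΔ).mp h).2 with ⟨-, h'⟩ | ⟨h', -⟩
      · exact h' hpeu
      · exact h' rfl
    · simp at h
  let F := Fs.toFlat
    (isFlatAt_rbar_of_base Fs (base_levelSet Fs haux (Finset.empty_subset _) hres) hpN)
  have hB : Base F (∏ l ∈ levelSet W p aux ∅, l) :=
    base_levelSet F haux (Finset.empty_subset _) hres
  obtain ⟨d⟩ := nonempty_ordFrob F ψ hbad (hss p Fact.out hbad)
  obtain ⟨Pl⟩ := F.nonempty_places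
  have hcp : CharP (ResidueField O) p := charP_of_injective_ringHom (resHom hp).injective p
  obtain ⟨r, gf, gs, h1, h2, hSt⟩ := d.exists_worlds Fs.resid (selmerAddBound hp2 _) Pl
  refine ⟨_, ?_, hraise F hB (inputs_of_locMax (locMax_flat F hpN)) hpN d Fs.resid hTate Pl h1 h2
    fun n => (hSt n).some⟩
  have hpb : ¬ p ∣ Sys.baseN (∏ l ∈ levelSet W p aux ∅, l) F.qLoc Finset.univ :=
    Sys.not_dvd_baseN F.prime_qLoc Fact.out hpN fun i _ => (F.loc_spec i).2.2.2.1
  exact (Nat.squarefree_mul ((Nat.Prime.coprime_iff_not_dvd Fact.out).mpr hpb).symm).mpr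
    ⟨squarefree_baseN F hB Finset.univ, (Fact.out : p.Prime).squarefree⟩

end FLTAgent.RT
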