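import Fermat.Agent.RT.Raise.StrictQuot
import Fermat.Agent.RT.Sys.Raise
import Fermat.Agent.RT.Coh.HeckeU

/-!
# The strict ring on the cokernel of the degeneracy maps at `p`

On the cokernel `U p` is minus the involution, so has square one; hence the ring without a
condition at `p` acts there through the strict one.
-/

set_option autoImplicit false
set_option linter.unusedSectionVars false

noncomputable section

namespace FLTAgent.RT.Raise

open LevelRaise CongruenceSubgroup IsLocalRing Matrix FLTAgent.Deformation FLTAgent.GalRep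

local notation "Γℚ" => AlgebraicClosure ℚ ≃ₐ[ℚ] AlgebraicClosure ℚ

attribute [local instance] dualAlg

variable {p : ℕ} [Fact p.Prime] [NeZero p] {𝒪 : Type} [CommRing 𝒪] [IsDomain 𝒪]
  [IsDiscreteValuationRing 𝒪] [IsAdicComplete (maximalIdeal 𝒪) 𝒪] [Finite (ResidueField 𝒪)]
  [CharZero 𝒪]

section Old

variable {M N : ℕ} {D : Type} [CommGroup D] [Fintype D] {χ : (ZMod M)ˣ →* D}
  [Fact (Odd (Nat.card D))] [NeZero N] {hMN : M ∣ N} {ι : Type} {l : ι → ℕ}
  {hl : ∀ i, (l i).Prime} {a : ι → 𝒪} (W : WData N p) (hne : ∀ i, l i ≠ p)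

/-- The images of the two degeneracy maps. -/
abbrev oldPart : Submodule 𝒪 (Sys.upPart χ hMN hl a p) :=
  LinearMap.range (Sys.degFst W hMN hl hne) ⊔ LinearMap.range (Sys.degSnd W hMN hl hne)

/-- `U p` is minus the involution up to an old class. -/
theorem U_add_opW_mem_old {U : Module.End 𝒪 (Sys.upPart χ hMN hl a p)}
    (hU : ∀ v, (U v : Coh (N * p) χ 𝒪) = opP 𝒪 𝒪 χ (hMN.trans (dvd_mul_right N p)) W.prime v)
    (z : Sys.upPart χ hMN hl a p) {w : Sys.upPart χ hMN hl a p}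
    (hw : (w : Coh (N * p) χ 𝒪) = opW 𝒪 W χ hMN (z : Coh (N * p) χ 𝒪)) :
    U z + w ∈ oldPart W hne := by
  refine Submodule.mem_sup_left ⟨Sys.adjSnd W hMN hl hne z, Subtype.ext ?_⟩
  rw [Sys.coe_degFst, Sys.coe_adjSnd, resB_coresB_opW, Submodule.coe_add, hU,
    opP_of_dvd (χ := χ) 𝒪 𝒪 _ W.prime (dvd_mul_left p N), hw, add_comm]

/-- The involution exchanges the images. -/
theorem opW_mem_old {z w : Sys.upPart χ hMN hl a p} (hz : z ∈ oldPart W hne)
    (hw : (w : Coh (N * p) χ 𝒪) = opW 𝒪 W χ hMN (z : Coh (N * p) χ 𝒪)) :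
    w ∈ oldPart W hne := by
  obtain ⟨_, ⟨x₁, rfl⟩, _, ⟨x₂, rfl⟩, rfl⟩ := Submodule.mem_sup.mp hz
  have e : w = Sys.degSnd W hMN hl hne x₁ + Sys.degFst W hMN hl hne x₂ := Subtype.ext (by
    rw [hw, Submodule.coe_add, Submodule.coe_add, map_add, Sys.coe_degFst, Sys.coe_degSnd,
      opW_opW 𝒪 W hMN, Sys.coe_degFst, Sys.coe_degSnd])
  rw [e]
  exact add_mem (Submodule.mem_sup_right ⟨_, rfl⟩) (Submodule.mem_sup_left ⟨_, rfl⟩)

include hne in
theorem exists_opW_upPart (z : Sys.upPart χ hMN hl a p) :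
    ∃ w : Sys.upPart χ hMN hl a p,
      (w : Coh (N * p) χ 𝒪) = opW 𝒪 W χ hMN (z : Coh (N * p) χ 𝒪) :=
  ⟨⟨_, mem_cohPart_of_commute _ hl a (fun i => opW_opP W hMN (hl i) (hne i)) z.2⟩, rfl⟩

/-- `U p` keeps the images. -/
theorem U_mem_old {U : Module.End 𝒪 (Sys.upPart χ hMN hl a p)}
    (hU : ∀ v, (U v : Coh (N * p) χ 𝒪) = opP 𝒪 𝒪 χ (hMN.trans (dvd_mul_right N p)) W.prime v)
    {z : Sys.upPart χ hMN hl a p} (hz : z ∈ oldPart W hne) : U z ∈ oldPart W hne := by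
  obtain ⟨w, hw⟩ := exists_opW_upPart W hne z
  have h := sub_mem (U_add_opW_mem_old W hne hU z hw) (opW_mem_old W hne hz hw)
  rwa [add_sub_cancel_right] at h

/-- `U p` has square one modulo the images. -/
theorem U_sq_sub_mem_old {U : Module.End 𝒪 (Sys.upPart χ hMN hl a p)}
    (hU : ∀ v, (U v : Coh (N * p) χ 𝒪) = opP 𝒪 𝒪 χ (hMN.trans (dvd_mul_right N p)) W.prime v)
    (z : Sys.upPart χ hMN hl a p) : U (U z) - z ∈ oldPart W hne := by
  obtain ⟨w, hw⟩ := exists_opW_upPart W hne z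
  have h1 := U_mem_old W hne hU (U_add_opW_mem_old W hne hU z hw)
  have h2 := U_add_opW_mem_old W hne hU w (w := z) (by rw [hw, opW_opW 𝒪 W hMN])
  have e : U (U z) - z = U (U z + w) - (U w + z) := by rw [map_add]; abel
  rw [e]
  exact sub_mem h1 h2

end Old

section Main

open FLTAgent.RT.Main

variable {W : WeierstrassCurve ℤ} {aux : Finset ℕ}

set_option maxHeartbeats 1600000 in
/-- **Elements killed in the strict ring map the part into the old classes.** -/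
theorem map_mem_old_of_strict (F : Frame 𝒪 W p (flatAt p) aux) {S : Finset ℕ}
    (D₀ : F.FreeData S) (Ds : F.StrictData S) (πs : D₀.R →ₐ[𝒪] Ds.R)
    (hπ : ∀ σ, πs (D₀.ρ.trace σ) = Ds.ρ.trace σ)
    {M N : ℕ} {D : Type} [CommGroup D] [Fintype D] {χ : (ZMod M)ˣ →* D}
    [Fact (Odd (Nat.card D))] [NeZero N] {hMN : M ∣ N} {ι : Type} {l : ι → ℕ}
    {hl : ∀ i, (l i).Prime} {a : ι → 𝒪} (Wd : WData N p) (hne : ∀ i, l i ≠ p) (hNE : NonEis l a)
    (hsq : Squarefree M) (hex : ∀ r : ℕ, r.Prime → r ∣ M → ¬ r ^ 2 ∣ N * p)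
    {S₁ : Finset ℕ} (hS₁ : ∀ q : ℕ, q.Prime → q ∣ N * M * p → q ∈ S₁)
    {φ : D₀.R →ₐ[𝒪] Module.End 𝒪 (cohPart χ hMN hl a)} (hφ : Sys.IsFrobCompat D₀ S₁ φ)
    {φ' : D₀.R →ₐ[𝒪] Module.End 𝒪 (Sys.upPart χ hMN hl a p)}
    (hφ' : Sys.IsFrobCompat D₀ S₁ φ')
    (L : Sys.upPart χ hMN hl a p →ₗ[𝒪] cohPart χ hMN hl a × cohPart χ hMN hl a)
    (hL : ∀ x₁ x₂, L (Sys.degFst Wd hMN hl hne x₁ + Sys.degSnd Wd hMN hl hne x₂) = (x₁, x₂))
    {y : D₀.R} (hy : πs y = 0) (z : Sys.upPart χ hMN hl a p) :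
    φ' y z ∈ oldPart Wd hne := by
  classical
  have := isAddTorsionFree_of_charZero (O := 𝒪)
  have hp : p.Prime := Fact.out
  have : NeZero M := ⟨fun h => NeZero.ne N (Nat.eq_zero_of_zero_dvd (h ▸ hMN))⟩
  have := moduleFinite_coh (χ := χ) 𝒪 𝒪 hMN
  have := moduleFinite_coh (χ := χ) 𝒪 𝒪 (hMN.trans (dvd_mul_right N p))
  have := isNoetherian_of_isNoetherianRing_of_finite 𝒪 (Coh N χ 𝒪)
  have := isNoetherian_of_isNoetherianRing_of_finite 𝒪 (Coh (N * p) χ 𝒪)
  have : Module.IsTorsionFree 𝒪 (Coh (N * p) χ 𝒪) := Function.Injective.moduleIsTorsionFree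
    (fun φ x => φ x) (fun _ _ h => DFunLike.ext' h) (fun _ _ => rfl)
  set old := oldPart (hMN := hMN) (hl := hl) (a := a) (χ := χ) Wd hne
  have hp₁ : p ∈ S₁ := hS₁ p hp (dvd_mul_left p _)
  have hint := Sys.intertwine_deg Wd hMN hl hne (F.toFree.type.isCond S _) hp₁ hφ hφ'
  have hφold : ∀ r, old ≤ old.comap (φ' r) := fun r => sup_le
    (by rintro _ ⟨x, rfl⟩
        exact Submodule.mem_sup_left ⟨φ r x, LinearMap.congr_fun (hint r).1 x⟩)
    (by rintro _ ⟨x, rfl⟩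
        exact Submodule.mem_sup_right ⟨φ r x, LinearMap.congr_fun (hint r).2.1 x⟩)
  have hKS : ∀ q : ℕ, q.Prime → q ∣ N * M → q ∈ S₁ := fun q hq h => hS₁ q hq (h.mul_right p)
  have hMp : ¬ p ∣ M := fun h => Wd.not_dvd (h.trans hMN)
  have hpK : ¬ p ∣ N * M := fun h => (hp.dvd_mul.mp h).elim Wd.not_dvd hMp
  obtain ⟨Θ, hΘT, hΘU⟩ := exists_thetaP (χ := χ) (O := 𝒪) (N' := N * M * p)
    (hMN.trans (dvd_mul_right N p)) hl a hNE hsq hex (by ring) (↑(S₁.erase p) : Set ℕ)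
    (fun r hr hd => Finset.mem_coe.mpr (Finset.mem_erase.mpr
      ⟨fun e => hMp (e ▸ hd), hKS r hr (hd.mul_left N)⟩))
  have hgen : ∀ (r : ℕ) (hr : r.Prime) (hrd : r ∣ N * M * p) (hrS : r ∉ (↑(S₁.erase p) : Set ℕ)),
      r = p := fun r hr hrd hrS => by
    by_contra h
    exact hrS (Finset.mem_coe.mpr (Finset.mem_erase.mpr ⟨h, hS₁ r hr hrd⟩))
  have hΘφ : ∀ (r : ℕ) (hr : r.Prime) (hrN : ¬ r ∣ N * M * p)
      (hrS : r ∉ (↑(S₁.erase p) : Set ℕ)), ∀ A : ValuationSubring (AlgebraicClosure ℚ),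
        A.LiesOverPrime r → ∀ σ : Γℚ, A.IsFrobeniusAt σ r →
          φ' (D₀.ρ.trace σ) = Θ (CuspForm.heckeAlgebra.T hr hrN hrS) :=
    fun r hr hrN hrS A hA σ hσ => LinearMap.ext fun v => Subtype.ext (by
      rw [hΘT, hφ' r hr (fun h => hrS (Finset.mem_coe.mpr (Finset.mem_erase.mpr
        ⟨fun e => hrN (by rw [e]; exact dvd_mul_left p _), h⟩))) A hA σ hσ])
  set tU := CuspForm.heckeAlgebra.U (S := (↑(S₁.erase p) : Set ℕ)) (k := 2) hp
    (dvd_mul_left p (N * M)) (Finset.mem_coe.not.mpr (Finset.notMem_erase p S₁))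
  have hU : ∀ v, (Θ tU v : Coh (N * p) χ 𝒪) =
      opP 𝒪 𝒪 χ (hMN.trans (dvd_mul_right N p)) Wd.prime v := fun v => hΘU p hp _ _ v
  have hΘold : ∀ t, old ≤ old.comap (Θ t) := by
    rintro ⟨t, ht⟩
    induction ht using Algebra.adjoin_induction with
    | mem x hx =>
      rcases hx with ⟨r, hr, hrN, hrS, rfl⟩ | ⟨r, hrN, hr, hrS, rfl⟩
      · obtain ⟨A, σ, hA, hσ⟩ := Frobenius.exists_liesOverPrime_isFrobeniusAt hr
        intro v hv
        show Θ (CuspForm.heckeAlgebra.T hr hrN hrS) v ∈ old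
        rw [← hΘφ r hr hrN hrS A hA σ hσ]
        exact hφold _ hv
      · obtain rfl := (hgen r hr hrN hrS).symm
        exact fun v hv => U_mem_old Wd hne hU hv
    | algebraMap m =>
      intro v hv
      rw [Submodule.mem_comap, show (⟨_, algebraMap_mem
        (CuspForm.heckeAlgebra (N * M * p) 2 (↑(S₁.erase p) : Set ℕ)) m⟩ :
        CuspForm.heckeAlgebra (N * M * p) 2 (↑(S₁.erase p) : Set ℕ)) = algebraMap ℤ _ m from rfl,
        eq_intCast, map_intCast, Module.End.intCast_apply]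
      exact zsmul_mem hv m
    | add x₁ x₂ hx₁ hx₂ ih₁ ih₂ =>
      intro v hv
      rw [Submodule.mem_comap, show (⟨x₁ + x₂, _⟩ :
        CuspForm.heckeAlgebra (N * M * p) 2 (↑(S₁.erase p) : Set ℕ)) = ⟨x₁, hx₁⟩ + ⟨x₂, hx₂⟩
        from rfl, map_add, LinearMap.add_apply]
      exact add_mem (ih₁ hv) (ih₂ hv)
    | mul x₁ x₂ hx₁ hx₂ ih₁ ih₂ =>
      intro v hv
      rw [Submodule.mem_comap, show (⟨x₁ * x₂, _⟩ :
        CuspForm.heckeAlgebra (N * M * p) 2 (↑(S₁.erase p) : Set ℕ)) = ⟨x₁, hx₁⟩ * ⟨x₂, hx₂⟩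
        from rfl, map_mul, Module.End.mul_apply]
      exact ih₁ (ih₂ hv)
  -- the quotient is a lattice
  let Q := (Sys.upPart χ hMN hl a p) ⧸ old
  have : Module.IsTorsionFree 𝒪 Q := by
    refine Module.isTorsionFree_iff_smul_eq_zero.mpr fun c q hcq => ?_
    obtain ⟨v, rfl⟩ := Submodule.Quotient.mk_surjective old q
    rcases eq_or_ne c 0 with hc | hc
    · exact Or.inl hc
    refine Or.inr ((Submodule.Quotient.mk_eq_zero _).mpr ?_)
    obtain ⟨_, ⟨x₁, rfl⟩, _, ⟨x₂, rfl⟩, he⟩ :=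
      Submodule.mem_sup.mp ((Submodule.Quotient.mk_eq_zero old).mp hcq)
    have h1 := hL x₁ x₂
    rw [he, map_smul, Prod.ext_iff] at h1
    obtain ⟨e1, e2⟩ := h1
    simp only [Prod.smul_fst, Prod.smul_snd] at e1 e2
    rw [← e1, ← e2, map_smul, map_smul, ← smul_add] at he
    rw [← smul_right_injective _ hc he]
    exact add_mem (Submodule.mem_sup_left ⟨_, rfl⟩) (Submodule.mem_sup_right ⟨_, rfl⟩)
  have : Module.Free 𝒪 Q := @Module.free_of_finite_type_torsion_free' 𝒪 _ Q _ _ _ _ _ _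
  let φQ : D₀.R →ₐ[𝒪] Module.End 𝒪 Q :=
    { toFun := fun r => old.mapQ old (φ' r) (hφold r)
      map_one' := Submodule.linearMap_qext _ (LinearMap.ext fun v => by simp)
      map_mul' := fun r s => Submodule.linearMap_qext _ (LinearMap.ext fun v => by simp)
      map_zero' := Submodule.linearMap_qext _ (LinearMap.ext fun v => by simp)
      map_add' := fun r s => Submodule.linearMap_qext _ (LinearMap.ext fun v => by simp)
      commutes' := fun c => Submodule.linearMap_qext _ (LinearMap.ext fun v => by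
        simp [Module.algebraMap_end_apply]; rfl) }
  let ΘQ : CuspForm.heckeAlgebra (N * M * p) 2 (↑(S₁.erase p) : Set ℕ) →+* Module.End 𝒪 Q :=
    { toFun := fun t => old.mapQ old (Θ t) (hΘold t)
      map_one' := Submodule.linearMap_qext _ (LinearMap.ext fun v => by simp)
      map_mul' := fun r s => Submodule.linearMap_qext _ (LinearMap.ext fun v => by simp)
      map_zero' := Submodule.linearMap_qext _ (LinearMap.ext fun v => by simp)
      map_add' := fun r s => Submodule.linearMap_qext _ (LinearMap.ext fun v => by simp) }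
  have hcomm' : ∀ r t, Commute (φ' r) (Θ t) := fun r t => by
    refine Commute.symm (Sys.intertwine_of_frobTraces (F.toFree.type.isCond S _) D₀ S₁ φ' φ' (Θ t)
      (fun x hx => ?_) r)
    obtain ⟨q, hq, hqS, A, hA, σ, hσ, rfl⟩ := hx
    have hqN : ¬ q ∣ N * M * p := fun h => hqS (hS₁ q hq h)
    rw [hΘφ q hq hqN (fun h => hqS (Finset.mem_of_mem_erase h)) A hA σ hσ]
    exact ((Commute.all t _).map Θ).eq
  have key : φQ y = 0 := by
    refine eq_zero_of_strict_map F D₀ Ds πs hπ (K := N * M) hpK hS₁ ΘQ ?_ φQ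
      (fun r t => Submodule.linearMap_qext _ (LinearMap.ext fun v =>
        congrArg (Submodule.Quotient.mk (p := old)) (LinearMap.congr_fun (hcomm' r t).eq v)))
      (fun r hr hrN hrT hrS A hA σ hσ => Submodule.linearMap_qext _ (LinearMap.ext fun v =>
        congrArg (Submodule.Quotient.mk (p := old))
          (LinearMap.congr_fun (hΘφ r hr hrN hrT A hA σ hσ) v))) hy
    rw [pow_two]
    refine Submodule.linearMap_qext _ (LinearMap.ext fun v => ?_)
    exact (Submodule.Quotient.eq old).mpr (U_sq_sub_mem_old Wd hne hU v)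
  exact (Submodule.Quotient.mk_eq_zero old).mp
    (LinearMap.congr_fun key (Submodule.Quotient.mk (p := old) z))

end Main

end FLTAgent.RT.Raise
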