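import Fermat.Agent.RT.Raise.UpperDefs

/-!
# The stage with `p` added to the level

The deformation ring without a condition at `p` acts on the part of the level with `p` added; the
part is free over the diamonds on lifts of a basis at the base level with `p` added, compatibly with
the actions; level raising applies at `p`.
-/

set_option autoImplicit false
set_option linter.unusedSectionVars false

noncomputable section

open IsLocalRing Matrix WeierstrassCurve FLTAgent.Deformation FLTAgent.GalRep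

namespace FLTAgent.RT.Main

attribute [local instance] dualAlg

variable {𝒪 : Type} [CommRing 𝒪] [IsDomain 𝒪] [IsDiscreteValuationRing 𝒪]
  [IsAdicComplete (maximalIdeal 𝒪) 𝒪] [Finite (ResidueField 𝒪)] [CharZero 𝒪]
  {W : WeierstrassCurve ℤ} {p : ℕ} [Fact p.Prime] {aux : Finset ℕ}
  {F : Frame 𝒪 W p (flatAt p) aux} {Pl : F.Places} {κ : Type} [Finite κ] {u : F.Extra κ}
  {gf gs r n : ℕ} [Fact (Odd (Nat.card (TWGrp p r n)))]
  (st : PairStage F Pl u gf gs r n) {N₀ : ℕ} [NeZero N₀]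

namespace PairStage

set_option linter.unusedVariables false in
/-- **Level raising applies at `p`.** -/
theorem raiseHyp_p (hB : Base F N₀) (hpN₀ : ¬ p ∣ N₀) :
    RaiseHyp (st.lowN N₀) p (famPrime (W := W) (p := p) (aux := aux)) st.a' := by
  have := Sys.neZero_baseN (N₀ := N₀) F.prime_qLoc (Finset.univ : Finset F.Loc)
  have h := (Sys.twPrimes_baseN F.prime_qLoc (fun i j => st.flat.qLoc_ne i j) (st.flat.twPrimes hB)
    Finset.univ).raiseHyp (F.sys.raiseHyp F.disc_ne F.mem_p F.ne_two F.irr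
      (famPrime_notMem F (Finset.mem_union_left _ (Finset.mem_insert_self p _))) (nuThree_baseN F hB Finset.univ))
  rw [Finset.prod_image fun x _ y _ e => st.flat.inj e] at h
  exact h

/-- The primes of the stage are Taylor–Wiles primes for the base level with `p` added. -/
theorem twPrimes_mul_p (hB : Base F N₀) :
    Sys.TWPrimes (Sys.baseN N₀ F.qLoc Finset.univ * p) (famPrime (W := W) (p := p) (aux := aux))
      (famCoeff 𝒪) st.a' (Finset.univ.image st.qv) where
  prime := st.tw.prime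
  not_dvd q hq := fun hd => by
    obtain ⟨j, -, rfl⟩ := Finset.mem_image.mp hq
    rcases (st.spec j).1.dvd_mul.mp hd with hd | hd
    · exact (Sys.twPrimes_baseN F.prime_qLoc (fun i j => st.flat.qLoc_ne i j) (st.flat.twPrimes hB)
        Finset.univ).not_dvd _ hq hd
    · exact st.flat.qv_ne_p j ((Nat.prime_dvd_prime_iff_eq (st.spec j).1 Fact.out).mp hd)
  of_notMem := st.tw.of_notMem
  index := st.tw.index

set_option linter.unusedVariables false in
/-- The basis and the corestriction to the base level with `p` added. -/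
theorem exists_highBasis (hB : Base F N₀) (hpN₀ : ¬ p ∣ N₀) {d : ℕ}
    (e₁ : haveI := neZero_p (p := p)
      haveI := Sys.neZero_baseN (N₀ := N₀) F.prime_qLoc (Finset.univ : Finset F.Loc)
      Module.Basis (Fin d) 𝒪 (cohPart trivChar (one_dvd (Sys.baseN N₀ F.qLoc Finset.univ * p))
        (prime_famPrime (W := W) (p := p) (aux := aux)) (famCoeff 𝒪))) :
    haveI := neZero_p (p := p)
    haveI := st.neZero_lowN N₀
    haveI := Sys.neZero_baseN (N₀ := N₀) F.prime_qLoc (Finset.univ : Finset F.Loc)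
    ∃ (B : Sys.DBasis ((dvd_mul_left (∏ j, st.qv j) (Sys.baseN N₀ F.qLoc Finset.univ)).trans
          (dvd_mul_right (st.lowN N₀) p)) st.flat.χ_surjective (st.highPart N₀) d)
      (c : st.highPart N₀ →ₗ[𝒪]
        cohPart trivChar (one_dvd (Sys.baseN N₀ F.qLoc Finset.univ * p))
          (prime_famPrime (W := W) (p := p) (aux := aux)) (famCoeff 𝒪)),
      (∀ j, c (B.vec j) = e₁ j) ∧ (∀ δ v, c (B.dia δ v) = c v) ∧
      ∀ {𝒟' : ∀ ⦃A : Type⦄ [CommRing A] [IsLocalRing A] [Algebra 𝒪 A], GaloisRepAdic A → Prop}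
        (Dat : GaloisRep.DeformationRingData 𝒪 F.rb 𝒟') (f : st.D₀.R →ₐ[𝒪] Dat.R),
        (∀ σ, f (st.D₀.ρ.trace σ) = Dat.ρ.trace σ) →
        ∀ (S₀ S₁ : Finset ℕ) (φ : st.D₀.R →ₐ[𝒪] Module.End 𝒪 (st.highPart N₀)),
          Sys.IsFrobCompat st.D₀ S₁ φ →
          ∀ (φ₀ : Dat.R →ₐ[𝒪] Module.End 𝒪
              (cohPart trivChar (one_dvd (Sys.baseN N₀ F.qLoc Finset.univ * p))
                (prime_famPrime (W := W) (p := p) (aux := aux)) (famCoeff 𝒪))),
            Sys.IsFrobCompat Dat S₀ φ₀ → ∀ x, c ∘ₗ φ x = φ₀ (f x) ∘ₗ c := by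
  have := neZero_p (p := p)
  have := st.neZero_lowN N₀
  have := Sys.neZero_baseN (N₀ := N₀) F.prime_qLoc (Finset.univ : Finset F.Loc)
  obtain ⟨B, c, -, h1, h2, -, -, -, h4⟩ := (st.twPrimes_mul_p hB).exists_dBasis prime_famPrime
    ((dvd_mul_left (∏ j, st.qv j) (Sys.baseN N₀ F.qLoc Finset.univ)).trans
      (dvd_mul_right (st.lowN N₀) p)) st.flat.χ_surjective
    (by rw [Finset.prod_image fun x _ y _ e => st.inj e]; show _ * _ * p = _; ring) p
    (Sys.isPGroup_twGroup p n r) F.mem_p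
    ((Sys.ellCond_stageN (χ := st.flat.χ) F.prime_qLoc (fun j => (st.spec j).1)
      (Stage.ell_twGrp (r := r) (n := n) hB) Finset.univ).imp id fun h =>
        Sys.nuThree_mul_eq_zero p h) F.nonEis e₁
  refine ⟨B, c, h1, h2, fun {𝒟'} Dat f hf S₀ S₁ φ hφ φ₀ hφ₀ x => ?_⟩
  have := moduleFinite_coh (χ := st.flat.χ) 𝒪 𝒪
    ((dvd_mul_left (∏ j, st.qv j) (Sys.baseN N₀ F.qLoc Finset.univ)).trans
      (dvd_mul_right (st.lowN N₀) p))
  have := moduleFinite_coh (χ := trivChar) 𝒪 𝒪 (one_dvd (Sys.baseN N₀ F.qLoc Finset.univ * p))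
  have := isNoetherian_of_isNoetherianRing_of_finite 𝒪 (Coh (st.lowN N₀ * p) st.flat.χ 𝒪)
  have := isNoetherian_of_isNoetherianRing_of_finite 𝒪
    (Coh (Sys.baseN N₀ F.qLoc Finset.univ * p) trivChar 𝒪)
  refine Sys.intertwine_of_frobTraces (F.toFree.type.isCond _ _) st.D₀
    (S₁ ∪ S₀ ∪ Finset.univ.image st.qv) φ (φ₀.comp f) _ ?_ x
  rintro _ ⟨ℓ, hℓ, hℓS, A, hA, τ, hτ, rfl⟩
  simp only [Finset.mem_union, not_or] at hℓS
  refine LinearMap.ext fun v => Subtype.ext ?_
  show (c (φ (st.D₀.ρ.trace τ) v) : Coh (Sys.baseN N₀ F.qLoc Finset.univ * p) trivChar 𝒪) =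
    (φ₀ (f (st.D₀.ρ.trace τ)) (c v) : Coh (Sys.baseN N₀ F.qLoc Finset.univ * p) trivChar 𝒪)
  rw [hf, hφ₀ ℓ hℓ hℓS.1.2 A hA τ hτ]
  exact h4 ℓ hℓ hℓS.2 v _ (hφ ℓ hℓ hℓS.1.1 A hA τ hτ v)

theorem nontrivial_highPart (hB : Base F N₀) (hpN₀ : ¬ p ∣ N₀) : Nontrivial (st.highPart N₀) := by
  have := neZero_p (p := p)
  have := st.neZero_lowN N₀
  have := Sys.neZero_baseN (N₀ := N₀) F.prime_qLoc (Finset.univ : Finset F.Loc)
  have := isAddTorsionFree_of_charZero (O := 𝒪)
  have := moduleFree_coh (χ := trivChar) (O := 𝒪) (one_dvd (Sys.baseN N₀ F.qLoc Finset.univ * p))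
  have := moduleFinite_coh (χ := trivChar) 𝒪 𝒪 (one_dvd (Sys.baseN N₀ F.qLoc Finset.univ * p))
  obtain ⟨d, e₁⟩ := Submodule.basisOfPid
    (Module.finBasis 𝒪 (Coh (Sys.baseN N₀ F.qLoc Finset.univ * p) trivChar 𝒪))
    (cohPart trivChar (one_dvd (Sys.baseN N₀ F.qLoc Finset.univ * p))
      (prime_famPrime (W := W) (p := p) (aux := aux)) (famCoeff 𝒪))
  obtain ⟨B, c, h1, -⟩ := st.exists_highBasis hB hpN₀ e₁
  have hne : cohPart trivChar (one_dvd (Sys.baseN N₀ F.qLoc Finset.univ * p))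
      (prime_famPrime (W := W) (p := p) (aux := aux)) (famCoeff 𝒪) ≠ ⊥ :=
    cohPart_ne_bot_of_dvd (one_dvd _) (dvd_mul_right _ p) prime_famPrime _
      (fun i hd => (i.2.1.dvd_mul.mp hd).resolve_right fun h =>
        famPrime_notMem F (Finset.mem_union_left _ (Finset.mem_insert_self p _)) i ((Nat.prime_dvd_prime_iff_eq i.2.1 Fact.out).mp h))
      (basePart_ne_bot F hB Finset.univ)
  obtain ⟨j⟩ : Nonempty (Fin d) := by
    by_contra hd
    rw [not_nonempty_iff] at hd
    exact hne ((Submodule.eq_bot_iff _).mpr fun x hx => congrArg Subtype.val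
      (e₁.repr.injective (Subsingleton.elim _ (e₁.repr 0)) :
        (⟨x, hx⟩ : cohPart trivChar (one_dvd (Sys.baseN N₀ F.qLoc Finset.univ * p))
          (prime_famPrime (W := W) (p := p) (aux := aux)) (famCoeff 𝒪)) = 0))
  exact ⟨B.vec j, 0, fun h => e₁.ne_zero j (by rw [← h1, h, map_zero])⟩

/-- **The deformation ring without a condition at `p` acts on the part with `p` added.** -/
theorem exists_highAct (hB : Base F N₀) (hI : Inputs F N₀) (hpN₀ : ¬ p ∣ N₀) :
    haveI := neZero_p (p := p)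
    haveI := st.neZero_lowN N₀
    ∃ φ : st.D₀.R →ₐ[𝒪] Module.End 𝒪 (st.highPart N₀),
      Sys.IsFrobCompat (χ := st.flat.χ) st.D₀ (st.flat.ram ∪ aux) φ := by
  have := neZero_p (p := p)
  have := st.neZero_lowN N₀
  have := st.nontrivial_highPart hB hpN₀
  have hp : p.Prime := Fact.out
  have : NeZero (st.lowN N₀ * p * ∏ j, st.flat.qv j) :=
    ⟨mul_ne_zero (NeZero.ne _) (Finset.prod_ne_zero_iff.mpr fun j _ => (st.spec j).1.ne_zero)⟩
  have hco : p.Coprime (∏ j, st.qv j) := st.flat.coprime_qv hp (Finset.mem_union_left _ (Finset.mem_insert_self p _))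
  have hlow : ∀ q : ℕ, q.Prime → q ≠ p → q ∈ excSet W p aux →
      ¬ q ^ 2 ∣ st.lowN N₀ * p * ∏ j, st.qv j := fun q hq hqp hb hd =>
    st.flat.not_sq_dvd hB Finset.univ hq hb
      ((((Nat.coprime_primes hq hp).mpr hqp).pow_left 2).dvd_of_dvd_mul_right
        (show q ^ 2 ∣ (st.lowN N₀ * ∏ j, st.qv j) * p by rwa [mul_right_comm]))
  have hS : ∀ q : ℕ, q.Prime → q ∣ st.lowN N₀ * p * ∏ j, st.flat.qv j →
      q ∈ st.flat.ram ∪ aux := fun q hq hd => by
    rcases hq.dvd_mul.mp hd with h | h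
    · rcases hq.dvd_mul.mp h with h | h
      · exact st.flat.mem_ram_of_dvd hB hq (dvd_mul_of_dvd_left h _)
      · rw [(Nat.prime_dvd_prime_iff_eq hq hp).mp h]
        exact Finset.mem_union_left _ (Finset.mem_union_left _ (Finset.mem_insert_self _ _))
    · exact st.flat.mem_ram_of_dvd (A := Finset.univ) hB hq (dvd_mul_of_dvd_right h _)
  have hp2 : ¬ p ^ 2 ∣ st.lowN N₀ * p * ∏ j, st.flat.qv j := fun hd => by
    have h1 : p ^ 2 ∣ st.lowN N₀ * p := (hco.pow_left 2).dvd_of_dvd_mul_right hd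
    rw [pow_two] at h1
    exact st.not_dvd_lowN hpN₀ (Nat.dvd_of_mul_dvd_mul_right hp.pos h1)
  obtain ⟨-, φ, hφ, -⟩ := exists_act F.toFree (N₀ := N₀ * p)
    ⟨fun {_} _ {_} _ _ _ _ _ _ => trivial, hI.unip, hI.special⟩ (χ := st.flat.χ) (a' := st.a')
    ((dvd_mul_left (∏ j, st.qv j) (Sys.baseN N₀ F.qLoc Finset.univ)).trans
      (dvd_mul_right (st.lowN N₀) p))
    ((st.flat.twPrimes hB).nonEis F.nonEis)
    (Sys.squarefree_prod_primes (fun j => (st.spec j).1) st.inj)
    (fun q hq hqd hd => by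
      refine Sys.not_sq_dvd_stageN F.prime_qLoc (fun j => (st.spec j).1) st.inj
        (fun i j => st.flat.qLoc_ne i j) (st.flat.not_dvd_N₀ hB) Finset.univ q hq hqd ?_
      exact ((Nat.Coprime.coprime_dvd_left hqd hco.symm).pow_left 2).dvd_of_dvd_mul_right hd)
    (S := badSet W p ∪ Finset.univ.image st.qv) rfl
    (F.minS_subset.trans Finset.subset_union_left) st.D₀
    hS
    ⟨fun _ => dvd_mul_left p N₀, fun _ => dvd_mul_of_dvd_left (dvd_mul_left p _) _⟩
    hp2 (fun q hq hqp => hlow q (Frame.prime_of_mem_badSet hq) hqp (Finset.mem_union_left _ hq))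
    (fun i hi => st.tw.of_notMem i fun h =>
      hi (Finset.mem_union_left _ (Finset.mem_union_right _ h)))
  exact ⟨φ, hφ⟩

end PairStage

end FLTAgent.RT.Main
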