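import Fermat.Agent.RT.Raise.StageData
import Fermat.Agent.RT.Raise.Upper
import Fermat.Agent.RT.AtP.UnitRoot

/-!
# The data of raising at `p` exist

From the relations at the Taylor–Wiles primes at the level with `p` added and the unit root at the
level prime to `p`, the stages assemble to the truncated levels above the flat system.
-/

set_option autoImplicit false
set_option linter.unusedSectionVars false

noncomputable section

open IsLocalRing Matrix FLTAgent.Deformation FLTAgent.GalRep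

namespace FLTAgent.RT.Main

open LevelRaise

attribute [local instance] dualAlg

set_option allowUnsafeReducibility true in
attribute [local reducible] PairStage.flat

variable {𝒪 : Type} [CommRing 𝒪] [IsDomain 𝒪] [IsDiscreteValuationRing 𝒪]
  [IsAdicComplete (maximalIdeal 𝒪) 𝒪] [Finite (ResidueField 𝒪)] [CharZero 𝒪]
  {W : WeierstrassCurve ℤ} {p : ℕ} [Fact p.Prime] {aux : Finset ℕ}
  {F : Frame 𝒪 W p (flatAt p) aux} {Pl : F.Places}
  {N₀ : ℕ} [NeZero N₀] {gf gs r : ℕ} [∀ n, Fact (Odd (Nat.card (TWGrp p r n)))]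
  {ψ : ℤ_[p] →+* 𝒪}

/-- The part at the base level with `p` added has a basis. -/
theorem nonempty_highBaseBasis :
    Nonempty (Σ d : ℕ, Module.Basis (Fin d) 𝒪 (F.highBase N₀)) := by
  have := neZero_p (p := p)
  have := Sys.neZero_baseN (N₀ := N₀) F.prime_qLoc (Finset.univ : Finset F.Loc)
  have := isAddTorsionFree_of_charZero (O := 𝒪)
  have := moduleFree_coh (χ := trivChar) (O := 𝒪) (one_dvd (Sys.baseN N₀ F.qLoc Finset.univ * p))
  have := moduleFinite_coh (χ := trivChar) 𝒪 𝒪 (one_dvd (Sys.baseN N₀ F.qLoc Finset.univ * p))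
  exact ⟨Submodule.basisOfPid
    (Module.finBasis 𝒪 (Coh (Sys.baseN N₀ F.qLoc Finset.univ * p) trivChar 𝒪)) (F.highBase N₀)⟩

set_option maxHeartbeats 1600000 in
/-- **The data of raising at `p`**, from the relations of the diamonds at the level with `p` added
and the unit root at the levels prime to `p`. -/
theorem nonempty_raiseData_of (d : OrdFrob F ψ) (hB : Base F N₀) (hI : Inputs F N₀)
    (hpN₀ : ¬ p ∣ N₀) (St : ∀ n, PairStage F Pl d.extra gf gs r n)
    (hdia : ∀ n (j : Fin r), haveI := neZero_p (p := p); haveI := (St n).neZero_lowN N₀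
      ∃ (P : ValuationSubring (AlgebraicClosure ℚ)) (τ : Gal),
        P.LiesOverPrime ((St n).qv j) ∧ τ ∈ P.inertiaSubgroupIn ℚ ∧
        ∀ (dB : ℕ) (B : Sys.DBasis ((dvd_mul_left (∏ j, (St n).qv j)
            (Sys.baseN N₀ F.qLoc Finset.univ)).trans (dvd_mul_right ((St n).lowN N₀) p))
            (St n).flat.χ_surjective ((St n).highPart N₀) dB)
          (φ : (St n).D₀.R →ₐ[𝒪] Module.End 𝒪 ((St n).highPart N₀)),
          Sys.IsFrobCompat (χ := (St n).flat.χ) (St n).D₀ ((St n).flat.ram ∪ aux) φ →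
          DiaQuad (φ ((St n).M₀ τ).trace) (B.dia (Sys.twGen j)))
    (hlow : ∀ n {α β : MvPowerSeries (LocVar F.Loc (Unit ⊕ Fin gf)) 𝒪},
      α ^ 2 - (algebraMap 𝒪 _ (d.ε * (1 + d.v)) + MvPowerSeries.X (Sum.inr (Sum.inl ()))) * α +
        algebraMap 𝒪 _ d.v = 0 →
      α * β = 1 → α - algebraMap 𝒪 _ d.ε ∈ maximalIdeal _ →
      ∀ Tp : Module.End 𝒪 ((St n).lowPart N₀),
        (haveI := (St n).neZero_lowN N₀
        ∀ v : (St n).lowPart N₀, (Tp v).1 =
          opT 𝒪 𝒪 (St n).flat.χ (dvd_mul_left (∏ j, (St n).qv j)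
            (Sys.baseN N₀ F.qLoc Finset.univ))
            (Fact.out : p.Prime) ((St n).not_dvd_lowN hpN₀) v.1) →
        IsNilpotent ((St n).flat.act hB hI Finset.univ
          ((St n).γf (α + (p : MvPowerSeries _ 𝒪) * β)) - Tp)) :
    Nonempty (RaiseData d hB hI St) := by
  classical
  have := neZero_p (p := p)
  have := Sys.neZero_baseN (N₀ := N₀) F.prime_qLoc (Finset.univ : Finset F.Loc)
  have hne : ∀ n, NeZero ((St n).lowN N₀) := fun n => (St n).neZero_lowN N₀
  obtain ⟨dB, e₁⟩ := (nonempty_highBaseBasis (F := F) (N₀ := N₀)).some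
  obtain ⟨α, β, hα, hαβ, hαε, hct⟩ := exists_rootElt (𝒪 := 𝒪)
    (Sum.inr (Sum.inl ()) : LocVar F.Loc (Unit ⊕ Fin gf)) (ε := d.ε) (v := d.v) d.sq d.unit p
  set K := F.rank N₀ Finset.univ + 1
  have hst : ∀ n, Nonempty (StageRaise (St n) hB hI ((p : 𝒪) + 1)
      (α + (p : MvPowerSeries (LocVar F.Loc (Unit ⊕ Fin gf)) 𝒪) * β) K dB) := fun n => by
    obtain ⟨φ, hφ⟩ := (St n).exists_highAct hB hI hpN₀
    obtain ⟨B, c₁, hc, hd, hint⟩ := (St n).exists_highBasis hB hpN₀ e₁
    exact (St n).nonempty_stageRaise hB hI hpN₀ φ hφ B e₁ c₁ hc hd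
      (fun Dat S₀ φ₀ hφ₀ f hf x => hint Dat f hf S₀ ((St n).flat.ram ∪ aux) φ hφ φ₀ hφ₀ x)
      ((St n).raiseHyp_p hB hpN₀)
      (fun j => by
        obtain ⟨P, τ, hP, hτ, h⟩ := hdia n j
        exact ⟨P, τ, hP, hτ, h dB B φ hφ⟩)
      _ (hlow n hα hαβ hαε) (Nat.le_succ _) (Nat.succ_pos _)
  let D := fun n => (hst n).some
  have htoF : ∀ n (j : Empty ⊕ Fin gs), ∃ g, (St n).γf g =
      (St n).πf ((St n).γ₀ (MvPowerSeries.X (Sum.inr (Sum.inr j)))) := fun n j =>
    (St n).γf_surj _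
  choose toF htoF using htoF
  let sys : PlaceRaise Pl.Ds (Unit ⊕ Fin gf) (Empty ⊕ Fin gs) r
      (system hB hI fun n => (St n).flat) ((p : 𝒪) + 1)
      (α + (p : MvPowerSeries (LocVar F.Loc (Unit ⊕ Fin gf)) 𝒪) * β) :=
    { K := K
      rankB := dB
      actA := fun n => (St n).actA hB hI
      actA_left := fun n x => by
        have e : (St n).πf ((St n).γ₀ (MvPowerSeries.X (leftVar x))) =
            (St n).γf (MvPowerSeries.X x) := by
          rw [← Patch.inclPS_X]; exact (St n).γ₀_left _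
        exact congrArg (fun z : (St n).Df.R =>
          ((St n).flat.level hB hI |>.basis Finset.univ).mat
            ((St n).flat.level hB hI |>.basis Finset.univ) (twEps F r n)
            (((St n).flat.level hB hI).φ Finset.univ z)) e
      toF := toF
      toF_mem := fun n j hu => (IsLocalRing.mem_maximalIdeal _).mp
        ((isCoeff_powerSeries (𝒪 := 𝒪)).map_mem_maximalIdeal
          (isCoeff_deformationRing (St n).Df) ((St n).πf.comp (St n).γ₀)
          (span_X_le_maximalIdeal (Ideal.subset_span ⟨Sum.inr (Sum.inr j), rfl⟩)))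
        (htoF n j ▸ hu.map (St n).γf)
      toF_eq := fun n j => by
        show Sys.actMat _ _ _ _ ((St n).πf.comp (St n).γ₀) _ = 0
        refine RingHom.mem_ker.mp (Sys.ker_le_ker_actMat _ _ _ _ _ (RingHom.mem_ker.mpr ?_))
        rw [map_sub, AlgHom.comp_apply, AlgHom.comp_apply, (St n).γ₀_left, htoF, sub_self]
      actB := fun n => (D n).actB
      relB := fun n => (D n).relB
      normB := fun n => (D n).normB
      i₁ := fun n => (D n).i₁
      i₂ := fun n => (D n).i₂
      s₁ := fun n => (D n).s₁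
      l₁ := fun n => (D n).l₁
      l₂ := fun n => (D n).l₂
      j₁ := fun n => (D n).j₁
      j₂ := fun n => (D n).j₂
      T := fun n => (D n).T
      l₁i₁ := fun n => (D n).l₁i₁
      l₁i₂ := fun n => (D n).l₁i₂
      l₂i₁ := fun n => (D n).l₂i₁
      l₂i₂ := fun n => (D n).l₂i₂
      i₁_act := fun n => (D n).i₁_act
      i₂_act := fun n => (D n).i₂_act
      j₁_act := fun n => (D n).j₁_act
      j₂_act := fun n => (D n).j₂_act
      j₁s₁ := fun n => (D n).j₁s₁
      j₂s₁ := fun n => (D n).j₂s₁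
      j₁i₁ := fun n => (D n).j₁i₁
      j₁i₂ := fun n => (D n).j₁i₂
      j₂i₁ := fun n => (D n).j₂i₁
      j₂i₂ := fun n => (D n).j₂i₂
      T_comm := fun n => (D n).T_comm
      T_nil := fun n => (D n).T_nil
      toS := fun n => (D n).toS
      toS_mem := fun n => (D n).toS_mem
      toS_eq := fun n => (D n).toS_eq
      dia := fun n => (D n).dia
      dia_rel := fun n => (D n).dia_rel }
  refine ⟨⟨_, _, sys, ?_, Ideal.mem_sup_right hct, fun n => (D n).toS_spec,
    fun n => (D n).dia_spec,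
    fun Dat S₀ φ₀ hφ₀ n f hf z g hz hg => (D n).base Dat S₀ φ₀ hφ₀ f hf z g hz hg⟩⟩
  by_contra h
  have h1 : (1 : 𝒪) ∈ maximalIdeal 𝒪 := by
    rw [show (1 : 𝒪) = ((p : 𝒪) + 1) - p by ring]
    exact sub_mem ((IsLocalRing.mem_maximalIdeal _).mpr h) F.mem_p
  exact h1 isUnit_one

end FLTAgent.RT.Main
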