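import Fermat.Agent.RT.Raise.PairStage
import Fermat.Agent.RT.Main.Levels

/-!
# The level with `p` added at a stage
-/

set_option autoImplicit false
set_option linter.unusedSectionVars false

noncomputable section

open IsLocalRing FLTAgent.Deformation

namespace FLTAgent.RT.Main

variable {𝒪 : Type} [CommRing 𝒪] [IsDomain 𝒪] [IsDiscreteValuationRing 𝒪]
  [IsAdicComplete (maximalIdeal 𝒪) 𝒪] [Finite (ResidueField 𝒪)] [CharZero 𝒪]
  {W : WeierstrassCurve ℤ} {p : ℕ} [Fact p.Prime] {aux : Finset ℕ}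
  {F : Frame 𝒪 W p (flatAt p) aux} {Pl : F.Places} {κ : Type} [Finite κ] {u : F.Extra κ}
  {gf gs r n : ℕ}

/-- The relation between a diamond `y` and a trace of inertia `x`. -/
def DiaQuad {R P : Type} [CommRing R] [AddCommGroup P] [Module R P] (x y : Module.End R P) : Prop :=
  y ^ 2 - (x ^ 2 - 2) * y + 1 = 0

/-- `p` is not zero. -/
theorem neZero_p : NeZero p := ⟨(Fact.out : p.Prime).ne_zero⟩

/-- The level of all primes of `Loc` at a stage. -/
abbrev PairStage.lowN (st : PairStage F Pl u gf gs r n) (N₀ : ℕ) : ℕ :=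
  Sys.stageN N₀ F.qLoc st.qv Finset.univ

theorem PairStage.neZero_lowN (st : PairStage F Pl u gf gs r n) (N₀ : ℕ) [NeZero N₀] :
    NeZero (st.lowN N₀) :=
  Sys.neZero_stageN (N₀ := N₀) F.prime_qLoc (fun j => (st.spec j).1) Finset.univ

theorem PairStage.not_dvd_lowN (st : PairStage F Pl u gf gs r n) {N₀ : ℕ} [NeZero N₀]
    (hpN₀ : ¬ p ∣ N₀) : ¬ p ∣ st.lowN N₀ := fun h =>
  (Nat.Prime.dvd_mul Fact.out).mp h |>.elim
    (fun h => Sys.not_dvd_baseN F.prime_qLoc Fact.out hpN₀
      (fun i _ => (F.loc_spec i).2.2.2.1) h)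
    fun h => by
      obtain ⟨j, -, hj⟩ := (Fact.out : p.Prime).prime.exists_mem_finset_dvd h
      exact (st.spec j).2.1 (Finset.mem_union_left _ (Finset.mem_insert.mpr
        (Or.inl ((Nat.prime_dvd_prime_iff_eq Fact.out (st.spec j).1).mp hj).symm)))

variable [Fact (Odd (Nat.card (TWGrp p r n)))]

/-- The part of the stage level. -/
abbrev PairStage.lowPart (st : PairStage F Pl u gf gs r n) (N₀ : ℕ) [NeZero N₀] :=
  st.flat.part N₀ (Finset.univ : Finset F.Loc)

/-- The part with `p` added to the stage level. -/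
abbrev PairStage.highPart (st : PairStage F Pl u gf gs r n) (N₀ : ℕ) [NeZero N₀] :=
  haveI := neZero_p (p := p)
  haveI := st.neZero_lowN N₀
  Sys.upPart st.flat.χ (dvd_mul_left (∏ j, st.qv j) (Sys.baseN N₀ F.qLoc Finset.univ))
    (prime_famPrime (W := W) (p := p) (aux := aux)) st.a' p

end FLTAgent.RT.Main
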