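import Fermat.Agent.RT.Main.System
import Fermat.Agent.RT.Raise.UpperDefs
import Fermat.Agent.RT.Raise.Worlds
import Fermat.Agent.RT.World.RaisePDefs

/-!
# The data of raising the level at a multiplicative peu ramifié `p`

Truncated levels above the flat system of the pair stages, with the facts linking them to the strict
rings.
-/

set_option autoImplicit false
set_option linter.unusedSectionVars false

noncomputable section

open IsLocalRing FLTAgent.Deformation FLTAgent.GalRep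

namespace FLTAgent.RT.Main

attribute [local instance] dualAlg

variable {𝒪 : Type} [CommRing 𝒪] [IsDomain 𝒪] [IsDiscreteValuationRing 𝒪]
  [IsAdicComplete (maximalIdeal 𝒪) 𝒪] [Finite (ResidueField 𝒪)] [CharZero 𝒪]
  {W : WeierstrassCurve ℤ} {p : ℕ} [Fact p.Prime] {aux : Finset ℕ}
  {F : Frame 𝒪 W p (flatAt p) aux} {Pl : F.Places}
  {N₀ : ℕ} [NeZero N₀] {gf gs r : ℕ} [∀ n, Fact (Odd (Nat.card (TWGrp p r n)))]
  {ψ : ℤ_[p] →+* 𝒪}

/-- The levels with `p` added above the flat system of the pair stages. -/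
structure RaiseData (d : OrdFrob F ψ) (hB : Base F N₀) (hI : Inputs F N₀)
    (St : ∀ n, PairStage F Pl d.extra gf gs r n) : Type where
  c : 𝒪
  t : MvPowerSeries (LocVar F.Loc (Unit ⊕ Fin gf)) 𝒪
  sys : PlaceRaise Pl.Ds (Unit ⊕ Fin gf) (Empty ⊕ Fin gs) r
    (system hB hI fun n => (St n).flat) c t
  isUnit_c : IsUnit c
  sq_sub_mem : algebraMap 𝒪 _ c ^ 2 - t ^ 2 ∈
    (maximalIdeal 𝒪).map (algebraMap 𝒪 (MvPowerSeries (LocVar F.Loc (Unit ⊕ Fin gf)) 𝒪)) ⊔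
      Ideal.span {MvPowerSeries.X (Sum.inr (Sum.inl ()))}
  toS_spec : ∀ n j, (St n).πs ((St n).γ₀ (MvPowerSeries.X (Sum.inr (Sum.inl j)))) =
    (St n).γs (sys.toS n j)
  dia_spec : ∀ n j, ∃ (P : ValuationSubring (AlgebraicClosure ℚ)) (τ : Gal),
    P.LiesOverPrime ((St n).qv j) ∧ τ ∈ P.inertiaSubgroupIn ℚ ∧
    (St n).πs ((St n).γ₀ (sys.dia n j)) = (St n).πs ((St n).M₀ τ).trace
  base : ∀ {𝒟 : ∀ ⦃A : Type⦄ [CommRing A] [IsLocalRing A] [Algebra 𝒪 A], GaloisRepAdic A → Prop}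
    (Dat : GaloisRep.DeformationRingData 𝒪 F.rb 𝒟) (S₀ : Finset ℕ),
    haveI := neZero_p (p := p)
    haveI := Sys.neZero_baseN (N₀ := N₀) F.prime_qLoc Finset.univ
    ∀ φ₀ : Dat.R →ₐ[𝒪] Module.End 𝒪 (cohPart trivChar
      (one_dvd (Sys.baseN N₀ F.qLoc Finset.univ * p))
      (prime_famPrime (W := W) (p := p) (aux := aux)) (famCoeff 𝒪)),
    Sys.IsFrobCompat Dat S₀ φ₀ →
    ∀ (n : ℕ) (f : (St n).D₀.R →ₐ[𝒪] Dat.R),
    (∀ σ, f ((St n).D₀.ρ.trace σ) = Dat.ρ.trace σ) → ∀ (z : (St n).D₀.R)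
    (g : MvPowerSeries (LocVar F.Loc (Empty ⊕ Fin gs)) 𝒪),
    φ₀ (f z) = 0 → (St n).γs g = (St n).πs z →
    ((1 - sys.i₁ n * sys.l₁ n - sys.i₂ n * sys.l₂ n) *
      sys.actB n (Patch.inclPS rightVar g)).map (augT r n) = 0

end FLTAgent.RT.Main
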