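import Fermat.Agent.RT.Main.System
import Fermat.Agent.RT.Raise.UpperDefs
import Fermat.Agent.RT.Raise.Worlds
import Fermat.Agent.RT.AtP.UnitRoot

/-!
# `T p` on the flat part of a stage

At a stage of the flat world `T p` is `α + p / α` up to nilpotents, for the root `α` of the
polynomial of the extra variable.
-/

set_option autoImplicit false
set_option linter.unusedSectionVars false

noncomputable section

open IsLocalRing FLTAgent.Deformation FLTAgent.GalRep

namespace FLTAgent.RT.Main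

attribute [local instance] dualAlg

variable {𝒪 : Type} [CommRing 𝒪] [IsDomain 𝒪] [IsDiscreteValuationRing 𝒪]
  [IsAdicComplete (maximalIdeal 𝒪) 𝒪] [Finite (ResidueField 𝒪)]
  {W : WeierstrassCurve ℤ} {p : ℕ} [Fact p.Prime] {loc : PCond} {aux : Finset ℕ}

/-- The chosen Frobenius element acts as `ε` on the unramified quotient. -/
theorem OrdFrob.hasUnramifiedQuotient {F : Frame 𝒪 W p loc aux} {ψ : ℤ_[p] →+* 𝒪}
    (d : OrdFrob F ψ) : AtP.HasUnramifiedQuotient F.rb d.P d.φ d.ε := by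
  obtain ⟨b, hI, hφ⟩ := d.quot
  refine ⟨_, ⟨b, rfl⟩, fun s hs v => ?_, (AtP.sub_smul_mem_line_iff b _ _).2 hφ⟩
  have := (AtP.sub_smul_mem_line_iff b (F.rb.ρ s) 1).2 (hI s hs) v
  rwa [one_smul] at this

variable {F : Frame 𝒪 W p (flatAt p) aux} {Pl : F.Places} [CharZero 𝒪]
  {N₀ : ℕ} [NeZero N₀] {gf gs r : ℕ} [∀ n, Fact (Odd (Nat.card (TWGrp p r n)))]
  {ψ : ℤ_[p] →+* 𝒪}

/-- **`T p` on the low part of a stage.** -/
theorem PairStage.isNilpotent_lowT (d : OrdFrob F ψ) {n : ℕ}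
    (st : PairStage F Pl d.extra gf gs r n) (hB : Base F N₀) (hI : Inputs F N₀) (hpN₀ : ¬ p ∣ N₀)
    (hord : (GaloisRepAdic.ofResidualGaloisRep F.rb).IsOrdinaryAt p)
    (hval : AtP.HasUnramifiedQuotient F.rb d.P d.φ d.ε)
    {α β : MvPowerSeries (LocVar F.Loc (Unit ⊕ Fin gf)) 𝒪}
    (hα : α ^ 2 - (algebraMap 𝒪 _ (d.ε * (1 + d.v)) + MvPowerSeries.X (Sum.inr (Sum.inl ()))) * α +
      algebraMap 𝒪 _ d.v = 0)
    (hαβ : α * β = 1) (hαε : α - algebraMap 𝒪 _ d.ε ∈ maximalIdeal _)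
    (Tp : Module.End 𝒪 (st.lowPart N₀))
    (hTp : haveI := st.neZero_lowN N₀
      ∀ v : st.lowPart N₀, (Tp v).1 =
        opT 𝒪 𝒪 st.flat.χ (dvd_mul_left (∏ j, st.qv j) (Sys.baseN N₀ F.qLoc Finset.univ))
          (Fact.out : p.Prime) (st.not_dvd_lowN hpN₀) v.1) :
    IsNilpotent (st.flat.act hB hI Finset.univ (st.γf (α + (p : MvPowerSeries _ 𝒪) * β)) - Tp) := by
  have := st.neZero_lowN N₀
  have : NeZero (Sys.stageN N₀ F.qLoc st.flat.qv Finset.univ) := st.neZero_lowN N₀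
  have hR := isCoeff_deformationRing st.Df
  have hX := st.γf_extra ()
  have hα' := congrArg st.γf hα
  rw [map_add, map_sub, map_mul, map_pow, map_add, AlgHom.commutes, AlgHom.commutes, hX,
    OrdFrob.extra, add_sub_cancel, map_zero] at hα'
  have hαε' : st.γf α - algebraMap 𝒪 st.Df.R d.ε ∈ maximalIdeal st.Df.R := by
    rw [← st.γf.commutes, ← map_sub]
    exact (isCoeff_powerSeries (𝒪 := 𝒪)).map_mem_maximalIdeal hR st.γf hαε
  rw [map_add, map_mul, map_natCast]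
  exact AtP.isNilpotent_unitRoot_sub _ _ (F.type.isCond _ (badSet W p)) st.Df st.Df.isOfType.1.1
    ((st.flat.twPrimes hB).nonEis F.nonEis)
    (Sys.squarefree_prod_primes st.flat.qv_prime st.flat.inj)
    (Sys.not_sq_dvd_stageN F.prime_qLoc st.flat.qv_prime st.flat.inj
      (fun i j => st.flat.qLoc_ne i j) (st.flat.not_dvd_N₀ hB) Finset.univ)
    F.ne_two F.mem_p (st.not_dvd_lowN hpN₀) hord ψ d.liesOver d.frob d.unit d.sq hval hα' hαε'
    (by rw [← map_mul, hαβ, map_one]) (st.flat.act_compat hB hI Finset.univ) Tp hTp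

end FLTAgent.RT.Main
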