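import Fermat.Agent.RT.Raise.UpperDefs

/-!
# Inertia at the Taylor–Wiles primes on the level with `p` added

The diamond of a stage is tied to the trace of an element of inertia in the ring without a condition
at `p`.
-/

set_option autoImplicit false
set_option linter.unusedSectionVars false

noncomputable section

open IsLocalRing Matrix WeierstrassCurve FLTAgent.Deformation FLTAgent.GalRep

namespace FLTAgent.RT.Main

attribute [local instance] dualAlg

set_option allowUnsafeReducibility true in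
attribute [local reducible] PairStage.flat

variable {𝒪 : Type} [CommRing 𝒪] [IsDomain 𝒪] [IsDiscreteValuationRing 𝒪]
  [IsAdicComplete (maximalIdeal 𝒪) 𝒪] [Finite (ResidueField 𝒪)] [CharZero 𝒪]
  {W : WeierstrassCurve ℤ} {p : ℕ} [Fact p.Prime] {aux : Finset ℕ}
  {F : Frame 𝒪 W p (flatAt p) aux} {Pl : F.Places} {κ : Type} [Finite κ] {u : F.Extra κ}
  {gf gs r n : ℕ} [Fact (Odd (Nat.card (TWGrp p r n)))]
  (st : PairStage F Pl u gf gs r n) {N₀ : ℕ} [NeZero N₀]

set_option maxHeartbeats 1600000 in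
-- the compatibility at one prime
set_option linter.unusedVariables false in
/-- **The diamonds at the level with `p` added.** -/
theorem PairStage.exists_highInertia (hB : Base F N₀) (hpN₀ : ¬ p ∣ N₀) (j : Fin r) :
    haveI := neZero_p (p := p)
    haveI := st.neZero_lowN N₀
    ∃ (P : ValuationSubring (AlgebraicClosure ℚ)) (τ : Gal),
      P.LiesOverPrime (st.qv j) ∧ τ ∈ P.inertiaSubgroupIn ℚ ∧
      ∀ (d : ℕ) (B : Sys.DBasis ((dvd_mul_left (∏ j, st.qv j)
          (Sys.baseN N₀ F.qLoc Finset.univ)).trans (dvd_mul_right (st.lowN N₀) p))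
          st.flat.χ_surjective (st.highPart N₀) d)
        (φ : st.D₀.R →ₐ[𝒪] Module.End 𝒪 (st.highPart N₀)),
        Sys.IsFrobCompat (χ := st.flat.χ) st.D₀ (st.flat.ram ∪ aux) φ →
        DiaQuad (φ (st.M₀ τ).trace) (B.dia (Sys.twGen j)) := by
  have := neZero_p (p := p)
  have := st.neZero_lowN N₀
  obtain ⟨w, hw⟩ := st.flat.exists_χ_eq j
  have hq : (st.qv j).Prime := (st.spec j).1
  have : Fact (st.qv j).Prime := ⟨hq⟩
  have : NeZero (st.qv j) := ⟨hq.ne_zero⟩
  have : ∀ i, NeZero (st.qv i) := fun i => ⟨(st.spec i).1.ne_zero⟩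
  have : NeZero (∏ i, st.qv i) :=
    ⟨Finset.prod_ne_zero_iff.mpr fun i _ => (st.spec i).1.ne_zero⟩
  obtain ⟨P, hP⟩ := Frobenius.exists_liesOverPrime hq
  obtain ⟨τ, hτ, hτw, hτ1⟩ := Compat.exists_inertia_cycloN hP w
  obtain ⟨ψp⟩ := exists_padicHom p 𝒪 F.mem_p
  obtain ⟨i₀, β, hi₀, huniq, -, hadd, hmul, hsep⟩ :=
    st.tw.index (st.qv j) (Finset.mem_image_of_mem _ (Finset.mem_univ j))
  have hgood : ∀ q : ℕ, q.Prime → q ∉ st.flat.ram ∪ aux → W.IsGoodPrimeFor q ∧ q ≠ p :=
    fun q hq h => F.good_of_notMem hq fun h' =>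
      h (Finset.mem_union_left _ (Finset.mem_union_left _ h'))
  obtain ⟨hg₀, hp₀⟩ := F.good_of_notMem hq fun h => st.flat.qv_notMem j (Finset.mem_union_left _ h)
  refine ⟨P, τ, hP, hτ, fun d B φ hφ => ?_⟩
  have hnil := Compat.diamond_quadratic_eq_zero (L := Sys.baseN N₀ F.qLoc Finset.univ *
      (∏ i ∈ Finset.univ.erase j, st.qv i) * p) (q := st.qv j) F.ne_two F.mem_p ψp
    (F.toFree.type.isCond (badSet W p ∪ Finset.univ.image st.qv) (badSet W p)) st.D₀
    (st.flat.ram ∪ aux)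
    (fun q hq hqS B hB φ hφ => ?hdet) (Sys.isPGroup_twGroup p n r)
    ((st.flat.twPrimes hB).nonEis F.nonEis) B φ hφ hq ?hN ?hL
    ?hmod hi₀ huniq hmul hsep hP (fun φ hφ => ?hfrob) hτ
  case hdet =>
    rw [← LinearMap.det_toMatrix (residualBasis F.rb)]
    exact F.det_barMatrix hq (hgood q hq hqS).2 hB hφ
  case hN =>
    show Sys.baseN N₀ F.qLoc Finset.univ * (∏ i, st.qv i) * p = _
    rw [← Finset.prod_erase_mul _ _ (Finset.mem_univ j)]
    ring
  case hL =>
    intro hd
    rcases hq.dvd_mul.mp hd with hd | hd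
    · rcases hq.dvd_mul.mp hd with hd | hd
      · exact st.flat.qv_notMem j (mem_excSet_of_dvd_baseN F hB hq hd)
      · obtain ⟨i, hi, hqi⟩ := hq.prime.exists_mem_finset_dvd hd
        exact Finset.ne_of_mem_erase hi
          (st.inj ((Nat.prime_dvd_prime_iff_eq hq (st.spec i).1).mp hqi).symm)
    · exact st.flat.qv_ne_p j ((Nat.prime_dvd_prime_iff_eq hq Fact.out).mp hd)
  case hmod =>
    obtain ⟨c, hc⟩ := (dvd_pow_self p n.succ_ne_zero).trans (st.spec j).2.2
    have h1 := hq.one_lt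
    rw [show st.qv j = p * c + 1 by omega, Nat.mul_add_mod,
      Nat.mod_eq_of_lt (Fact.out : p.Prime).one_lt]
  case hfrob =>
    rw [trace_rbar_frobenius p F.disc_ne F.mem_p hq hg₀ hp₀ hP hφ]
    rw [← sub_eq_zero, ← map_sub, residue_eq_zero_iff]
    have e : famPrime i₀ = st.qv j := hi₀
    rw [← e]
    exact hadd
  rw [hw _ (by rw [Compat.unitsMap_cycloN, hτw]) fun i hij => by
    rw [Compat.unitsMap_cycloN, hτ1 _ ((Nat.coprime_primes (st.spec i).1 hq).mpr
      (st.inj.ne hij))]] at hnil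
  rw [DiaQuad, trace_of_isEquiv st.equiv₀]
  exact hnil

end FLTAgent.RT.Main
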