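import Fermat.Agent.RT.Raise.Data
import Fermat.Agent.RT.Raise.UpperDia
import Fermat.Agent.RT.Raise.LowT
import Fermat.Agent.RT.Raise.End

/-!
# Raising the level at a multiplicative peu ramifié `p`

The data of raising exist, so the chain concludes in the remaining case at `p`.
-/

set_option autoImplicit false
set_option linter.unusedSectionVars false

noncomputable section

open IsLocalRing WeierstrassCurve FLTAgent.Deformation FLTAgent.GalRep

namespace FLTAgent.RT.Main

attribute [local instance] dualAlg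

variable {𝒪 : Type} [CommRing 𝒪] [IsDomain 𝒪] [IsDiscreteValuationRing 𝒪]
  [IsAdicComplete (maximalIdeal 𝒪) 𝒪] [Finite (ResidueField 𝒪)] [CharZero 𝒪]
  {W : WeierstrassCurve ℤ} {p : ℕ} [Fact p.Prime] {aux : Finset ℕ}
  {F : Frame 𝒪 W p (flatAt p) aux} {Pl : F.Places}
  {N₀ : ℕ} [NeZero N₀] {gf gs r : ℕ} [∀ n, Fact (Odd (Nat.card (TWGrp p r n)))]
  {ψ : ℤ_[p] →+* 𝒪}

/-- **The data of raising at `p` exist.** -/
theorem nonempty_raiseData (hB : Base F N₀) (hI : Inputs F N₀) (hpN₀ : ¬ p ∣ N₀)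
    (d : OrdFrob F ψ) (hs : (GaloisRepAdic.ofResidualGaloisRep F.rb).IsStrictOrdinaryAt p)
    (St : ∀ n, PairStage F Pl d.extra gf gs r n) : Nonempty (RaiseData d hB hI St) :=
  nonempty_raiseData_of d hB hI hpN₀ St (fun n j => (St n).exists_highInertia hB hpN₀ j)
    fun n _ _ hα hαβ hαε Tp hTp => (St n).isNilpotent_lowT d hB hI hpN₀ hs.isOrdinaryAt
      d.hasUnramifiedQuotient hα hαβ hαε Tp hTp

end FLTAgent.RT.Main

namespace FLTAgent.RT

variable (W : WeierstrassCurve ℤ) (p : ℕ) [Fact p.Prime]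

/-- **Raising at `p` concludes.** -/
theorem raiseConclusion : RaiseConclusion W p :=
  raiseConclusion_of_data (W := W) (p := p) (by
    intro O _ _ _ _ _ _ aux F N₀ _ hB hI hpN ψ d hs Pl r gf gs _ St
    exact Main.nonempty_raiseData hB hI hpN d hs St)

end FLTAgent.RT
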