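import Fermat.Agent.FlatModel.HeckeEigenBound
import Fermat.Agent.RT.NewPart.OldRelation
import Fermat.Agent.Newform.Occurs

/-!
# No old point with `U p ^ 2 = 1`

For `p ∤ K`, a point of the Hecke algebra of level `K p` with `U p ^ 2 = 1` is not old at `p`:
the eigenvalue at `p` of a form of level `K` is not `± (p + 1)`.
-/

set_option autoImplicit false

noncomputable section

namespace FLTAgent.RT.Raise

open CongruenceSubgroup ModularFormClass
open scoped MatrixGroups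

/-- The eigenvalue at a good prime `p` is not `± (p + 1)`. -/
theorem qCoeff_sq_ne {K p : ℕ} [NeZero K] (hp : p.Prime) (hpK : ¬ p ∣ K)
    {g : CuspForm (Gamma0 K) 2} (hg : g.IsNormalizedEigenform) :
    ModularFormClass.qCoeff g p ^ 2 ≠ ((p : ℂ) + 1) ^ 2 := by
  intro h
  refine hg.ne_zero (FLTAgent.FlatModel.eq_zero_of_sq_sub_heckeT_sq hp hpK ?_)
  rw [FLTAgent.Quick.heckeTLin_eigenform hg hp hpK, map_smul,
    FLTAgent.Quick.heckeTLin_eigenform hg hp hpK, smul_smul, ← sq, h]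

set_option linter.unusedVariables false in
/-- A point with `U p ^ 2 = 1` of level `K p` has no companion of level `K`. -/
theorem not_exists_old_point {K p : ℕ} [NeZero K] [NeZero p] (hp : p.Prime) (hpK : ¬ p ∣ K)
    (T : Finset ℕ) (hpT : p ∉ T) (hKT : ∀ r : ℕ, r.Prime → r ∣ K → r ∈ T)
    {B : Type} [CommRing B] [IsDomain B] [CharZero B]
    (x₁ : CuspForm.heckeAlgebra (K * p) 2 (↑T : Set ℕ) →+* B)
    (hU : x₁ (CuspForm.heckeAlgebra.U hp (dvd_mul_left p K) (Finset.mem_coe.not.mpr hpT)) ^ 2 = 1)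
    (x₀ : CuspForm.heckeAlgebra K 2 (↑(insert p T) : Set ℕ) →+* B)
    (h : ∀ (l : ℕ) (hl : l.Prime) (hlN : ¬ l ∣ K * p) (hlK : ¬ l ∣ K) (hlT : l ∉ (↑T : Set ℕ))
      (hlS : l ∉ (↑(insert p T) : Set ℕ)),
      x₀ (CuspForm.heckeAlgebra.T hl hlK hlS) = x₁ (CuspForm.heckeAlgebra.T hl hlN hlT)) :
    False := by
  classical
  have := FLTAgent.IntegralStructure.moduleFinite_heckeAlgebra (N := K * p) 2 (↑T : Set ℕ)
  have := FLTAgent.IntegralStructure.moduleFinite_heckeAlgebra (N := K) 2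
    (↑(insert p T) : Set ℕ)
  let R : Subalgebra ℤ B := x₁.toIntAlgHom.range ⊔ x₀.toIntAlgHom.range
  have : Module.Finite ℤ x₁.toIntAlgHom.range :=
    Module.Finite.of_surjective x₁.toIntAlgHom.rangeRestrict.toLinearMap
      x₁.toIntAlgHom.rangeRestrict_surjective
  have : Module.Finite ℤ x₀.toIntAlgHom.range :=
    Module.Finite.of_surjective x₀.toIntAlgHom.rangeRestrict.toLinearMap
      x₀.toIntAlgHom.rangeRestrict_surjective
  have : Module.Finite ℤ R := Subalgebra.finite_sup _ _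
  have : Algebra.IsAlgebraic ℤ R := Algebra.IsIntegral.isAlgebraic
  let e : R →ₐ[ℤ] ℂ := IsAlgClosed.lift
  let y₁ : CuspForm.heckeAlgebra (K * p) 2 (↑T : Set ℕ) →+* R :=
    x₁.codRestrict R.toSubring fun t =>
      le_sup_left (b := x₀.toIntAlgHom.range) (show x₁ t ∈ x₁.toIntAlgHom.range from ⟨t, rfl⟩)
  let y₀ : CuspForm.heckeAlgebra K 2 (↑(insert p T) : Set ℕ) →+* R :=
    x₀.codRestrict R.toSubring fun t =>
      le_sup_right (a := x₁.toIntAlgHom.range) (show x₀ t ∈ x₀.toIntAlgHom.range from ⟨t, rfl⟩)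
  obtain ⟨f, hf, hfT, hfU⟩ :=
    Newform.exists_eigenform_of_partialChar ((e : R →+* ℂ).comp y₁)
  obtain ⟨g, hg, hgT, -⟩ :=
    Newform.exists_eigenform_of_partialChar ((e : R →+* ℂ).comp y₀)
  obtain ⟨z, hz, hzU⟩ : ∃ z : ℤ, (z = 1 ∨ z = -1) ∧
      x₁ (CuspForm.heckeAlgebra.U hp (dvd_mul_left p K) (Finset.mem_coe.not.mpr hpT)) = z := by
    rcases sq_eq_one_iff.mp hU with h | h
    · exact ⟨1, Or.inl rfl, by rw [h, Int.cast_one]⟩
    · exact ⟨-1, Or.inr rfl, by rw [h, Int.cast_neg, Int.cast_one]⟩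
  have hfp : qCoeff f p = (z : ℂ) := by
    rw [hfU p hp (dvd_mul_left p K) (Finset.mem_coe.not.mpr hpT)]
    show e (y₁ _) = _
    rw [show y₁ (CuspForm.heckeAlgebra.U hp (dvd_mul_left p K) (Finset.mem_coe.not.mpr hpT)) =
      (z : R) from Subtype.ext (by simpa [y₁] using hzU), map_intCast]
  have key := FLTAgent.RT.NewPart.qCoeff_old_relation hp hpK (dvd_refl K) hf hg
    ((K * p).primeFactors ∪ insert p T) fun ℓ hℓ hℓS => by
      rw [Finset.mem_union, not_or] at hℓS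
      have hℓN : ¬ ℓ ∣ K * p := fun hd =>
        hℓS.1 (Nat.mem_primeFactors.mpr ⟨hℓ, hd, NeZero.ne _⟩)
      have hℓK : ¬ ℓ ∣ K := fun hd => hℓN (hd.mul_right p)
      have hℓS' : ℓ ∉ (↑(insert p T) : Set ℕ) := fun hd => hℓS.2 (Finset.mem_coe.mp hd)
      have hℓT : ℓ ∉ (↑T : Set ℕ) := fun hd =>
        hℓS.2 (Finset.mem_insert_of_mem (Finset.mem_coe.mp hd))
      rw [hfT ℓ hℓ hℓN hℓT, hgT ℓ hℓ hℓK hℓS']
      exact congrArg e (Subtype.ext (h ℓ hℓ hℓN hℓK hℓT hℓS').symm)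
  rw [hfp] at key
  refine qCoeff_sq_ne hp hpK hg ?_
  rcases hz with rfl | rfl
  · push_cast at key
    linear_combination (-(qCoeff g p) - ((p : ℂ) + 1)) * key
  · push_cast at key
    linear_combination (qCoeff g p - ((p : ℂ) + 1)) * key

end FLTAgent.RT.Raise
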