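import Fermat.Agent.RT.Main.Free
import Fermat.Agent.RT.Selmer.ChoiceFamily
import Fermat.Agent.RT.World.RaisePDefs

/-!
# Stages shared by the flat and the strict world

For every `n`: Taylor–Wiles primes serving both conditions at `p`, the deformation ring without a
condition at `p` with its coordinates, its surjections onto the flat and the strict rings, and the
power series rings of both with a common one over the free ring.
-/

set_option autoImplicit false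
set_option linter.unusedSectionVars false

noncomputable section

open IsLocalRing Matrix Polynomial WeierstrassCurve FLTAgent.Deformation FLTAgent.TW
  FLTAgent.RTIrr

namespace FLTAgent.RT.Main

attribute [local instance] dualAlg

variable {𝒪 : Type} [CommRing 𝒪] [IsDomain 𝒪] [IsDiscreteValuationRing 𝒪]
  [IsAdicComplete (maximalIdeal 𝒪) 𝒪] [Finite (ResidueField 𝒪)]
  {W : WeierstrassCurve ℤ} {p : ℕ} [Fact p.Prime] {aux : Finset ℕ}

namespace Frame

/-- The strict setting of a flat one. -/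
theorem toStrict (F : Frame 𝒪 W p (flatAt p) aux)
    (hs : (GaloisRepAdic.ofResidualGaloisRep F.rb).IsStrictOrdinaryAt p) :
    Frame 𝒪 W p (strictAt p) aux where
  disc_ne := F.disc_ne
  ne_two := F.ne_two
  mem_p := F.mem_p
  semistable := F.semistable
  irr := F.irr
  quad := F.quad
  type := isLocalType_strict 𝒪 F.ne_two F.mem_p
  resid := hs
  aux_ok := F.aux_ok

/-- The strict deformation rings. -/
abbrev StrictData (F : Frame 𝒪 W p (flatAt p) aux) (S : Finset ℕ) : Type 1 :=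
  GaloisRep.DeformationRingData 𝒪 F.rb (problem 𝒪 p (strictAt p) S (badSet W p))

/-- The coordinates in the free ring. -/
theorem nonempty_localCoord_free {loc : PCond} (F : Frame 𝒪 W p loc aux) (Pl : F.Places)
    {S : Finset ℕ} (D : F.FreeData S) {M : Gal →* Mat D.R} {hM : MatCont M}
    (hl : IsLift F.rb (isCoeff_deformationRing D) M) (he : D.ρ.IsEquiv (matRep M hM)) (i : F.Loc) :
    Nonempty (Gen.LocalCoord (Pl.Ds i) M (Pl.P i) (Pl.φ i)) :=
  nonempty_localCoord F.toFree ⟨Pl.P, Pl.φ, Pl.Ds, Pl.liesOver, Pl.frob, Pl.q_eq, Pl.base⟩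
    D hl he i

end Frame

variable (F : Frame 𝒪 W p (flatAt p) aux) (Pl : F.Places) {κ : Type} [Finite κ]

/-- **One stage of both worlds at the same primes.** -/
structure PairStage (u : F.Extra κ) (gf gs r n : ℕ) : Type 1 where
  qv : Fin r → ℕ
  inj : Function.Injective qv
  spec : ∀ j, (qv j).Prime ∧ qv j ∉ excSet W p aux ∧ p ^ (n + 1) ∣ qv j - 1
  a' : Fam W p aux → 𝒪
  tw : Sys.TWPrimes (∏ q ∈ excSet W p aux, q) famPrime (famCoeff 𝒪) a' (Finset.univ.image qv)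
  D₀ : F.FreeData (badSet W p ∪ Finset.univ.image qv)
  M₀ : Gal →* Mat D₀.R
  hM₀ : MatCont M₀
  equiv₀ : D₀.ρ.IsEquiv (matRep M₀ hM₀)
  C₀ : ∀ i, Gen.LocalCoord (Pl.Ds i) M₀ (Pl.P i) (Pl.φ i)
  Df : F.DefData (badSet W p ∪ Finset.univ.image qv)
  πf : D₀.R →ₐ[𝒪] Df.R
  πf_surj : Function.Surjective πf
  πf_trace : ∀ σ, πf (D₀.ρ.trace σ) = Df.ρ.trace σ
  hMf : MatCont (mapRep (πf : D₀.R →+* Df.R) M₀)
  equivf : Df.ρ.IsEquiv (matRep (mapRep (πf : D₀.R →+* Df.R) M₀) hMf)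
  γf : MvPowerSeries (LocVar F.Loc (κ ⊕ Fin gf)) 𝒪 →ₐ[𝒪] Df.R
  γf_surj : Function.Surjective γf
  γf_coord : ∀ i k, γf (locCoord i k) = πf ((C₀ i).v k)
  γf_extra : ∀ j, γf (MvPowerSeries.X (Sum.inr (Sum.inl j))) = u _ Df j
  Ds : F.StrictData (badSet W p ∪ Finset.univ.image qv)
  πs : D₀.R →ₐ[𝒪] Ds.R
  πs_surj : Function.Surjective πs
  πs_trace : ∀ σ, πs (D₀.ρ.trace σ) = Ds.ρ.trace σ
  hMs : MatCont (mapRep (πs : D₀.R →+* Ds.R) M₀)
  equivs : Ds.ρ.IsEquiv (matRep (mapRep (πs : D₀.R →+* Ds.R) M₀) hMs)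
  γs : MvPowerSeries (LocVar F.Loc (Empty ⊕ Fin gs)) 𝒪 →ₐ[𝒪] Ds.R
  γs_surj : Function.Surjective γs
  γs_coord : ∀ i k, γs (locCoord i k) = πs ((C₀ i).v k)
  γ₀ : MvPowerSeries (LocVar F.Loc ((κ ⊕ Fin gf) ⊕ (Empty ⊕ Fin gs))) 𝒪 →ₐ[𝒪] D₀.R
  γ₀_coord : ∀ i k, γ₀ (locCoord i k) = (C₀ i).v k
  γ₀_left : ∀ g, πf (γ₀ (Patch.inclPS leftVar g)) = γf g
  γ₀_right : ∀ g, πs (γ₀ (Patch.inclPS rightVar g)) = γs g

variable {F Pl} {u : F.Extra κ} {gf gs r n : ℕ}

/-- The flat stage. -/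
def PairStage.flat (st : PairStage F Pl u gf gs r n) : Stage F Pl u gf r n where
  qv := st.qv
  inj := st.inj
  spec := st.spec
  a' := st.a'
  tw := st.tw
  D := st.Df
  M := mapRep (st.πf : st.D₀.R →+* st.Df.R) st.M₀
  hM := st.hMf
  equiv := st.equivf
  C i := localCoordMap (st.C₀ i) st.πf st.πf_surj
  γ := st.γf
  surj := st.γf_surj
  γ_coord := st.γf_coord
  γ_extra := st.γf_extra

/-- A map of power series rings into a target through a surjection, variable by variable. -/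
theorem comp_eq_of_forall_X {σ τ : Type} [Finite σ] [Finite τ] {R R' : Type} [CommRing R]
    [IsLocalRing R] [Algebra 𝒪 R] [IsNoetherianRing R] [IsAdicComplete (maximalIdeal R) R]
    [CommRing R'] [IsLocalRing R'] [Algebra 𝒪 R'] [IsNoetherianRing R'] (hR' : IsCoeff 𝒪 R')
    (γ' : MvPowerSeries τ 𝒪 →ₐ[𝒪] R') (F₁ : MvPowerSeries σ 𝒪 →ₐ[𝒪] R) (π : R →ₐ[𝒪] R')
    (e : τ → σ) (h : ∀ x, π (F₁ (MvPowerSeries.X (e x))) = γ' (MvPowerSeries.X x))
    (g : MvPowerSeries τ 𝒪) : π (F₁ (Patch.inclPS e g)) = γ' g := by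
  refine DFunLike.congr_fun (powerSeries_algHom_ext (f := (π.comp F₁).comp (Patch.inclPS e))
    (g := γ') (fun x => ?_) fun x => ?_) g
  · rw [AlgHom.comp_apply, AlgHom.comp_apply, Patch.inclPS_X]; exact h x
  · rw [AlgHom.comp_apply, AlgHom.comp_apply, Patch.inclPS_X, h]
    exact (isCoeff_powerSeries (𝒪 := 𝒪)).map_mem_maximalIdeal hR' γ'
      (span_X_le_maximalIdeal (Ideal.subset_span ⟨x, rfl⟩))

variable (F Pl)

/-- **Pair stages exist.** -/
theorem exists_pairStages (hs : (GaloisRepAdic.ofResidualGaloisRep F.rb).IsStrictOrdinaryAt p)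
    (hbound : SelmerAddBound p (barMatrix F.rb)) (u : F.Extra κ)
    (Cp : Bool → GaloisRepAdic (DualNumber (ResidueField 𝒪)) → Prop) (e : Bool → ℕ)
    (hCp : ∀ b, ∀ P : ValuationSubring (AlgebraicClosure ℚ), P.LiesOverPrime p →
      ∃ S : Submodule (ResidueField 𝒪) (P.decompositionSubgroup ℚ → Mat (ResidueField 𝒪)),
        adB1 (barMatrix F.rb) (P.decompositionSubgroup ℚ) ≤ S ∧
        S ≤ adZ1 (barMatrix F.rb) (P.decompositionSubgroup ℚ) ∧
        Module.Finite (ResidueField 𝒪) S ∧ Module.finrank (ResidueField 𝒪) S + e b ≤ 4 ∧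
        ∀ (N : Gal →* Mat (DualNumber (ResidueField 𝒪))) (hN : MatCont N),
          (∀ σ, (N σ).map TrivSqZeroExt.fst = barMatrix F.rb σ) →
          (∀ σ, Matrix.trace (liftCocycle (barMatrix F.rb) N σ) = 0) →
          Cp b (matRep N hN) →
          (fun g : P.decompositionSubgroup ℚ => liftCocycle (barMatrix F.rb) N g) ∈ S)
    (hu : ∀ S (D : F.DefData S) j, u S D j ∈ maximalIdeal D.R)
    (hCpu : ∀ S (D : F.DefData S) (f : D.R →ₐ[𝒪] DualNumber (ResidueField 𝒪))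
      (hf : IsLocalHom (f : D.R →+* DualNumber (ResidueField 𝒪)))
      (N : Gal →* Mat (DualNumber (ResidueField 𝒪))) (hN : MatCont N),
      (∀ j, f (u S D j) = 0) →
      (D.ρ.baseChangeAlong (f : D.R →+* DualNumber (ResidueField 𝒪)) hf).IsEquiv (matRep N hN) →
      problem 𝒪 p (flatAt p) S (badSet W p) (matRep N hN) → Cp false (matRep N hN))
    (hCps : ∀ S (N : Gal →* Mat (DualNumber (ResidueField 𝒪))) (hN : MatCont N),
      problem 𝒪 p (strictAt p) S (badSet W p) (matRep N hN) → Cp true (matRep N hN)) :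
    ∃ r gf gs : ℕ, gf + ∑ i, (Pl.Ds i).h0 + e false ≤ r ∧
      gs + ∑ i, (Pl.Ds i).h0 + e true ≤ r ∧ ∀ n : ℕ, Nonempty (PairStage F Pl u gf gs r n) := by
  classical
  have : CharP (ResidueField 𝒪) p := charP_of_injective_ringHom (resHom F.mem_p).injective p
  have hSp : ∀ {i : F.Loc}, i.1.Prime ∧ i.1 ∉ F.minS := fun {i} =>
    ⟨(F.loc_spec i).1, (F.loc_spec i).2.2.1⟩
  obtain ⟨r, g, hle, hn⟩ := exists_twPrimes_locVar_family F.ne_two F.residualHyp hbound
    (not_hasStableLine_algebraicClosure F.rb F.absIrr)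
    (fun q hq hqp => (mem_minSet_iff p F.disc_ne F.mem_p
      (prime_of_mem_minSet p F.disc_ne F.mem_p q hq) hqp).mp hq)
    Cp e hCp (qs := fun i : F.Loc => i.1) Subtype.val_injective (fun i => hSp) Pl.P Pl.liesOver
    Pl.φ Pl.frob Pl.Ds Pl.base (excSet W p aux)
  refine ⟨r, g false, g true, hle _, hle _, fun n => ?_⟩
  obtain ⟨qv, hinj, hqv, hsplit, hgen⟩ := hn n
  obtain ⟨a', htw⟩ := exists_twSystem F.disc_ne p F.mem_p (S₁ := excSet W p aux)
    (fun ℓ hℓ h => (F.good_of_notMem hℓ fun h' => h (Finset.mem_union_left _ h')).1)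
    (N := ∏ q ∈ excSet W p aux, q)
    (fun q hq hd => by
      obtain ⟨x, hx, hqx⟩ := hq.prime.exists_mem_finset_dvd hd
      rwa [(Nat.prime_dvd_prime_iff_eq hq (F.prime_of_mem_excSet hx)).mp hqx])
    (Finset.univ.image qv) fun q hq => by
      obtain ⟨j, -, rfl⟩ := Finset.mem_image.mp hq
      exact ⟨(hqv j).1, (hqv j).2.1,
        (dvd_pow_self p n.succ_ne_zero).trans (hqv j).2.2.2.2, fun P hP φ hφ => hsplit j P hP φ hφ⟩
  set S := badSet W p ∪ Finset.univ.image qv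
  obtain ⟨D₀⟩ := F.nonempty_freeData (S := S) Finset.subset_union_left
  obtain ⟨Df⟩ := F.nonempty_defData (S := S) Finset.subset_union_left
  obtain ⟨Ds⟩ := (F.toStrict hs).nonempty_defData (S := S) Finset.subset_union_left
  obtain ⟨M₀, hM₀, hl, he⟩ := exists_isLift_of_residual_isEquiv (isCoeff_deformationRing D₀) D₀.ρ
    (fun _ => rfl) D₀.residual_isEquiv
  have hC : ∀ i, Nonempty (Gen.LocalCoord (Pl.Ds i) M₀ (Pl.P i) (Pl.φ i)) := fun i =>
    F.nonempty_localCoord_free Pl D₀ hl he i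
  let C := fun i => (hC i).some
  obtain ⟨πf, hπf, htrf, hMf, hef⟩ := F.exists_fromFree D₀ he Df
  obtain ⟨πs, hπs, htrs, hMs, hes⟩ := (F.toStrict hs).exists_fromFree D₀ he Ds
  have hunr : ∀ (ρ : GaloisRepAdic (DualNumber (ResidueField 𝒪))),
      (∀ q : ℕ, q.Prime → q ∉ S → ρ.IsUnramifiedAt q) →
      ∀ q : ℕ, q.Prime → q ∉ F.minS → (∀ i : F.Loc, i.1 ≠ q) → q ∉ Finset.univ.image qv →
        ρ.IsUnramifiedAt q := fun ρ h q hq hqm hqs hqQ => h q hq fun hS =>
    (Finset.mem_union.mp hS).elim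
      (fun hb => hqs ⟨q, Finset.mem_sdiff.mpr ⟨hb, hqm⟩⟩ rfl) hqQ
  obtain ⟨γf, hγf, hγfC, hγfu⟩ := hgen false (F.type.isCond S (badSet W p))
    (fun ρ hρ => ⟨hρ.1.1, hunr ρ hρ.1.2.2, fun q hq hqP hqp => hρ.2 q (F.minS_subset hq) hqP hqp⟩)
    Df hef (fun i => localCoordMap (C i) πf hπf) (u S Df) (hu S Df) (hCpu S Df)
  obtain ⟨γs, hγs, hγsC, -⟩ := hgen true ((F.toStrict hs).type.isCond S (badSet W p))
    (fun ρ hρ => ⟨hρ.1.1, hunr ρ hρ.1.2.2, fun q hq hqP hqp => hρ.2 q (F.minS_subset hq) hqP hqp⟩)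
    Ds hes (fun i => localCoordMap (C i) πs hπs) (κ := Empty) (fun j => j.elim) (fun j => j.elim)
    (fun f hf N hN _ _ hd => hCps S N hN hd)
  have hPS : IsCoeff 𝒪 D₀.R := isCoeff_deformationRing D₀
  have liftf : ∀ y, ∃ a, a ∈ maximalIdeal D₀.R ∧
      πf a = γf (MvPowerSeries.X (Sum.inr y)) := fun y => by
    obtain ⟨a, ha⟩ := hπf (γf (MvPowerSeries.X (Sum.inr y)))
    exact ⟨a, fun hu => (IsLocalRing.mem_maximalIdeal _).mp
      ((isCoeff_powerSeries (𝒪 := 𝒪)).map_mem_maximalIdeal (isCoeff_deformationRing Df) γf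
        (span_X_le_maximalIdeal (Ideal.subset_span ⟨_, rfl⟩))) (ha ▸ hu.map πf), ha⟩
  have lifts : ∀ y, ∃ a, a ∈ maximalIdeal D₀.R ∧
      πs a = γs (MvPowerSeries.X (Sum.inr y)) := fun y => by
    obtain ⟨a, ha⟩ := hπs (γs (MvPowerSeries.X (Sum.inr y)))
    exact ⟨a, fun hu => (IsLocalRing.mem_maximalIdeal _).mp
      ((isCoeff_powerSeries (𝒪 := 𝒪)).map_mem_maximalIdeal (isCoeff_deformationRing Ds) γs
        (span_X_le_maximalIdeal (Ideal.subset_span ⟨_, rfl⟩))) (ha ▸ hu.map πs), ha⟩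
  choose af haf hafe using liftf
  choose as has hase using lifts
  let x₀ : LocVar F.Loc ((κ ⊕ Fin (g false)) ⊕ (Empty ⊕ Fin (g true))) → D₀.R :=
    Sum.elim (fun q => (C q.1).v q.2) (Sum.elim af as)
  have hx₀ : ∀ x, x₀ x ∈ maximalIdeal D₀.R := by
    rintro (q | y | y)
    · exact (C q.1).mem_maximalIdeal q.2
    · exact haf y
    · exact has y
  refine ⟨{
    qv := qv, inj := hinj, spec := fun j => ⟨(hqv j).1, (hqv j).2.1, (hqv j).2.2.2.2⟩
    a' := a', tw := htw, D₀ := D₀, M₀ := M₀, hM₀ := hM₀, equiv₀ := he, C₀ := C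
    Df := Df, πf := πf, πf_surj := hπf, πf_trace := htrf, hMf := hMf, equivf := hef
    γf := γf, γf_surj := hγf, γf_coord := hγfC, γf_extra := hγfu
    Ds := Ds, πs := πs, πs_surj := hπs, πs_trace := htrs, hMs := hMs, equivs := hes
    γs := γs, γs_surj := hγs, γs_coord := hγsC
    γ₀ := psEval x₀ hx₀, γ₀_coord := fun i k => psEval_X _ _ _
    γ₀_left := comp_eq_of_forall_X (isCoeff_deformationRing Df) γf _ πf leftVar ?_
    γ₀_right := comp_eq_of_forall_X (isCoeff_deformationRing Ds) γs _ πs rightVar ?_ }⟩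
  · rintro (q | y) <;> rw [psEval_X]
    · exact (hγfC q.1 q.2).symm
    · exact hafe y
  · rintro (q | y) <;> rw [psEval_X]
    · exact (hγsC q.1 q.2).symm
    · exact hase y

end FLTAgent.RT.Main
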