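import Fermat.Agent.RT.Raise.DataDefs
import Fermat.Agent.RT.Raise.Coker

/-!
# One stage of the data of raising at `p`

The matrices of the two levels `lowN` and `lowN p` of a pair stage with the degeneracy maps between
them; on the cokernel the free ring acts through the strict one.
-/

set_option autoImplicit false
set_option linter.unusedSectionVars false

noncomputable section

open IsLocalRing Matrix FLTAgent.Deformation FLTAgent.GalRep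

namespace FLTAgent.RT.Main

open LevelRaise

attribute [local instance] dualAlg

set_option allowUnsafeReducibility true in
attribute [local reducible] PairStage.flat

variable {𝒪 : Type} [CommRing 𝒪] [IsDomain 𝒪] [IsDiscreteValuationRing 𝒪]
  [IsAdicComplete (maximalIdeal 𝒪) 𝒪] [Finite (ResidueField 𝒪)] [CharZero 𝒪]
  {W : WeierstrassCurve ℤ} {p : ℕ} [Fact p.Prime] {aux : Finset ℕ}
  {F : Frame 𝒪 W p (flatAt p) aux} {Pl : F.Places} {κ : Type} [Finite κ] {u : F.Extra κ}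
  {gf gs r n : ℕ} [Fact (Odd (Nat.card (TWGrp p r n)))] {N₀ : ℕ} [NeZero N₀]

variable (F N₀) in
/-- The part at the base level with `p` added. -/
abbrev Frame.highBase :=
  haveI := neZero_p (p := p)
  haveI := Sys.neZero_baseN (N₀ := N₀) F.prime_qLoc Finset.univ
  cohPart trivChar (one_dvd (Sys.baseN N₀ F.qLoc Finset.univ * p))
    (prime_famPrime (W := W) (p := p) (aux := aux)) (famCoeff 𝒪)

/-- The matrices at the stage level of the common power series ring. -/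
def PairStage.actA (st : PairStage F Pl u gf gs r n) (hB : Base F N₀) (hI : Inputs F N₀) :
    MvPowerSeries (LocVar F.Loc ((κ ⊕ Fin gf) ⊕ (Empty ⊕ Fin gs))) 𝒪 →ₐ[𝒪]
      Matrix (Fin (F.rank N₀ Finset.univ)) (Fin (F.rank N₀ Finset.univ)) (STrunc 𝒪 r n) :=
  Sys.actMat ((st.flat.level hB hI).basis Finset.univ) (twEps F r n)
    ((st.flat.level hB hI).φ Finset.univ) ((st.flat.level hB hI).mem_equivEnd Finset.univ)
    (st.πf.comp st.γ₀)

/-- The two truncated levels at one stage, with the facts linking them to the strict ring. -/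
structure StageRaise (st : PairStage F Pl u gf gs r n) (hB : Base F N₀) (hI : Inputs F N₀)
    (c : 𝒪) (t : MvPowerSeries (LocVar F.Loc (κ ⊕ Fin gf)) 𝒪) (K rankB : ℕ) : Type where
  actB : MvPowerSeries (LocVar F.Loc ((κ ⊕ Fin gf) ⊕ (Empty ⊕ Fin gs))) 𝒪 →ₐ[𝒪]
    Matrix (Fin rankB) (Fin rankB) (STrunc 𝒪 r n)
  relB : ∀ i, (Pl.Ds i).Rel 2 fun k => Ideal.Quotient.mk (RingHom.ker actB) (locCoord i k)
  normB : ∀ i, (Pl.Ds i).IsNorm fun k => Ideal.Quotient.mk (RingHom.ker actB) (locCoord i k)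
  i₁ : Matrix (Fin rankB) (Fin (F.rank N₀ Finset.univ)) (STrunc 𝒪 r n)
  i₂ : Matrix (Fin rankB) (Fin (F.rank N₀ Finset.univ)) (STrunc 𝒪 r n)
  s₁ : Matrix (Fin rankB) (Fin (F.rank N₀ Finset.univ)) (STrunc 𝒪 r n)
  l₁ : Matrix (Fin (F.rank N₀ Finset.univ)) (Fin rankB) (STrunc 𝒪 r n)
  l₂ : Matrix (Fin (F.rank N₀ Finset.univ)) (Fin rankB) (STrunc 𝒪 r n)
  j₁ : Matrix (Fin (F.rank N₀ Finset.univ)) (Fin rankB) (STrunc 𝒪 r n)
  j₂ : Matrix (Fin (F.rank N₀ Finset.univ)) (Fin rankB) (STrunc 𝒪 r n)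
  T : Matrix (Fin (F.rank N₀ Finset.univ)) (Fin (F.rank N₀ Finset.univ)) (STrunc 𝒪 r n)
  l₁i₁ : l₁ * i₁ = 1
  l₁i₂ : l₁ * i₂ = 0
  l₂i₁ : l₂ * i₁ = 0
  l₂i₂ : l₂ * i₂ = 1
  i₁_act : ∀ x, actB (MvPowerSeries.X x) * i₁ = i₁ * st.actA hB hI (MvPowerSeries.X x)
  i₂_act : ∀ x, actB (MvPowerSeries.X x) * i₂ = i₂ * st.actA hB hI (MvPowerSeries.X x)
  j₁_act : ∀ x, j₁ * actB (MvPowerSeries.X x) = st.actA hB hI (MvPowerSeries.X x) * j₁
  j₂_act : ∀ x, j₂ * actB (MvPowerSeries.X x) = st.actA hB hI (MvPowerSeries.X x) * j₂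
  j₁s₁ : j₁ * s₁ = 1
  j₂s₁ : j₂ * s₁ = 0
  j₁i₁ : j₁ * i₁ = algebraMap 𝒪 _ c
  j₁i₂ : j₁ * i₂ = T
  j₂i₁ : j₂ * i₁ = T
  j₂i₂ : j₂ * i₂ = algebraMap 𝒪 _ c
  T_comm : ∀ x, st.actA hB hI (MvPowerSeries.X x) * T = T * st.actA hB hI (MvPowerSeries.X x)
  T_nil : (T - st.actA hB hI (Patch.inclPS leftVar t)) ^ K = 0
  toS : κ ⊕ Fin gf → MvPowerSeries (LocVar F.Loc (Empty ⊕ Fin gs)) 𝒪
  toS_mem : ∀ j, toS j ∈ maximalIdeal (MvPowerSeries (LocVar F.Loc (Empty ⊕ Fin gs)) 𝒪)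
  toS_eq : ∀ j, (1 - i₁ * l₁ - i₂ * l₂) *
    actB (MvPowerSeries.X (Sum.inr (Sum.inl j)) - Patch.inclPS rightVar (toS j)) = 0
  toS_spec : ∀ j, st.πs (st.γ₀ (MvPowerSeries.X (Sum.inr (Sum.inl j)))) = st.γs (toS j)
  dia : Fin r → MvPowerSeries (LocVar F.Loc ((κ ⊕ Fin gf) ⊕ (Empty ⊕ Fin gs))) 𝒪
  dia_spec : ∀ j, ∃ (P : ValuationSubring (AlgebraicClosure ℚ)) (τ : Gal),
    P.LiesOverPrime (st.qv j) ∧ τ ∈ P.inertiaSubgroupIn ℚ ∧
    st.πs (st.γ₀ (dia j)) = st.πs (st.M₀ τ).trace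
  dia_rel : ∀ j, (1 - i₁ * l₁ - i₂ * l₂) *
    ((algebraMap (MvPowerSeries (Fin r) 𝒪) (Matrix (Fin rankB) (Fin rankB) (STrunc 𝒪 r n))
          (1 + MvPowerSeries.X j)) ^ 2 -
        (actB (dia j) ^ 2 - 2) *
          algebraMap (MvPowerSeries (Fin r) 𝒪) (Matrix (Fin rankB) (Fin rankB) (STrunc 𝒪 r n))
            (1 + MvPowerSeries.X j) + 1) ^ K = 0
  base : ∀ {𝒟 : ∀ ⦃A : Type⦄ [CommRing A] [IsLocalRing A] [Algebra 𝒪 A], GaloisRepAdic A → Prop}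
    (Dat : GaloisRep.DeformationRingData 𝒪 F.rb 𝒟) (S₀ : Finset ℕ),
    haveI := neZero_p (p := p)
    haveI := Sys.neZero_baseN (N₀ := N₀) F.prime_qLoc Finset.univ
    ∀ φ₀ : Dat.R →ₐ[𝒪] Module.End 𝒪 (F.highBase N₀),
    Sys.IsFrobCompat Dat S₀ φ₀ →
    ∀ (f : st.D₀.R →ₐ[𝒪] Dat.R),
    (∀ σ, f (st.D₀.ρ.trace σ) = Dat.ρ.trace σ) → ∀ (z : st.D₀.R)
    (g : MvPowerSeries (LocVar F.Loc (Empty ⊕ Fin gs)) 𝒪),
    φ₀ (f z) = 0 → st.γs g = st.πs z →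
    ((1 - i₁ * l₁ - i₂ * l₂) * actB (Patch.inclPS rightVar g)).map (augT r n) = 0

theorem mat_sub {M N d M₂ N₂ d₂ : ℕ} {D : Type} [CommGroup D] [Fintype D] {χ : (ZMod M)ˣ →* D}
    [Fact (Odd (Nat.card D))] [NeZero N] {hMN : M ∣ N} {hχ : Function.Surjective χ}
    {P : Submodule 𝒪 (Coh N χ 𝒪)} (B : Sys.DBasis hMN hχ P d) {χ₂ : (ZMod M₂)ˣ →* D} [NeZero N₂]
    {hMN₂ : M₂ ∣ N₂} {hχ₂ : Function.Surjective χ₂} {P₂ : Submodule 𝒪 (Coh N₂ χ₂ 𝒪)}
    (B₂ : Sys.DBasis hMN₂ hχ₂ P₂ d₂) {A : Type} [CommRing A] [Algebra 𝒪 A] (ε : D →* A)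
    (f g : P →ₗ[𝒪] P₂) : B.mat B₂ ε (f - g) = B.mat B₂ ε f - B.mat B₂ ε g :=
  eq_sub_of_add_eq ((B.mat_add B₂ ε _ _).symm.trans (congrArg _ (sub_add_cancel f g)))

/-- A quadratic relation with `S` becomes one with `R` after multiplying by `e`. -/
theorem mul_quad_pow_eq_zero {A : Type*} [Ring A] {e y R S : A}
    (h : y ^ 2 + (1 + 1) * y + 1 = S ^ 2 * y) (he : e * S ^ 2 = e * R ^ 2) {K : ℕ} (hK : 0 < K) :
    e * (y ^ 2 - (R ^ 2 - 2) * y + 1) ^ K = 0 := by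
  obtain ⟨K', rfl⟩ : ∃ K', K = K' + 1 := ⟨K - 1, by omega⟩
  rw [show (2 : A) = 1 + 1 from one_add_one_eq_two.symm,
    show y ^ 2 - (R ^ 2 - (1 + 1)) * y + 1 = S ^ 2 * y - R ^ 2 * y by
      rw [← h, sub_mul]; abel,
    pow_succ', ← mul_assoc, mul_sub, ← mul_assoc, ← mul_assoc, he, sub_self, zero_mul]

set_option maxHeartbeats 3200000 in
-- two levels with their matrices
/-- **One stage of the data**, from the action, the basis and the relations at the level with `p`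
added. -/
theorem PairStage.nonempty_stageRaise (st : PairStage F Pl u gf gs r n) (hB : Base F N₀)
    (hI : Inputs F N₀) (hpN₀ : ¬ p ∣ N₀) [NeZero p] [NeZero (st.lowN N₀)]
    [NeZero (Sys.baseN N₀ F.qLoc Finset.univ)]
    (φ : st.D₀.R →ₐ[𝒪] Module.End 𝒪 (st.highPart N₀))
    (hφ : Sys.IsFrobCompat (χ := st.flat.χ) st.D₀ (st.flat.ram ∪ aux) φ)
    {dB : ℕ} (B : Sys.DBasis
      ((dvd_mul_left (∏ j, st.qv j) (Sys.baseN N₀ F.qLoc Finset.univ)).trans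
        (dvd_mul_right (st.lowN N₀) p)) st.flat.χ_surjective (st.highPart N₀) dB)
    (e₁ : Module.Basis (Fin dB) 𝒪 (F.highBase N₀)) (c₁ : st.highPart N₀ →ₗ[𝒪] F.highBase N₀)
    (hc : ∀ j, c₁ (B.vec j) = e₁ j) (hd : ∀ δ v, c₁ (B.dia δ v) = c₁ v)
    (hcint : ∀ {𝒟 : ∀ ⦃A : Type⦄ [CommRing A] [IsLocalRing A] [Algebra 𝒪 A],
        GaloisRepAdic A → Prop} (Dat : GaloisRep.DeformationRingData 𝒪 F.rb 𝒟) (S₀ : Finset ℕ)
      (φ₀ : Dat.R →ₐ[𝒪] Module.End 𝒪 (F.highBase N₀)), Sys.IsFrobCompat Dat S₀ φ₀ →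
      ∀ (f : st.D₀.R →ₐ[𝒪] Dat.R), (∀ σ, f (st.D₀.ρ.trace σ) = Dat.ρ.trace σ) →
      ∀ x, c₁ ∘ₗ φ x = φ₀ (f x) ∘ₗ c₁)
    (H : RaiseHyp (st.lowN N₀) p (famPrime (W := W) (p := p) (aux := aux)) st.a')
    (hin : ∀ j : Fin r, ∃ (P : ValuationSubring (AlgebraicClosure ℚ)) (τ : Gal),
      P.LiesOverPrime (st.qv j) ∧ τ ∈ P.inertiaSubgroupIn ℚ ∧
      DiaQuad (φ (st.M₀ τ).trace) (B.dia (Sys.twGen j)))
    (t : MvPowerSeries (LocVar F.Loc (κ ⊕ Fin gf)) 𝒪)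
    (hT : ∀ Tp : Module.End 𝒪 (st.lowPart N₀), (∀ v : st.lowPart N₀, (Tp v).1 =
        opT 𝒪 𝒪 st.flat.χ (dvd_mul_left (∏ j, st.qv j) (Sys.baseN N₀ F.qLoc Finset.univ))
          (Fact.out : p.Prime) (st.not_dvd_lowN hpN₀) v.1) →
      IsNilpotent (st.flat.act hB hI Finset.univ (st.γf t) - Tp))
    {K : ℕ} (hKA : F.rank N₀ Finset.univ ≤ K) (hK0 : 0 < K) :
    Nonempty (StageRaise st hB hI ((p : 𝒪) + 1) t K dB) := by
  classical
  have : NeZero (Sys.baseN N₀ F.qLoc Finset.univ * ∏ j, st.flat.qv j) :=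
    ‹NeZero (st.lowN N₀)›
  have hpp : p.Prime := Fact.out
  have hpexc : p ∈ excSet W p aux := Finset.mem_union_left _ (Finset.mem_insert_self _ _)
  have hne : ∀ i : Fam W p aux, famPrime i ≠ p := famPrime_notMem F hpexc
  obtain ⟨Wd⟩ := exists_wData hpp (st.not_dvd_lowN hpN₀)
  set ε := twEps F r n
  have hMN : (∏ j, st.qv j) ∣ st.lowN N₀ := dvd_mul_left (∏ j, st.qv j) (Sys.baseN N₀ F.qLoc Finset.univ)
  have hl : ∀ i : Fam W p aux, (famPrime i).Prime := prime_famPrime (W := W) (p := p) (aux := aux)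
  let BA : Sys.DBasis hMN st.flat.χ_surjective (st.lowPart N₀) (F.rank N₀ Finset.univ) :=
    (st.flat.level hB hI).basis Finset.univ
  let φA : st.D₀.R →ₐ[𝒪] Module.End 𝒪 (st.lowPart N₀) :=
    (st.flat.act hB hI Finset.univ).comp st.πf
  have h𝒟 := F.toFree.type.isCond (badSet W p ∪ Finset.univ.image st.qv) (badSet W p)
  have hφA : Sys.IsFrobCompat (χ := st.flat.χ) st.D₀ (st.flat.ram ∪ aux) φA :=
    fun ℓ hℓ hℓS A hA σ hσ v => by
      show ((st.flat.act hB hI Finset.univ) (st.πf (st.D₀.ρ.trace σ)) v).1 = _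
      rw [st.πf_trace]
      exact st.flat.act_compat hB hI Finset.univ ℓ hℓ hℓS A hA σ hσ v
  have hφAB : ∀ x, φA x ∈ BA.equivEnd := hφA.mem_equivEnd h𝒟 BA
  have hφB : ∀ x, φ x ∈ B.equivEnd := hφ.mem_equivEnd h𝒟 B
  have hactA : ∀ g, st.actA hB hI g = BA.mat BA ε (φA (st.γ₀ g)) := fun g => rfl
  let actB := Sys.actMat B ε φ hφB st.γ₀
  have hactB : ∀ g, actB g = B.mat B ε (φ (st.γ₀ g)) := fun g => rfl
  -- the maps
  set i₁ := Sys.degFst Wd hMN hl hne (a := st.a') (χ := st.flat.χ)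
  set i₂ := Sys.degSnd Wd hMN hl hne (a := st.a') (χ := st.flat.χ)
  set j₁ := Sys.adjFst Wd hMN hl hne (a := st.a') (χ := st.flat.χ)
  set j₂ := Sys.adjSnd Wd hMN hl hne (a := st.a') (χ := st.flat.χ)
  have hell : EllCond st.flat.χ (st.lowN N₀) := (st.flat.level hB hI).ell Finset.univ
  have hgrp := Sys.isPGroup_twGroup p n r
  obtain ⟨L, hLmem, hLD, hL⟩ :=
    H.exists_leftInverse Wd hMN hl st.flat.χ_surjective hell p hgrp F.mem_p
  let l₁ : st.highPart N₀ →ₗ[𝒪] st.lowPart N₀ :=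
    ((LinearMap.fst 𝒪 _ _).comp L).restrict fun z _ => (hLmem z).1
  let l₂ : st.highPart N₀ →ₗ[𝒪] st.lowPart N₀ :=
    ((LinearMap.snd 𝒪 _ _).comp L).restrict fun z _ => (hLmem z).2
  have hl₁ : B.IsEquivariant BA l₁ := fun δ z => Subtype.ext (by
    show (L (B.dia δ z).1).1 = _
    rw [B.coe_dia, hLD, BA.coe_dia]; rfl)
  have hl₂ : B.IsEquivariant BA l₂ := fun δ z => Subtype.ext (by
    show (L (B.dia δ z).1).2 = _
    rw [B.coe_dia, hLD, BA.coe_dia]; rfl)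
  have hLfst : ∀ x : st.lowPart N₀, L (i₁ x).1 = (x.1, 0) := fun x => by
    have := hL (x.1, 0) ⟨x.2, Submodule.zero_mem _⟩
    rwa [degB_apply, map_zero, map_zero, add_zero] at this
  have hLsnd : ∀ x : st.lowPart N₀, L (i₂ x).1 = (0, x.1) := fun x => by
    have := hL (0, x.1) ⟨Submodule.zero_mem _, x.2⟩
    rwa [degB_apply, map_zero, zero_add] at this
  have l₁i₁ : l₁ ∘ₗ i₁ = LinearMap.id := LinearMap.ext fun x => Subtype.ext (by
    show (L (i₁ x).1).1 = _; rw [hLfst]; rfl)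
  have l₁i₂ : l₁ ∘ₗ i₂ = 0 := LinearMap.ext fun x => Subtype.ext (by
    show (L (i₂ x).1).1 = _; rw [hLsnd]; rfl)
  have l₂i₁ : l₂ ∘ₗ i₁ = 0 := LinearMap.ext fun x => Subtype.ext (by
    show (L (i₁ x).1).2 = _; rw [hLfst]; rfl)
  have l₂i₂ : l₂ ∘ₗ i₂ = LinearMap.id := LinearMap.ext fun x => Subtype.ext (by
    show (L (i₂ x).1).2 = _; rw [hLsnd]; rfl)
  have hjfst : ∀ x : st.lowPart N₀, adjB Wd st.flat.χ hMN (i₁ x).1 =
      ((p + 1) • x.1, opT 𝒪 𝒪 st.flat.χ hMN Wd.prime Wd.not_dvd x.1) := fun x => by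
    have := adjB_degB (χ := st.flat.χ) (O := 𝒪) Wd hMN (x.1, 0)
    rw [degB_apply, map_zero, map_zero, add_zero] at this
    simp only [smul_zero, map_zero, add_zero] at this
    exact this
  have hjsnd : ∀ x : st.lowPart N₀, adjB Wd st.flat.χ hMN (i₂ x).1 =
      (opT 𝒪 𝒪 st.flat.χ hMN Wd.prime Wd.not_dvd x.1, (p + 1) • x.1) := fun x => by
    have := adjB_degB (χ := st.flat.χ) (O := 𝒪) Wd hMN (0, x.1)
    rw [degB_apply, map_zero, zero_add] at this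
    simp only [smul_zero, map_zero, zero_add] at this
    exact this
  let Tp : Module.End 𝒪 (st.lowPart N₀) := j₁ ∘ₗ i₂
  have hTp : ∀ v : st.lowPart N₀, (Tp v).1 =
      opT 𝒪 𝒪 st.flat.χ hMN (Fact.out : p.Prime) (st.not_dvd_lowN hpN₀) v.1 :=
    fun v => congrArg Prod.fst (hjsnd v)
  have hcO : ∀ x : st.lowPart N₀,
      (algebraMap 𝒪 (Module.End 𝒪 (st.lowPart N₀)) ((p : 𝒪) + 1) x).1 = (p + 1) • x.1 := fun x => by
    rw [show ((p : 𝒪) + 1) = ((p + 1 : ℕ) : 𝒪) by push_cast; ring, map_natCast,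
      Module.End.natCast_apply]
    rfl
  have j₁i₁ : j₁ ∘ₗ i₁ = algebraMap 𝒪 _ ((p : 𝒪) + 1) := LinearMap.ext fun x => Subtype.ext (by
    rw [hcO]; exact congrArg Prod.fst (hjfst x))
  have j₂i₁ : j₂ ∘ₗ i₁ = Tp := LinearMap.ext fun x => Subtype.ext (by
    rw [hTp]; exact congrArg Prod.snd (hjfst x))
  have j₂i₂ : j₂ ∘ₗ i₂ = algebraMap 𝒪 _ ((p : 𝒪) + 1) := LinearMap.ext fun x => Subtype.ext (by
    rw [hcO]; exact congrArg Prod.snd (hjsnd x))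
  have hi₁ := Sys.isEquivariant_degFst Wd hMN hl hne BA B
  have hi₂ := Sys.isEquivariant_degSnd Wd hMN hl hne BA B
  have hj₁ := Sys.isEquivariant_adjFst Wd hMN hl hne BA B
  have hj₂ := Sys.isEquivariant_adjSnd Wd hMN hl hne BA B
  have hTB : Tp ∈ BA.equivEnd := BA.mem_equivEnd.mpr (hi₂.comp BA hj₁)
  have hpS : p ∈ st.flat.ram ∪ aux :=
    Finset.mem_union_left _ (Finset.mem_union_left _ (Finset.mem_insert_self _ _))
  have hint := fun x => Sys.intertwine_deg Wd hMN hl hne h𝒟 hpS hφA hφ x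
  have hTcomm : ∀ x, φA x ∘ₗ Tp = Tp ∘ₗ φA x := fun x => by
    show φA x ∘ₗ (j₁ ∘ₗ i₂) = (j₁ ∘ₗ i₂) ∘ₗ φA x
    rw [← LinearMap.comp_assoc, ← (hint x).2.2.1, LinearMap.comp_assoc, ← (hint x).2.1,
      LinearMap.comp_assoc]
  -- the projection to the cokernel
  let e : Module.End 𝒪 (st.highPart N₀) := LinearMap.id - i₁ ∘ₗ l₁ - i₂ ∘ₗ l₂
  have heapp : ∀ x₁ x₂, e (i₁ x₁ + i₂ x₂) = 0 := fun x₁ x₂ => by
    simp only [e, LinearMap.sub_apply, LinearMap.id_apply, LinearMap.comp_apply, map_add,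
      show l₁ (i₁ x₁) = x₁ from LinearMap.congr_fun l₁i₁ x₁,
      show l₁ (i₂ x₂) = 0 from LinearMap.congr_fun l₁i₂ x₂,
      show l₂ (i₁ x₁) = 0 from LinearMap.congr_fun l₂i₁ x₁,
      show l₂ (i₂ x₂) = x₂ from LinearMap.congr_fun l₂i₂ x₂, map_zero]
    abel
  have heB : e ∈ B.equivEnd := B.mem_equivEnd.mpr fun δ z => by
    simp only [e, LinearMap.sub_apply, LinearMap.id_apply, LinearMap.comp_apply, hl₁ δ z, hl₂ δ z,
      hi₁ δ (l₁ z), hi₂ δ (l₂ z), map_sub, i₁, i₂]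
  let eM : Matrix (Fin dB) (Fin dB) (STrunc 𝒪 r n) :=
    1 - BA.mat B ε i₁ * B.mat BA ε l₁ - BA.mat B ε i₂ * B.mat BA ε l₂
  have heM : eM = B.matHom ε ⟨e, heB⟩ := by
    show _ = B.mat B ε e
    rw [mat_sub, mat_sub, B.mat_id, Sys.DBasis.mat_comp _ ε hi₁, Sys.DBasis.mat_comp _ ε hi₂]
  have hex : ∀ q : ℕ, q.Prime → q ∣ ∏ j, st.qv j → ¬ q ^ 2 ∣ st.lowN N₀ * p := fun q hq hd h => by
    obtain ⟨j, -, hj⟩ := hq.prime.exists_mem_finset_dvd hd
    have hqj := (Nat.prime_dvd_prime_iff_eq hq (st.spec j).1).mp hj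
    have hqp : q ≠ p := fun e => (st.spec j).2.1 (by rw [← hqj, e]; exact hpexc)
    refine Sys.not_sq_dvd_stageN F.prime_qLoc (fun j => (st.spec j).1) st.inj
      (fun i j => st.flat.qLoc_ne i j) (st.flat.not_dvd_N₀ hB) Finset.univ q hq hd ?_
    exact ((Nat.coprime_primes hq hpp).mpr hqp).pow_left 2 |>.dvd_of_dvd_mul_right h
  have hkill : ∀ y, st.πs y = 0 → e ∘ₗ φ y = 0 := fun y hy => LinearMap.ext fun z => by
    have hmem := Raise.map_mem_old_of_strict F st.D₀ st.Ds st.πs st.πs_trace Wd hne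
      ((st.flat.twPrimes hB).nonEis F.nonEis)
      (Sys.squarefree_prod_primes (fun j => (st.spec j).1) st.inj) hex
      (S₁ := st.flat.ram ∪ aux) (fun q hq hd => by
        rcases hq.dvd_mul.mp hd with hd | hd
        · exact st.flat.mem_ram_of_dvd hB hq hd
        · rw [(Nat.prime_dvd_prime_iff_eq hq hpp).mp hd]; exact hpS)
      hφA hφ (l₁.prod l₂) (fun x₁ x₂ => by
        show ((l₁ (i₁ x₁ + i₂ x₂), l₂ (i₁ x₁ + i₂ x₂)) : _ × _) = (x₁, x₂)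
        simp only [map_add,
          show l₁ (i₁ x₁) = x₁ from LinearMap.congr_fun l₁i₁ x₁,
          show l₁ (i₂ x₂) = 0 from LinearMap.congr_fun l₁i₂ x₂,
          show l₂ (i₁ x₁) = 0 from LinearMap.congr_fun l₂i₁ x₁,
          show l₂ (i₂ x₂) = x₂ from LinearMap.congr_fun l₂i₂ x₂, add_zero, zero_add]) hy z
    obtain ⟨_, ⟨x₁, rfl⟩, _, ⟨x₂, rfl⟩, hz⟩ := Submodule.mem_sup.mp hmem
    rw [LinearMap.comp_apply, ← hz]
    exact heapp x₁ x₂
  have heq : ∀ a b, st.πs a = st.πs b → e ∘ₗ φ a = e ∘ₗ φ b := fun a b h => by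
    rw [← sub_add_cancel a b, map_add, LinearMap.comp_add, hkill _ (by rw [map_sub, h, sub_self]),
      zero_add]
  have hkillM : ∀ g, st.πs (st.γ₀ g) = 0 → eM * actB g = 0 := fun g hg => by
    rw [heM, Sys.DBasis.matHom_apply, hactB, ← Sys.DBasis.mat_comp _ ε (B.mem_equivEnd.mp heB),
      hkill _ hg, B.mat_zero]
  -- preimages
  have hmax : ∀ {X : Type} [Finite X]
      (g : MvPowerSeries (LocVar F.Loc (Empty ⊕ Fin gs)) 𝒪) (x : X)
      (γ : MvPowerSeries X 𝒪 →ₐ[𝒪] st.Ds.R), st.γs g = γ (MvPowerSeries.X x) →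
      g ∈ maximalIdeal (MvPowerSeries (LocVar F.Loc (Empty ⊕ Fin gs)) 𝒪) := fun g x γ hg hu =>
    (IsLocalRing.mem_maximalIdeal _).mp
      ((isCoeff_powerSeries (𝒪 := 𝒪)).map_mem_maximalIdeal (isCoeff_deformationRing st.Ds) γ
        (span_X_le_maximalIdeal (Ideal.subset_span ⟨x, rfl⟩))) (hg ▸ hu.map st.γs)
  choose toS htoS using fun j : κ ⊕ Fin gf =>
    st.γs_surj (st.πs (st.γ₀ (MvPowerSeries.X (Sum.inr (Sum.inl j)))))
  choose P τ hP hτ hquad using hin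
  choose gdia hgdia using fun j : Fin r => st.γs_surj (st.πs (st.M₀ (τ j)).trace)
  have hdiaπ : ∀ j, st.πs (st.γ₀ (Patch.inclPS rightVar (gdia j))) =
      st.πs (st.M₀ (τ j)).trace := fun j => by rw [st.γ₀_right, hgdia]
  have hs : ∀ j : Fin (F.rank N₀ Finset.univ), ∃ z, j₁ z = BA.vec j ∧ j₂ z = 0 := fun j => by
    obtain ⟨z, hz, hzz⟩ := H.exists_adjB_eq Wd hMN hl st.flat.χ_surjective hell p hgrp F.mem_p
      (u := ((BA.vec j).1, 0)) ⟨(BA.vec j).2, Submodule.zero_mem _⟩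
    exact ⟨⟨z, hz⟩, Subtype.ext (congrArg Prod.fst hzz), Subtype.ext (congrArg Prod.snd hzz)⟩
  choose z hz₁ hz₂ using hs
  let s₁ : Matrix (Fin dB) (Fin (F.rank N₀ Finset.univ)) (STrunc 𝒪 r n) :=
    Matrix.of fun i j => B.coord ε (z j) i
  have hrel : ∀ i, (Pl.Ds i).Rel 2 fun k => st.γ₀ (locCoord i k) := fun i => by
    rw [show (fun k => st.γ₀ (locCoord i k)) = (st.C₀ i).v from funext (st.γ₀_coord i)]
    exact (st.C₀ i).rel (by
      rw [trace_tau_eq_two F.toFree ⟨Pl.P, Pl.φ, Pl.Ds, Pl.liesOver, Pl.frob, Pl.q_eq, Pl.base⟩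
        st.D₀ st.equiv₀ i (st.C₀ i)])
  have hker : RingHom.ker st.γ₀ ≤ RingHom.ker actB := Sys.ker_le_ker_actMat B ε φ hφB st.γ₀
  refine ⟨{
    actB := actB
    relB := fun i => (LocalDatum.Rel.of_ker st.γ₀ (hrel i)).map
      (Ideal.Quotient.factorₐ 𝒪 hker)
    normB := fun i T hT => by
      have hnorm : (Pl.Ds i).IsNorm fun k => st.γ₀ (locCoord i k) := by
        rw [show (fun k => st.γ₀ (locCoord i k)) = (st.C₀ i).v from funext (st.γ₀_coord i)]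
        exact (st.C₀ i).isNorm
      exact ⟨Ideal.Quotient.eq_zero_iff_mem.mpr (hker (hnorm T hT).1),
        Ideal.Quotient.eq_zero_iff_mem.mpr (hker (hnorm T hT).2)⟩
    i₁ := BA.mat B ε i₁
    i₂ := BA.mat B ε i₂
    s₁ := s₁
    l₁ := B.mat BA ε l₁
    l₂ := B.mat BA ε l₂
    j₁ := B.mat BA ε j₁
    j₂ := B.mat BA ε j₂
    T := BA.mat BA ε Tp
    l₁i₁ := by rw [← Sys.DBasis.mat_comp _ ε hl₁, l₁i₁, BA.mat_id]
    l₁i₂ := by rw [← Sys.DBasis.mat_comp _ ε hl₁, l₁i₂, BA.mat_zero]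
    l₂i₁ := by rw [← Sys.DBasis.mat_comp _ ε hl₂, l₂i₁, BA.mat_zero]
    l₂i₂ := by rw [← Sys.DBasis.mat_comp _ ε hl₂, l₂i₂, BA.mat_id]
    i₁_act := fun x => by
      rw [hactB, hactA, ← Sys.DBasis.mat_comp _ ε (B.mem_equivEnd.mp (hφB _)),
        ← Sys.DBasis.mat_comp _ ε hi₁, ← (hint _).1]
    i₂_act := fun x => by
      rw [hactB, hactA, ← Sys.DBasis.mat_comp _ ε (B.mem_equivEnd.mp (hφB _)),
        ← Sys.DBasis.mat_comp _ ε hi₂, ← (hint _).2.1]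
    j₁_act := fun x => by
      rw [hactB, hactA, ← Sys.DBasis.mat_comp _ ε hj₁,
        ← Sys.DBasis.mat_comp _ ε (BA.mem_equivEnd.mp (hφAB _)), (hint _).2.2.1]
    j₂_act := fun x => by
      rw [hactB, hactA, ← Sys.DBasis.mat_comp _ ε hj₂,
        ← Sys.DBasis.mat_comp _ ε (BA.mem_equivEnd.mp (hφAB _)), (hint _).2.2.2]
    j₁s₁ := Matrix.ext fun i j => by
      show (B.mat BA ε j₁ *ᵥ B.coord ε (z j)) i = _
      rw [← Sys.DBasis.coord_map ε hj₁, hz₁, BA.coord_vec, Pi.single_apply, Matrix.one_apply]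
    j₂s₁ := Matrix.ext fun i j => by
      show (B.mat BA ε j₂ *ᵥ B.coord ε (z j)) i = _
      rw [← Sys.DBasis.coord_map ε hj₂, hz₂, map_zero]; rfl
    j₁i₁ := by
      rw [← Sys.DBasis.mat_comp _ ε hj₁, j₁i₁]
      exact (BA.matHom ε).commutes _
    j₁i₂ := by rw [← Sys.DBasis.mat_comp _ ε hj₁]
    j₂i₁ := by rw [← Sys.DBasis.mat_comp _ ε hj₂, j₂i₁]
    j₂i₂ := by
      rw [← Sys.DBasis.mat_comp _ ε hj₂, j₂i₂]
      exact (BA.matHom ε).commutes _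
    T_comm := fun x => by
      rw [hactA, ← Sys.DBasis.mat_comp _ ε (BA.mem_equivEnd.mp (hφAB _)),
        ← Sys.DBasis.mat_comp _ ε (BA.mem_equivEnd.mp hTB), hTcomm]
    T_nil := ?_
    toS := toS
    toS_mem := fun j => hmax (toS j) _ (st.πs.comp st.γ₀) (htoS j)
    toS_eq := fun j => hkillM _ (by rw [map_sub, map_sub, st.γ₀_right, htoS, sub_self])
    toS_spec := fun j => (htoS j).symm
    dia := fun j => Patch.inclPS rightVar (gdia j)
    dia_spec := fun j => ⟨P j, τ j, hP j, hτ j, hdiaπ j⟩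
    dia_rel := fun j => ?_
    base := ?_ }⟩
  · rw [hactA, ← mat_sub BA BA ε]
    have hφt : φA (st.γ₀ (Patch.inclPS leftVar t)) = st.flat.act hB hI Finset.univ (st.γf t) := by
      show st.flat.act hB hI Finset.univ (st.πf (st.γ₀ (Patch.inclPS leftVar t))) = _
      rw [st.γ₀_left]
    let X : Module.End 𝒪 (st.lowPart N₀) := Tp - φA (st.γ₀ (Patch.inclPS leftVar t))
    have hX : X = Tp - φA (st.γ₀ (Patch.inclPS leftVar t)) := rfl
    have hXB : X ∈ BA.equivEnd := BA.mem_equivEnd.mpr fun δ v => by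
      simp only [X, LinearMap.sub_apply, map_sub, BA.mem_equivEnd.mp hTB δ v,
        BA.mem_equivEnd.mp (hφAB _) δ v]
    show (BA.matHom ε ⟨X, hXB⟩) ^ K = 0
    rw [← map_pow (BA.matHom ε)]
    refine (congrArg (BA.matHom ε) (Subtype.ext ?_)).trans (map_zero _)
    refine pow_eq_zero_of_le hKA (BA.pow_eq_zero (BA.mem_equivEnd.mp hXB) ?_)
    show IsNilpotent X
    obtain ⟨k, hk⟩ := hT Tp hTp
    refine ⟨k, ?_⟩
    rw [show X = ((-1 : 𝒪) •
        (st.flat.act hB hI Finset.univ (st.γf t) - Tp) : Module.End 𝒪 (st.lowPart N₀)) from by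
      rw [hX, hφt]
      refine LinearMap.ext fun v => ?_
      simp only [LinearMap.sub_apply, LinearMap.smul_apply, neg_smul, one_smul, neg_sub],
      smul_pow, hk, smul_zero]
  · let y : B.equivEnd := ⟨B.dia (Sys.twGen j),
      B.mem_equivEnd.mpr (B.isEquivariant_dia (Sys.twGen j))⟩
    let R : B.equivEnd := ⟨φ (st.γ₀ (Patch.inclPS rightVar (gdia j))), hφB _⟩
    let S : B.equivEnd := ⟨φ (st.M₀ (τ j)).trace, hφB _⟩
    have hy : algebraMap (MvPowerSeries (Fin r) 𝒪)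
        (Matrix (Fin dB) (Fin dB) (STrunc 𝒪 r n)) (1 + MvPowerSeries.X j) =
        B.matHom ε y := by
      rw [Sys.DBasis.matHom_apply, B.mat_dia, twEps_gen, Algebra.algebraMap_eq_smul_one]
      ext a b
      rw [Matrix.smul_apply, Matrix.smul_apply, Sys.yVar, Algebra.smul_def]
      rfl
    have hR : actB (Patch.inclPS rightVar (gdia j)) = B.matHom ε R := rfl
    have hrelS : y ^ 2 + (1 + 1) * y + 1 = S ^ 2 * y := Subtype.ext (by
      have hq : B.dia (Sys.twGen j) ^ 2 -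
          (φ (st.M₀ (τ j)).trace ^ 2 - (1 + 1)) * B.dia (Sys.twGen j) + 1 = 0 := by
        rw [one_add_one_eq_two]; exact hquad j
      show B.dia (Sys.twGen j) ^ 2 + (1 + 1) * B.dia (Sys.twGen j) + 1 =
        φ (st.M₀ (τ j)).trace ^ 2 * B.dia (Sys.twGen j)
      rw [← Sys.quad_add _ (φ (st.M₀ (τ j)).trace), hq, zero_add])
    have heSR : (⟨e, heB⟩ : B.equivEnd) * S ^ 2 = ⟨e, heB⟩ * R ^ 2 := Subtype.ext (by
      show e * φ (st.M₀ (τ j)).trace ^ 2 =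
        e * φ (st.γ₀ (Patch.inclPS rightVar (gdia j))) ^ 2
      rw [← map_pow φ, ← map_pow φ]
      exact heq _ _ (by rw [map_pow, map_pow, hdiaπ]))
    show eM * _ = 0
    have h1 := congrArg (B.matHom ε) hrelS
    have h2 := congrArg (B.matHom ε) heSR
    simp only [map_mul, map_add, map_pow, map_one] at h1 h2
    rw [hy, hR, heM]
    exact mul_quad_pow_eq_zero h1 h2 hK0
  · intro 𝒟 Dat S₀ φ₀ hφ₀ f hf x g hx hg
    show (eM * actB (Patch.inclPS rightVar g)).map (augT r n) = 0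
    have h0 : e ∘ₗ φ (st.γ₀ (Patch.inclPS rightVar g)) = e ∘ₗ φ x := by
      exact heq _ _ (by rw [st.γ₀_right, hg])
    have h1 : eM * actB (Patch.inclPS rightVar g) = eM * B.mat B ε (φ x) := by
      rw [heM, Sys.DBasis.matHom_apply, hactB,
        ← Sys.DBasis.mat_comp _ ε (B.mem_equivEnd.mp heB), h0,
        Sys.DBasis.mat_comp _ ε (B.mem_equivEnd.mp heB)]
    have h2 : c₁ ∘ₗ φ x = (0 : Module.End 𝒪 (F.highBase N₀)) ∘ₗ c₁ := by
      rw [hcint Dat S₀ φ₀ hφ₀ f hf x, hx]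
    rw [h1, Matrix.map_mul, show (B.mat B ε (φ x)).map (augT r n) = 0 from
      (B.map_mat_of_base e₁ hc hd h2 ε (Sys.augTₐ r n)
        (Sys.augT_character (twEps_gen F r n))).trans
        (by rw [map_zero, Matrix.map_zero _ (map_zero _)]), Matrix.mul_zero]

end FLTAgent.RT.Main
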