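import Fermat.Agent.RT.Raise.PairStage
import Fermat.Agent.RT.HeckeRep.Quotient
import Fermat.Agent.RT.AtP.Quot
import Fermat.Agent.RT.Raise.OldPoint
import Fermat.Agent.GalRep.Specializations

/-!
# Strict ordinarity on a lattice new at `p`

If the deformation ring without a condition at `p` acts on a lattice with operators of the level
`K p` on which `U p` has square one, the action factors through the strict deformation ring: no eigen
system of level `K` can meet such a system.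
-/

set_option autoImplicit false
set_option linter.unusedSectionVars false

noncomputable section

open IsLocalRing Matrix Polynomial FLTAgent.Deformation FLTAgent.GalRep

namespace FLTAgent.RT.Raise

local notation "Γℚ" => AlgebraicClosure ℚ ≃ₐ[ℚ] AlgebraicClosure ℚ

variable {p : ℕ} [Fact p.Prime]

/-- An element in every power of the maximal ideal vanishes. -/
theorem eq_zero_of_mem_pows {T : Type} [CommRing T] [IsLocalRing T] [IsNoetherianRing T] {x : T}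
    (h : ∀ n : ℕ, x ∈ maximalIdeal T ^ n) : x = 0 := by
  rw [← Ideal.mem_bot,
    ← Ideal.iInf_pow_eq_bot_of_isLocalRing (maximalIdeal T) (maximalIdeal.isMaximal T).ne_top,
    Submodule.mem_iInf]
  exact h

/-- The characteristic polynomial of a Frobenius element from its trace. -/
theorem charpoly_eq_of_trace_frob {T : Type} [CommRing T] [IsLocalRing T] [IsNoetherianRing T]
    [IsAdicComplete (maximalIdeal T) T] (ρ : GaloisRepAdic T) (h : ρ.DetIsCyclotomic p) {ℓ : ℕ}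
    (hℓ : ℓ.Prime) (hℓp : ℓ ≠ p) {A : ValuationSubring (AlgebraicClosure ℚ)}
    (hA : A.LiesOverPrime ℓ) {σ : Γℚ} (hσ : A.IsFrobeniusAt σ ℓ) :
    LinearMap.charpoly (ρ.ρ σ) = X ^ 2 - C (ρ.trace σ) * X + C (ℓ : T) := by
  have hd : LinearMap.det (ρ.ρ σ) = (ℓ : T) := by
    rw [← sub_eq_zero]
    refine eq_zero_of_mem_pows fun n => ?_
    refine (Ideal.span_le.mpr ?_) (h.2 n σ ℓ fun μ hμ =>
      Eisen.frobenius_apply_root hA hσ (pow_ne_zero _ (Fact.out : p.Prime).ne_zero)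
        (Nat.Coprime.pow_left n ((Nat.coprime_primes Fact.out hℓ).mpr hℓp.symm)) hμ)
    rintro _ rfl
    rw [SetLike.mem_coe, Nat.cast_pow]
    exact Ideal.pow_mem_pow h.1 n
  rw [← LinearMap.charpoly_toMatrix (ρ.ρ σ) (stdBasis ρ), Matrix.charpoly_fin_two,
    GaloisRepAdic.trace, LinearMap.trace_eq_matrix_trace _ (stdBasis ρ), LinearMap.det_toMatrix, hd]

section Quot

variable {𝒪 : Type} [CommRing 𝒪] [IsDomain 𝒪] [IsDiscreteValuationRing 𝒪] [CharZero 𝒪]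
  {R : Type} [CommRing R] [Algebra 𝒪 R] {K : ℕ} [NeZero K] [NeZero (K * p)] {S₁ : Finset ℕ}
  {Q : Type} [AddCommGroup Q] [Module 𝒪 Q] [Module.Finite 𝒪 Q] [Module.Free 𝒪 Q]
  (Θ : CuspForm.heckeAlgebra (K * p) 2 (↑(S₁.erase p) : Set ℕ) →+* Module.End 𝒪 Q)

/-- The operators away from `S₁`. -/
def thetaAway : CuspForm.heckeAlgebra (K * p) 2 (↑S₁ : Set ℕ) →+* Module.End 𝒪 Q :=
  Θ.comp (Subalgebra.inclusion (CuspForm.heckeAlgebra_mono
    (Finset.coe_subset.mpr (S₁.erase_subset p)))).toRingHom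

theorem thetaAway_mem_range (φ : R →ₐ[𝒪] Module.End 𝒪 Q)
    (hKS : ∀ q : ℕ, q.Prime → q ∣ K * p → q ∈ S₁)
    (hgen : ∀ (l : ℕ) (hl : l.Prime) (hlN : ¬ l ∣ K * p) (hlT : l ∉ (↑(S₁.erase p) : Set ℕ)),
      l ∉ S₁ → Θ (CuspForm.heckeAlgebra.T hl hlN hlT) ∈ φ.range)
    (t : CuspForm.heckeAlgebra (K * p) 2 (↑S₁ : Set ℕ)) : thetaAway Θ t ∈ φ.range := by
  obtain ⟨x, hx⟩ := t
  change x ∈ Algebra.adjoin ℤ (CuspForm.heckeGenerators (K * p) 2 (↑S₁ : Set ℕ)) at hx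
  induction hx using Algebra.adjoin_induction with
  | mem x hx =>
    rcases hx with ⟨l, hl, hlN, hlS, rfl⟩ | ⟨q, hqN, hq, hqS, -⟩
    · exact hgen l hl hlN (fun h => hlS (Finset.mem_of_mem_erase h)) hlS
    · exact absurd (hKS q hq hqN) hqS
  | algebraMap n =>
    rw [show (⟨_, algebraMap_mem (CuspForm.heckeAlgebra (K * p) 2 (↑S₁ : Set ℕ)) n⟩ :
      CuspForm.heckeAlgebra (K * p) 2 (↑S₁ : Set ℕ)) = algebraMap ℤ _ n from rfl, eq_intCast,
      map_intCast]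
    exact intCast_mem _ n
  | add x y hx hy ihx ihy => exact map_add (thetaAway Θ) ⟨x, hx⟩ ⟨y, hy⟩ ▸ add_mem ihx ihy
  | mul x y hx hy ihx ihy => exact map_mul (thetaAway Θ) ⟨x, hx⟩ ⟨y, hy⟩ ▸ mul_mem ihx ihy

/-- A quotient acting faithfully has no point which is a system of level `K`. -/
theorem no_old_point (hp : p ∈ S₁)
    (hKS : ∀ q : ℕ, q.Prime → q ∣ K * p → q ∈ S₁) (hpK : ¬ p ∣ K)
    (hU : Θ (CuspForm.heckeAlgebra.U (Fact.out : p.Prime) (dvd_mul_left p K)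
      (Finset.mem_coe.not.mpr (Finset.notMem_erase p S₁))) ^ 2 = 1)
    (φ : R →ₐ[𝒪] Module.End 𝒪 Q) (hφ : Function.Injective φ)
    (hcomm : ∀ r t, Commute (φ r) (Θ t))
    (π : CuspForm.heckeAlgebra (K * p) 2 (↑S₁ : Set ℕ) →+* R)
    (hπ : ∀ t, φ (π t) = thetaAway Θ t)
    (P : Ideal R) (hP : P.IsPrime) (hPO : P.comap (algebraMap 𝒪 R) = ⊥) :
    ¬ ∃ χ : CuspForm.heckeAlgebra K 2 (↑S₁ : Set ℕ) →+* R ⧸ P,
      ∀ (l : ℕ) (hl : l.Prime) (hlM : ¬ l ∣ K * p) (hlM' : ¬ l ∣ K) (hlS : l ∉ (↑S₁ : Set ℕ)),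
        χ (CuspForm.heckeAlgebra.T hl hlM' hlS) =
          Ideal.Quotient.mk P (π (CuspForm.heckeAlgebra.T hl hlM hlS)) := by
  rintro ⟨χ, hχ⟩
  set A₀ := Algebra.adjoin 𝒪 (Set.range Θ ∪ Set.range φ)
  have hmulc : IsMulCommutative A₀ := Algebra.isMulCommutative_adjoin 𝒪 fun x hx y hy => by
    rcases hx with ⟨s, rfl⟩ | ⟨a, rfl⟩ <;> rcases hy with ⟨t, rfl⟩ | ⟨b, rfl⟩
    · exact (Commute.all s t).map Θ
    · exact (hcomm b s).symm
    · exact hcomm a t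
    · exact (Commute.all a b).map φ
  open scoped IsMulCommutative in
  let : CommRing A₀ := inferInstance
  let ι : R →ₐ[𝒪] A₀ := φ.codRestrict A₀ fun a => Algebra.subset_adjoin (Or.inr ⟨a, rfl⟩)
  let Θ₀ : CuspForm.heckeAlgebra (K * p) 2 (↑(S₁.erase p) : Set ℕ) →+* A₀ :=
    Θ.codRestrict A₀ fun t => Algebra.subset_adjoin (Or.inl ⟨t, rfl⟩)
  let : Algebra R A₀ := ι.toRingHom.toAlgebra
  have : IsScalarTower 𝒪 R A₀ := IsScalarTower.of_algebraMap_eq fun a => (ι.commutes a).symm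
  have : Module.Finite 𝒪 A₀ :=
    Module.Finite.of_injective A₀.val.toLinearMap Subtype.val_injective
  have : Module.Finite R A₀ := Module.Finite.of_restrictScalars_finite 𝒪 R A₀
  obtain ⟨P', -, hP', hPP⟩ := Ideal.exists_ideal_over_prime_of_isIntegral (S := A₀) P ⊥ fun a ha => by
    have h0 : φ a = 0 := congrArg Subtype.val (show ι a = 0 from ha)
    rw [hφ (h0.trans (map_zero φ).symm)]
    exact zero_mem P
  let j : R ⧸ P →+* A₀ ⧸ P' := Ideal.quotientMap P' (ι : R →+* A₀) hPP.ge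
  have hinj : Function.Injective (algebraMap 𝒪 (A₀ ⧸ P')) := by
    refine (injective_iff_map_eq_zero _).mpr fun a ha => ?_
    rw [IsScalarTower.algebraMap_apply 𝒪 A₀, Ideal.Quotient.algebraMap_eq,
      Ideal.Quotient.eq_zero_iff_mem, IsScalarTower.algebraMap_apply 𝒪 R A₀] at ha
    have : a ∈ P.comap (algebraMap 𝒪 R) := by
      rw [Ideal.mem_comap, ← hPP, Ideal.mem_comap]
      exact ha
    rwa [hPO, Ideal.mem_bot] at this
  have : CharZero (A₀ ⧸ P') := charZero_of_injective_algebraMap hinj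
  have hins : insert p (S₁.erase p) = S₁ := Finset.insert_erase hp
  have : NeZero p := ⟨(Fact.out : p.Prime).ne_zero⟩
  refine not_exists_old_point Fact.out hpK (S₁.erase p) (Finset.notMem_erase p S₁)
    (fun r hr hrK => Finset.mem_erase.mpr
      ⟨fun e => hpK (e ▸ hrK), hKS r hr (hrK.trans (dvd_mul_right K p))⟩)
    ((Ideal.Quotient.mk P').comp Θ₀) ?_
    ((j.comp χ).comp (Subalgebra.inclusion (CuspForm.heckeAlgebra_mono
      (Finset.coe_subset.mpr hins.ge))).toRingHom) fun l hl hlN hlK hlT hlS => ?_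
  · rw [RingHom.comp_apply, ← map_pow, show Θ₀ _ ^ 2 = 1 from Subtype.ext hU, map_one]
  · have hlS₁ : l ∉ (↑S₁ : Set ℕ) := by rwa [hins] at hlS
    show j (χ (CuspForm.heckeAlgebra.T hl hlK hlS₁)) = Ideal.Quotient.mk P' (Θ₀ _)
    rw [hχ l hl hlN hlK hlS₁]
    show Ideal.Quotient.mk P' (ι (π _)) = _
    congr 1
    exact Subtype.ext (hπ _)

end Quot

section Main

open FLTAgent.RT.Main

attribute [local instance] dualAlg

variable {𝒪 : Type} [CommRing 𝒪] [IsDomain 𝒪] [IsDiscreteValuationRing 𝒪]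
  [IsAdicComplete (maximalIdeal 𝒪) 𝒪] [Finite (ResidueField 𝒪)] [CharZero 𝒪]
  {W : WeierstrassCurve ℤ} {aux : Finset ℕ}

/-- **On a lattice with `U p ^ 2 = 1` the ring without condition acts through the strict one.** -/
theorem eq_zero_of_strict_map (F : Frame 𝒪 W p (flatAt p) aux) {S : Finset ℕ}
    (D₀ : F.FreeData S) (Ds : F.StrictData S) (πs : D₀.R →ₐ[𝒪] Ds.R)
    (hπ : ∀ σ, πs (D₀.ρ.trace σ) = Ds.ρ.trace σ) {K : ℕ} [NeZero K] [NeZero (K * p)]
    (hpK : ¬ p ∣ K) {S₁ : Finset ℕ}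
    (hKS : ∀ q : ℕ, q.Prime → q ∣ K * p → q ∈ S₁) {Q : Type} [AddCommGroup Q] [Module 𝒪 Q]
    [Module.Finite 𝒪 Q] [Module.Free 𝒪 Q]
    (Θ : CuspForm.heckeAlgebra (K * p) 2 (↑(S₁.erase p) : Set ℕ) →+* Module.End 𝒪 Q)
    (hU : Θ (CuspForm.heckeAlgebra.U (Fact.out : p.Prime) (dvd_mul_left p K)
      (Finset.mem_coe.not.mpr (Finset.notMem_erase p S₁))) ^ 2 = 1)
    (φ : D₀.R →ₐ[𝒪] Module.End 𝒪 Q) (hcomm : ∀ r t, Commute (φ r) (Θ t))
    (htr : ∀ (l : ℕ) (hl : l.Prime) (hlN : ¬ l ∣ K * p) (hlT : l ∉ (↑(S₁.erase p) : Set ℕ)),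
      l ∉ S₁ → ∀ A : ValuationSubring (AlgebraicClosure ℚ), A.LiesOverPrime l →
        ∀ σ : Γℚ, A.IsFrobeniusAt σ l →
          φ (D₀.ρ.trace σ) = Θ (CuspForm.heckeAlgebra.T hl hlN hlT))
    {x : D₀.R} (hx : πs x = 0) : φ x = 0 := by
  classical
  rcases subsingleton_or_nontrivial Q with hQ | hQ
  · exact LinearMap.ext fun v => Subsingleton.elim _ _
  have hp : p ∈ S₁ := hKS p Fact.out (dvd_mul_left p K)
  set I := RingHom.ker φ
  have hI : I ≠ ⊤ := RingHom.ker_ne_top φ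
  have : IsLocalRing (D₀.R ⧸ I) := isLocalRing_quotient hI
  have hR := isCoeff_deformationRing D₀
  have hT : IsCoeff 𝒪 (D₀.R ⧸ I) := hR.quotient I
  have := hT.isLocalHom
  let φT : D₀.R ⧸ I →ₐ[𝒪] Module.End 𝒪 Q := Ideal.Quotient.liftₐ I φ fun _ h => h
  have hφT : Function.Injective φT :=
    (injective_iff_map_eq_zero φT).mpr fun a ha => by
      obtain ⟨r, rfl⟩ := Ideal.Quotient.mk_surjective a
      exact Ideal.Quotient.eq_zero_iff_mem.mpr ha
  have : Module.Finite 𝒪 (D₀.R ⧸ I) := Module.Finite.of_injective φT.toLinearMap hφT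
  have : Module.Free 𝒪 (D₀.R ⧸ I) := by
    have : Module.IsTorsionFree 𝒪 (D₀.R ⧸ I) :=
      hφT.moduleIsTorsionFree _ (fun a b => map_smul φT a b)
    exact Module.free_of_finite_type_torsion_free'
  have : IsNoetherianRing (D₀.R ⧸ I) := inferInstance
  have : IsAdicComplete (maximalIdeal (D₀.R ⧸ I)) (D₀.R ⧸ I) :=
    isAdicComplete_of_finite_free (O := 𝒪)
  let q : D₀.R →ₐ[𝒪] D₀.R ⧸ I := Ideal.Quotient.mkₐ 𝒪 I
  have hq : IsLocalHom (q : D₀.R →+* D₀.R ⧸ I) :=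
    IsLocalHom.of_surjective _ Ideal.Quotient.mk_surjective
  set ρT := D₀.ρ.baseChangeAlong (q : D₀.R →+* D₀.R ⧸ I) hq
  have hfree : problem 𝒪 p freeAt S (badSet W p) ρT :=
    cond_baseChangeAlong (F.toFree.type.isCond S _) hR hT q hq D₀.isOfType
  have hres : ρT.residual.IsEquiv
      (F.rb.baseChangeAlong (ResidueField.map (algebraMap 𝒪 (D₀.R ⧸ I)))) :=
    residual_baseChangeAlong_isEquiv D₀ hT q hq fun _ => rfl
  have hgen : ∀ (l : ℕ) (hl : l.Prime) (hlN : ¬ l ∣ K * p)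
      (hlT : l ∉ (↑(S₁.erase p) : Set ℕ)), l ∉ S₁ →
        Θ (CuspForm.heckeAlgebra.T hl hlN hlT) ∈ φT.range := fun l hl hlN hlT hlS => by
    obtain ⟨A, σ, hA, hσ⟩ := Frobenius.exists_liesOverPrime_isFrobeniusAt hl
    exact ⟨q (D₀.ρ.trace σ), htr l hl hlN hlT hlS A hA σ hσ⟩
  let e := AlgEquiv.ofInjective φT hφT
  let π : CuspForm.heckeAlgebra (K * p) 2 (↑S₁ : Set ℕ) →+* D₀.R ⧸ I :=
    (e.symm : φT.range →+* D₀.R ⧸ I).comp
      ((thetaAway Θ).codRestrict φT.range (thetaAway_mem_range Θ φT hKS hgen))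
  have hπT : ∀ t, φT (π t) = thetaAway Θ t := fun t =>
    congrArg Subtype.val (e.apply_symm_apply
      ⟨thetaAway Θ t, thetaAway_mem_range Θ φT hKS hgen t⟩)
  let H : AtP.Quot.RepDatum (K * p) S₁ (D₀.R ⧸ I) := {
    π := π
    ρ := ρT
    charpoly_frob := fun l hl hlN hlS A hA σ hσ => by
      rw [charpoly_eq_of_trace_frob ρT hfree.1.1 hl
        (fun e => hlS (by rw [e]; exact Finset.mem_coe.mpr hp)) hA hσ]
      refine congrArg (fun c => X ^ 2 - C c * X + C (l : D₀.R ⧸ I)) (hφT ?_)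
      rw [hπT, CommAlg.trace_baseChangeAlong]
      exact htr l hl hlN (fun h => hlS (Finset.mem_of_mem_erase h)) hlS A hA σ hσ
    residual_absIrr := isAbsolutelyIrreducible_of_isEquiv hres
      (isAbsolutelyIrreducible_baseChangeAlong _ F.rb F.absIrr) }
  have hpT : (p : D₀.R ⧸ I) ∈ maximalIdeal (D₀.R ⧸ I) := hfree.1.1.1
  have hcommT : ∀ r t, Commute (φT r) (Θ t) := fun r t => by
    obtain ⟨r, rfl⟩ := Ideal.Quotient.mk_surjective r
    exact hcomm r t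
  have hstrict : ρT.IsStrictOrdinaryAt p :=
    AtP.Quot.isStrictOrdinaryAt_of_pNew specializationsExist hpK F.ne_two hpT hKS H fun z hz =>
      AtP.Quot.eq_zero_of_no_old_point (𝒪 := 𝒪) hKS π
        (no_old_point Θ hp hKS hpK hU φT hφT hcommT π hπT) z hz
  obtain ⟨f, ⟨hf, hfe⟩, -⟩ := Ds.universal (D₀.R ⧸ I) hT.residue_surjective ρT
    ⟨⟨hfree.1.1, hstrict, hfree.1.2.2⟩, hfree.2⟩ hres
  have htrf : ∀ σ, f (Ds.ρ.trace σ) = q (D₀.ρ.trace σ) := fun σ => by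
    have h := CommAlg.trace_eq_of_isEquiv hfe σ
    rw [CommAlg.trace_baseChangeAlong, CommAlg.trace_baseChangeAlong] at h
    exact h
  have hfac : f.comp πs = q := AlgHom.ext fun r =>
    sub_eq_zero.mp (eq_zero_of_mem_pows fun n => by
      have := hT.finite_residueField
      have : Finite ((D₀.R ⧸ I) ⧸ maximalIdeal (D₀.R ⧸ I) ^ n) :=
        IsLocalRing.finite_quotient_iff.mpr ⟨n, le_rfl⟩
      refine Ideal.Quotient.eq.mp (AlgHom.congr_fun (Sys.algHom_finite_ext_frobTraces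
        (F.toFree.type.isCond S _) D₀ ∅ (φ := (Ideal.Quotient.mkₐ 𝒪 _).comp (f.comp πs))
        (ψ := (Ideal.Quotient.mkₐ 𝒪 _).comp q) fun y hy => ?_) r)
      obtain ⟨l, -, -, A, -, σ, -, rfl⟩ := hy
      show Ideal.Quotient.mkₐ 𝒪 _ (f (πs _)) = Ideal.Quotient.mkₐ 𝒪 _ (q _)
      rw [hπ, htrf])
  have h0 : q x = 0 := by rw [← hfac, AlgHom.comp_apply, hx, map_zero]
  exact Ideal.Quotient.eq_zero_iff_mem.mp h0

end Main

end FLTAgent.RT.Raise
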